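import Fermat.Agent.S53.Defs
import Mathlib

/-!
# S53: Burnside for absolutely irreducible 2-dimensional representations
-/

set_option autoImplicit false

namespace Fermat.Agent.S53

open Matrix IsLocalRing TensorProduct

section Core

variable {F : Type*} [Field F]

/-- two vectors orthogonal to a non-zero vector in the plane are proportional -/
lemma bs_prop {u v w : Fin 2 → F} (hu : u ≠ 0) (hw : w ≠ 0) (h1 : w ⬝ᵥ u = 0) (h2 : w ⬝ᵥ v = 0) :
    ∃ c : F, v = c • u := by
  simp only [dotProduct, Fin.sum_univ_two] at h1 h2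
  have hdet : u 0 * v 1 - u 1 * v 0 = 0 := by
    by_cases hw0 : w 0 = 0
    · have hw1 : w 1 ≠ 0 := by
        intro hw1; apply hw; ext i; fin_cases i <;> simp [hw0, hw1]
      have : w 1 * (u 0 * v 1 - u 1 * v 0) = 0 := by
        linear_combination u 0 * h2 - v 0 * h1
      exact (mul_eq_zero.mp this).resolve_left hw1
    · have : w 0 * (u 0 * v 1 - u 1 * v 0) = 0 := by
        linear_combination v 1 * h1 - u 1 * h2
      exact (mul_eq_zero.mp this).resolve_left hw0
  by_cases hu0 : u 0 = 0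
  · have hu1 : u 1 ≠ 0 := by
      intro hu1; apply hu; ext i; fin_cases i <;> simp [hu0, hu1]
    refine ⟨v 1 / u 1, ?_⟩
    ext i; fin_cases i
    · simp only [Fin.zero_eta, Pi.smul_apply, smul_eq_mul, hu0, mul_zero]
      rw [hu0] at hdet
      have : u 1 * v 0 = 0 := by linear_combination -hdet
      exact (mul_eq_zero.mp this).resolve_left hu1
    · simp only [Fin.mk_one, Pi.smul_apply, smul_eq_mul]
      field_simp
  · refine ⟨v 0 / u 0, ?_⟩
    ext i; fin_cases i
    · simp only [Fin.zero_eta, Pi.smul_apply, smul_eq_mul]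
      field_simp
    · simp only [Fin.mk_one, Pi.smul_apply, smul_eq_mul]
      field_simp
      linear_combination hdet

/-- a non-zero singular 2x2 matrix has rank one -/
lemma bs_rank_one {N : Matrix (Fin 2) (Fin 2) F} (hN : N ≠ 0) (hdet : N.det = 0) :
    ∃ u w : Fin 2 → F, u ≠ 0 ∧ w ≠ 0 ∧ ∀ i j, N i j = u i * w j := by
  rw [Matrix.det_fin_two] at hdet
  by_cases h00 : N 0 0 = 0
  · by_cases h10 : N 1 0 = 0
    · -- first column zero
      refine ⟨![N 0 1, N 1 1], ![0, 1], ?_, ?_, ?_⟩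
      · intro h
        apply hN
        have a := congrFun h 0
        have b := congrFun h 1
        simp at a b
        ext i j; fin_cases i <;> fin_cases j <;> simp [h00, h10, a, b]
      · intro h; simpa using congrFun h 1
      · intro i j; fin_cases i <;> fin_cases j <;> simp [h00, h10]
    · -- N 0 0 = 0, N 1 0 ≠ 0, so N 0 1 = 0
      have h01 : N 0 1 = 0 := by
        rw [h00] at hdet
        have : N 0 1 * N 1 0 = 0 := by linear_combination -hdet
        exact (mul_eq_zero.mp this).resolve_right h10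
      refine ⟨![0, 1], ![N 1 0, N 1 1], ?_, ?_, ?_⟩
      · intro h; simpa using congrFun h 1
      · intro h; exact h10 (by simpa using congrFun h 0)
      · intro i j; fin_cases i <;> fin_cases j <;> simp [h00, h01]
  · refine ⟨![N 0 0, N 1 0], ![1, N 0 1 / N 0 0], ?_, ?_, ?_⟩
    · intro h; exact h00 (by simpa using congrFun h 0)
    · intro h; simpa using congrFun h 0
    · intro i j; fin_cases i <;> fin_cases j <;> simp
      · field_simp
      · field_simp; linear_combination hdet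

variable (S : Set (Matrix (Fin 2) (Fin 2) F)) 

lemma bs_pair (h1 : (1 : Matrix (Fin 2) (Fin 2) F) ∈ S)
    (hirr : ∀ v : Fin 2 → F, v ≠ 0 → ∃ X ∈ S, ∀ c : F, X.mulVec v ≠ c • v)
    {u w : Fin 2 → F} (hu : u ≠ 0) (hw : w ≠ 0) : ∃ X ∈ S, w ⬝ᵥ X.mulVec u ≠ 0 := by
  by_contra hcon
  push Not at hcon
  obtain ⟨X, hX, hXc⟩ := hirr u hu
  have h0 : w ⬝ᵥ u = 0 := by simpa using hcon 1 h1
  obtain ⟨c, hc⟩ := bs_prop hu hw h0 (hcon X hX)
  exact hXc c hc

lemma bs_singular (h1 : (1 : Matrix (Fin 2) (Fin 2) F) ∈ S)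
    (hirr : ∀ v : Fin 2 → F, v ≠ 0 → ∃ X ∈ S, ∀ c : F, X.mulVec v ≠ c • v)
    {N : Matrix (Fin 2) (Fin 2) F} (hN : N ≠ 0) (hdet : N.det = 0) : ∃ X ∈ S, (N * X).trace ≠ 0 := by
  obtain ⟨u, w, hu, hw, huw⟩ := bs_rank_one hN hdet
  obtain ⟨X, hX, hne⟩ := bs_pair S h1 hirr hu hw
  refine ⟨X, hX, ?_⟩
  convert hne using 1
  simp only [Matrix.trace, Matrix.diag, Matrix.mul_apply, Fin.sum_univ_two, dotProduct, Matrix.mulVec, huw]
  ring

theorem bs_core [IsAlgClosed F] (h1 : (1 : Matrix (Fin 2) (Fin 2) F) ∈ S)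
    (hmul : ∀ X ∈ S, ∀ Y ∈ S, X * Y ∈ S)
    (hirr : ∀ v : Fin 2 → F, v ≠ 0 → ∃ X ∈ S, ∀ c : F, X.mulVec v ≠ c • v)
    (B : Matrix (Fin 2) (Fin 2) F) (hB : ∀ X ∈ S, (B * X).trace = 0) : B = 0 := by
  by_contra hB0
  by_cases hdB : B.det = 0
  · obtain ⟨X, hX, hne⟩ := bs_singular S h1 hirr hB0 hdB
    exact hne (hB X hX)
  -- a non scalar element
  obtain ⟨T, hT, hTc⟩ := hirr ![1, 0] (by intro h; simpa using congrFun h 0)
  have hT10 : T 1 0 ≠ 0 := by
    intro h
    apply hTc (T 0 0)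
    ext i; fin_cases i <;> simp [Matrix.mulVec, dotProduct, h]
  -- an eigenvalue
  obtain ⟨l, hl⟩ : ∃ l : F, (T - l • (1 : Matrix (Fin 2) (Fin 2) F)).det = 0 := by
    have hdeg : (Polynomial.C (1 : F) * Polynomial.X ^ 2 + Polynomial.C (-(T 0 0 + T 1 1)) * Polynomial.X
        + Polynomial.C (T 0 0 * T 1 1 - T 0 1 * T 1 0)).degree = 2 :=
      Polynomial.degree_quadratic one_ne_zero
    obtain ⟨l, hl⟩ := IsAlgClosed.exists_root _ (by rw [hdeg]; norm_num)
    refine ⟨l, ?_⟩
    simp only [Polynomial.IsRoot, Polynomial.eval_add, Polynomial.eval_mul, Polynomial.eval_C,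
      Polynomial.eval_pow, Polynomial.eval_X] at hl
    rw [Matrix.det_fin_two]
    simp
    linear_combination hl
  set T0 := T - l • (1 : Matrix (Fin 2) (Fin 2) F) with hT0
  have hT0ne : T0 ≠ 0 := by
    intro h
    apply hT10
    have := congrFun (congrFun h 1) 0
    simpa [hT0] using this
  have hN : T0 * B ≠ 0 := by
    intro h
    apply hT0ne
    have h2 : T0 * B * B.adjugate = 0 := by rw [h, zero_mul]
    rw [mul_assoc, Matrix.mul_adjugate, Matrix.mul_smul, mul_one] at h2
    exact (smul_eq_zero.mp h2).resolve_left hdB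
  have hNdet : (T0 * B).det = 0 := by rw [Matrix.det_mul, hl, zero_mul]
  obtain ⟨X, hX, hne⟩ := bs_singular S h1 hirr hN hNdet
  apply hne
  rw [mul_assoc, Matrix.trace_mul_comm, hT0, mul_sub, Matrix.trace_sub, Matrix.mul_smul, mul_one,
    Matrix.trace_smul, mul_assoc, hB _ (hmul X hX T hT), hB X hX]
  simp

end Core

variable {k : Type} [Field k]

lemma bs_irr (ρbar : ResidualGaloisRep k) (habs : ρbar.IsAbsolutelyIrreducible)
    (bbar : Module.Basis (Fin 2) k ρbar.V) (v : Fin 2 → AlgebraicClosure k) (hv : v ≠ 0) :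
    ∃ σ : Gal, ∀ c : AlgebraicClosure k,
      ((rbarOf ρbar bbar σ).map (algebraMap k (AlgebraicClosure k))).mulVec v ≠ c • v := by
  by_contra hcon
  push Not at hcon
  let b' := Algebra.TensorProduct.basis (AlgebraicClosure k) bbar
  let x := b'.equivFun.symm v
  have hxv : b'.repr x = v := by
    have : b'.equivFun x = v := b'.equivFun.apply_symm_apply v
    simpa using this
  have hx : x ≠ 0 := by
    intro h
    apply hv
    have : b'.equivFun x = v := b'.equivFun.apply_symm_apply v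
    rw [← this, h, map_zero]
  have hact : ∀ σ : Gal, ∃ c : AlgebraicClosure k, (ρbar.ρ σ).baseChange (AlgebraicClosure k) x = c • x := by
    intro σ
    obtain ⟨c, hc⟩ := hcon σ
    refine ⟨c, ?_⟩
    apply b'.repr.injective
    have h1 := LinearMap.toMatrix_mulVec_repr b' b' ((ρbar.ρ σ).baseChange (AlgebraicClosure k)) x
    rw [LinearMap.toMatrix_baseChange] at h1
    ext i
    have h2 := congrFun h1 i
    rw [← h2, hxv]
    have h3 := congrFun hc i
    simp only [map_smul, Finsupp.coe_smul, hxv]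
    exact h3
  have hinv : ∀ σ : Gal, ∀ y ∈ Submodule.span (AlgebraicClosure k) {x},
      (ρbar.baseChange (AlgebraicClosure k)).ρ σ y ∈ Submodule.span (AlgebraicClosure k) {x} := by
    intro σ y hy
    obtain ⟨a, rfl⟩ := Submodule.mem_span_singleton.mp hy
    obtain ⟨c, hc⟩ := hact σ
    change (ρbar.ρ σ).baseChange (AlgebraicClosure k) (a • x) ∈ _
    rw [map_smul, hc]
    exact Submodule.smul_mem _ _ (Submodule.smul_mem _ _ (Submodule.mem_span_singleton_self x))
  rcases habs _ hinv with h | h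
  · exact hx ((Submodule.span_singleton_eq_bot).mp h)
  · have h1 : Module.finrank (AlgebraicClosure k) (Submodule.span (AlgebraicClosure k) {x}) = 1 :=
      finrank_span_singleton hx
    rw [h, finrank_top] at h1
    have h2 := (ρbar.baseChange (AlgebraicClosure k)).finrank_eq
    change Module.finrank (AlgebraicClosure k) (AlgebraicClosure k ⊗[k] ρbar.V) = 2 at h2
    omega

lemma bs_span (ρbar : ResidualGaloisRep k) (habs : ρbar.IsAbsolutelyIrreducible)
    (bbar : Module.Basis (Fin 2) k ρbar.V) :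
    Submodule.span k (Set.range (rbarOf ρbar bbar)) = ⊤ := by
  by_contra hne
  obtain ⟨f, hf0, hf⟩ := Submodule.exists_le_ker_of_lt_top _ (lt_top_iff_ne_top.mpr hne)
  let B : M2 k := fun j i => f (Matrix.single i j 1)
  have hfB : ∀ X : M2 k, f X = (B * X).trace := by
    intro X
    conv_lhs => rw [Matrix.matrix_eq_sum_single X]
    have : ∀ i j, f (Matrix.single i j (X i j)) = X i j * B j i := by
      intro i j
      have : Matrix.single i j (X i j) = X i j • Matrix.single i j (1 : k) := by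
        rw [Matrix.smul_single, smul_eq_mul, mul_one]
      rw [this, map_smul, smul_eq_mul]
    simp only [Fin.sum_univ_two, map_add, Matrix.trace, Matrix.diag, Matrix.mul_apply, this]
    ring
  let φ := algebraMap k (AlgebraicClosure k)
  have hB' : B.map φ = 0 := by
    apply bs_core (Set.range fun σ : Gal => (rbarOf ρbar bbar σ).map φ)
    · exact ⟨1, by simp [φ]⟩
    · rintro _ ⟨σ, rfl⟩ _ ⟨τ, rfl⟩
      exact ⟨σ * τ, by simp only [map_mul, Matrix.map_mul]⟩
    · intro v hv
      obtain ⟨σ, hσ⟩ := bs_irr ρbar habs bbar v hv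
      exact ⟨_, ⟨σ, rfl⟩, hσ⟩
    · rintro _ ⟨σ, rfl⟩
      rw [← Matrix.map_mul]
      have h0 : (B * rbarOf ρbar bbar σ).trace = 0 := by
        rw [← hfB]
        exact hf (Submodule.subset_span ⟨σ, rfl⟩)
      have h1 : ((B * rbarOf ρbar bbar σ).map φ).trace = φ (B * rbarOf ρbar bbar σ).trace := by
        simp only [Matrix.trace, Matrix.diag, Matrix.map_apply, map_sum]
      rw [h1, h0, map_zero]
  have hB : B = 0 := by
    ext i j
    have := congrFun (congrFun hB' i) j
    simpa [φ] using this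
  apply hf0
  apply LinearMap.ext
  intro X
  rw [hfB, hB]
  simp

/-- C2 -/
theorem exists_xy {𝒪 : Type} [CommRing 𝒪] [IsLocalRing 𝒪]
    (ρbar : ResidualGaloisRep (ResidueField 𝒪)) (habs : ρbar.IsAbsolutelyIrreducible)
    (bbar : Module.Basis (Fin 2) (ResidueField 𝒪) ρbar.V) :
    ∃ x y : Gal →₀ 𝒪,
      lin (𝒪 := 𝒪) (rbarOf ρbar bbar) x = !![1, 0; 0, 0] ∧
      lin (𝒪 := 𝒪) (rbarOf ρbar bbar) y = !![0, 0; 1, 0] := by
  have hspan : Submodule.span 𝒪 (Set.range (rbarOf ρbar bbar)) = ⊤ := by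
    have h := Submodule.restrictScalars_span 𝒪 (ResidueField 𝒪)
      (IsLocalRing.residue_surjective (R := 𝒪)) (Set.range (rbarOf ρbar bbar))
    rw [← h, bs_span ρbar habs bbar]
    rfl
  have key : ∀ M : M2 (ResidueField 𝒪), ∃ x : Gal →₀ 𝒪, lin (𝒪 := 𝒪) (rbarOf ρbar bbar) x = M := by
    intro M
    have hM : M ∈ Submodule.span 𝒪 (Set.range (rbarOf ρbar bbar)) := by rw [hspan]; trivial
    obtain ⟨c, hc⟩ := (Finsupp.mem_span_range_iff_exists_finsupp).mp hM
    exact ⟨c, by rw [lin, Finsupp.linearCombination_apply]; exact hc⟩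
  obtain ⟨x, hx⟩ := key !![1, 0; 0, 0]
  obtain ⟨y, hy⟩ := key !![0, 0; 1, 0]
  exact ⟨x, y, hx, hy⟩

end Fermat.Agent.S53
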