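import Fermat.Agent.S53.Defs

/-!
# S53: existence and uniqueness of the normal form of a lift
-/

set_option autoImplicit false

namespace Fermat.Agent.S53

open IsLocalRing

variable {𝒪 : Type} [CommRing 𝒪] [IsLocalRing 𝒪] {A : Type} [CommRing A] [IsLocalRing A]
  [Algebra 𝒪 A] (rbar : Gal →* M2 (ResidueField 𝒪)) (x y : Gal →₀ 𝒪)

variable {rbar} in
lemma algebraMap_mem_of_resCond {r : Gal →* M2 A} (hres : ResCond rbar r) {c : 𝒪}
    (hc : c ∈ maximalIdeal 𝒪) : algebraMap 𝒪 A c ∈ maximalIdeal A := by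
  have h := hres 1 0 1 c (by rw [(residue_eq_zero_iff c).mpr hc, map_one]; simp)
  rw [map_one] at h
  simpa using h

omit [IsLocalRing 𝒪] [IsLocalRing A] in
lemma lin_apply (r : Gal →* M2 A) (x : Gal →₀ 𝒪) (i j : Fin 2) :
    lin r x i j = ∑ σ ∈ x.support, algebraMap 𝒪 A (x σ) * r σ i j := by
  rw [lin, Finsupp.linearCombination_apply, Finsupp.sum, Matrix.sum_apply]
  refine Finset.sum_congr rfl fun σ _ => ?_
  rw [Matrix.smul_apply, Algebra.smul_def]

variable {rbar} in
lemma lin_resCond {r : Gal →* M2 A} (hres : ResCond rbar r) (x : Gal →₀ 𝒪) (i j : Fin 2) (c : 𝒪)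
    (hc : residue 𝒪 c = lin (𝒪 := 𝒪) rbar x i j) :
    lin r x i j - algebraMap 𝒪 A c ∈ maximalIdeal A := by
  choose cl hcl using fun σ => residue_surjective (rbar σ i j)
  have h1 : lin r x i j - algebraMap 𝒪 A (∑ σ ∈ x.support, x σ * cl σ) ∈ maximalIdeal A := by
    rw [lin_apply, map_sum, ← Finset.sum_sub_distrib]
    refine Ideal.sum_mem _ fun σ _ => ?_
    rw [map_mul, ← mul_sub]
    exact Ideal.mul_mem_left _ _ (hres σ i j _ (hcl σ))
  have h2 : (∑ σ ∈ x.support, x σ * cl σ) - c ∈ maximalIdeal 𝒪 := by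
    rw [← residue_eq_zero_iff, map_sub, sub_eq_zero, hc, lin_apply, map_sum]
    refine Finset.sum_congr rfl fun σ _ => ?_
    rw [map_mul, hcl, ResidueField.algebraMap_eq]
  have h3 := algebraMap_mem_of_resCond hres h2
  rw [map_sub] at h3
  have := (maximalIdeal A).add_mem h1 h3
  simpa using this

omit [IsLocalRing 𝒪] [IsLocalRing A] in
lemma lin_conj {r₁ r₂ : Gal →* M2 A} (M : M2 A) (h : ∀ σ, M * r₁ σ = r₂ σ * M) (x : Gal →₀ 𝒪) :
    M * lin r₁ x = lin r₂ x * M := by
  rw [lin, lin, Finsupp.linearCombination_apply, Finsupp.linearCombination_apply, Finsupp.sum,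
    Finsupp.sum, Finset.mul_sum, Finset.sum_mul]
  refine Finset.sum_congr rfl fun σ _ => ?_
  rw [Matrix.mul_smul, Matrix.smul_mul, h σ]

/-- C3a: uniqueness (`A` any local `𝒪`-algebra). -/
theorem normal_unique
    (hx : lin (𝒪 := 𝒪) rbar x = !![1, 0; 0, 0]) (hy : lin (𝒪 := 𝒪) rbar y = !![0, 0; 1, 0])
    {r₁ r₂ : Gal →* M2 A} (hres₁ : ResCond rbar r₁) (hres₂ : ResCond rbar r₂)
    (hn₁ : Normalized x y r₁) (hn₂ : Normalized x y r₂)
    (M : M2 A) (hM : IsUnit M) (h : ∀ σ, M * r₁ σ = r₂ σ * M) : r₁ = r₂ := by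
  have hT := lin_conj M h x
  have hS := lin_conj M h y
  obtain ⟨hT1, hS1, hS1'⟩ := hn₁
  obtain ⟨hT2, hS2, hS2'⟩ := hn₂
  -- a₁ ≡ 1, d₂ ≡ 0
  have ha : lin r₁ x 0 0 - 1 ∈ maximalIdeal A := by
    have := lin_resCond hres₁ x 0 0 1 (by rw [hx]; simp)
    simpa using this
  have hd : lin r₂ x 1 1 ∈ maximalIdeal A := by
    have := lin_resCond hres₂ x 1 1 0 (by rw [hx]; simp)
    simpa using this
  have hu : IsUnit (lin r₁ x 0 0 - lin r₂ x 1 1) := by
    by_contra hnu
    have h1 : lin r₁ x 0 0 - lin r₂ x 1 1 ∈ maximalIdeal A := (mem_maximalIdeal _).mpr hnu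
    have h2 : (1 : A) ∈ maximalIdeal A := by
      have := (maximalIdeal A).sub_mem ((maximalIdeal A).add_mem h1 hd) ha
      simpa using this
    exact (Ideal.ne_top_iff_one _).mp (maximalIdeal.isMaximal A).ne_top h2
  -- entry (1,0) of hT
  have e10 := congrFun (congrFun hT 1) 0
  simp only [Matrix.mul_apply, Fin.sum_univ_two, hT1, hT2] at e10
  have hq : M 1 0 = 0 := by
    have : (lin r₁ x 0 0 - lin r₂ x 1 1) * M 1 0 = 0 := by linear_combination e10
    exact (hu.mul_right_eq_zero).mp this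
  have f00 := congrFun (congrFun hS 0) 0
  have f10 := congrFun (congrFun hS 1) 0
  simp only [Matrix.mul_apply, Fin.sum_univ_two, hS1, hS1', hS2, hS2', hq] at f00 f10
  have h01 : M 0 1 = 0 := by linear_combination f00
  have h11 : M 1 1 = M 0 0 := by linear_combination f10
  have hM' : M = M 0 0 • (1 : M2 A) := by
    ext i j
    fin_cases i <;> fin_cases j <;> simp [hq, h01, h11]
  have hp : IsUnit (M 0 0) := by
    have h1 := (Matrix.isUnit_iff_isUnit_det M).mp hM
    rw [Matrix.det_fin_two, hq, h11, mul_zero, sub_zero] at h1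
    exact isUnit_of_mul_isUnit_left h1
  ext σ : 1
  have h2 := h σ
  rw [hM', Matrix.smul_mul, Matrix.mul_smul, one_mul, mul_one] at h2
  obtain ⟨u, hu'⟩ := hp
  rw [← hu'] at h2
  have h3 := congrArg (fun N => (↑u⁻¹ : A) • N) h2
  simpa [smul_smul] using h3

omit [IsLocalRing A] in
/-- Conjugate of a matrix representation by an invertible matrix. -/
noncomputable def conjRep (P : (M2 A)ˣ) (r : Gal →* M2 A) : Gal →* M2 A where
  toFun σ := (↑P⁻¹ : M2 A) * r σ * (P : M2 A)
  map_one' := by simp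
  map_mul' σ τ := by
    rw [map_mul]
    have h : (P : M2 A) * (↑P⁻¹ : M2 A) = 1 := P.mul_inv
    calc (↑P⁻¹ : M2 A) * (r σ * r τ) * (P : M2 A)
        = (↑P⁻¹ : M2 A) * r σ * 1 * r τ * (P : M2 A) := by simp only [mul_one, mul_assoc]
      _ = _ := by rw [← h]; simp only [mul_assoc]

omit [IsLocalRing A] in
lemma mul_mul_entries_mem (I : Ideal A) (X N Y : M2 A) (hN : ∀ i j, N i j ∈ I) (i j : Fin 2) :
    (X * N * Y) i j ∈ I := by
  simp only [Matrix.mul_apply]
  refine Ideal.sum_mem _ fun a _ => Ideal.mul_mem_right _ _ ?_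
  exact Ideal.sum_mem _ fun b _ => Ideal.mul_mem_left _ _ (hN b a)

lemma isUnit_of_sub_one_mem {a : A} (h : a - 1 ∈ maximalIdeal A) : IsUnit a := by
  by_contra hnu
  have h1 : a ∈ maximalIdeal A := (mem_maximalIdeal _).mpr hnu
  have h2 : (1 : A) ∈ maximalIdeal A := by
    have := (maximalIdeal A).sub_mem h1 h
    simpa using this
  exact (Ideal.ne_top_iff_one _).mp (maximalIdeal.isMaximal A).ne_top h2

/-- C3b: existence (`A` Henselian, e.g. complete). -/
theorem normal_exists [HenselianLocalRing A]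
    (hx : lin (𝒪 := 𝒪) rbar x = !![1, 0; 0, 0]) (hy : lin (𝒪 := 𝒪) rbar y = !![0, 0; 1, 0])
    {r : Gal →* M2 A} (hc : MatCont r) (hres : ResCond rbar r) :
    ∃ (r' : Gal →* M2 A) (M : M2 A), IsUnit M ∧ (∀ σ, M * r σ = r' σ * M) ∧
      MatCont r' ∧ ResCond rbar r' ∧ Normalized x y r' := by
  set T := lin r x with hT
  set S := lin r y with hS
  have T00 : T 0 0 - 1 ∈ maximalIdeal A := by
    simpa only [map_one] using lin_resCond hres x 0 0 1 (by rw [hx]; simp)
  have T01 : T 0 1 ∈ maximalIdeal A := by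
    simpa only [map_zero, sub_zero] using lin_resCond hres x 0 1 0 (by rw [hx]; simp)
  have T10 : T 1 0 ∈ maximalIdeal A := by
    simpa only [map_zero, sub_zero] using lin_resCond hres x 1 0 0 (by rw [hx]; simp)
  have T11 : T 1 1 ∈ maximalIdeal A := by
    simpa only [map_zero, sub_zero] using lin_resCond hres x 1 1 0 (by rw [hx]; simp)
  have S00 : S 0 0 ∈ maximalIdeal A := by
    simpa only [map_zero, sub_zero] using lin_resCond hres y 0 0 0 (by rw [hy]; simp)
  have S01 : S 0 1 ∈ maximalIdeal A := by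
    simpa only [map_zero, sub_zero] using lin_resCond hres y 0 1 0 (by rw [hy]; simp)
  have S10 : S 1 0 - 1 ∈ maximalIdeal A := by
    simpa only [map_one] using lin_resCond hres y 1 0 1 (by rw [hy]; simp)
  have S11 : S 1 1 ∈ maximalIdeal A := by
    simpa only [map_zero, sub_zero] using lin_resCond hres y 1 1 0 (by rw [hy]; simp)
  -- Hensel
  set t := T 0 0 + T 1 1 with ht
  set d := T 0 0 * T 1 1 - T 0 1 * T 1 0 with hd
  have ht1 : t - 1 ∈ maximalIdeal A := by
    have := (maximalIdeal A).add_mem T00 T11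
    have e : t - 1 = T 0 0 - 1 + T 1 1 := by rw [ht]; ring
    rwa [e]
  have hd0 : d ∈ maximalIdeal A :=
    (maximalIdeal A).sub_mem (Ideal.mul_mem_left _ _ T11) (Ideal.mul_mem_left _ _ T10)
  obtain ⟨α, hα, hα1⟩ := HenselianLocalRing.is_henselian
    (Polynomial.X ^ 2 - Polynomial.C t * Polynomial.X + Polynomial.C d : Polynomial A)
    (by monicity!) 1
    (by
      have e : Polynomial.eval 1 (Polynomial.X ^ 2 - Polynomial.C t * Polynomial.X +
          Polynomial.C d : Polynomial A) = d - (t - 1) := by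
        simp; ring
      rw [e]
      exact (maximalIdeal A).sub_mem hd0 ht1)
    (by
      have e : Polynomial.eval 1 (Polynomial.derivative (Polynomial.X ^ 2 -
          Polynomial.C t * Polynomial.X + Polynomial.C d : Polynomial A)) = 2 - t := by
        simp; norm_num
      rw [e]
      apply isUnit_of_sub_one_mem
      have e' : 2 - t - 1 = -(t - 1) := by ring
      rw [e']
      exact (maximalIdeal A).neg_mem ht1)
  have hα' : α ^ 2 - t * α + d = 0 := by
    simpa [Polynomial.IsRoot] using hα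
  set β := t - α with hβ
  have hβ0 : β ∈ maximalIdeal A := by
    have e : β = (t - 1) - (α - 1) := by rw [hβ]; ring
    rw [e]
    exact (maximalIdeal A).sub_mem ht1 hα1
  set v0 := T 0 0 - β with hv0
  set v1 := T 1 0 with hv1
  set w0 := S 0 0 * v0 + S 0 1 * v1 with hw0
  set w1 := S 1 0 * v0 + S 1 1 * v1 with hw1
  have v0m : v0 - 1 ∈ maximalIdeal A := by
    have e : v0 - 1 = (T 0 0 - 1) - β := by rw [hv0]; ring
    rw [e]
    exact (maximalIdeal A).sub_mem T00 hβ0
  have w0m : w0 ∈ maximalIdeal A :=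
    (maximalIdeal A).add_mem (Ideal.mul_mem_right _ _ S00) (Ideal.mul_mem_right _ _ S01)
  have w1m : w1 - 1 ∈ maximalIdeal A := by
    have e : w1 - 1 = (S 1 0 - 1) * v0 + (v0 - 1) + S 1 1 * v1 := by rw [hw1]; ring
    rw [e]
    exact (maximalIdeal A).add_mem ((maximalIdeal A).add_mem (Ideal.mul_mem_right _ _ S10) v0m)
      (Ideal.mul_mem_right _ _ S11)
  set P0 : M2 A := !![v0, w0; v1, w1] with hP0
  have hdet : IsUnit P0.det := by
    apply isUnit_of_sub_one_mem
    have e : P0.det - 1 = (v0 - 1) * w1 + (w1 - 1) - w0 * v1 := by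
      rw [hP0, Matrix.det_fin_two_of]; ring
    rw [e]
    exact (maximalIdeal A).sub_mem ((maximalIdeal A).add_mem (Ideal.mul_mem_right _ _ v0m) w1m)
      (Ideal.mul_mem_right _ _ w0m)
  obtain ⟨P, hP⟩ := (Matrix.isUnit_iff_isUnit_det P0).mpr hdet
  have hPm : ∀ i j, ((P : M2 A) - 1) i j ∈ maximalIdeal A := by
    intro i j
    rw [hP, hP0]
    fin_cases i <;> fin_cases j <;> simpa
  have hinvP : (↑P⁻¹ : M2 A) * (P : M2 A) = 1 := P.inv_mul
  have hPinv : (P : M2 A) * (↑P⁻¹ : M2 A) = 1 := P.mul_inv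
  have hconj : ∀ σ, (↑P⁻¹ : M2 A) * r σ = conjRep P r σ * (↑P⁻¹ : M2 A) := by
    intro σ
    change _ = (↑P⁻¹ : M2 A) * r σ * (P : M2 A) * (↑P⁻¹ : M2 A)
    rw [mul_assoc _ (P : M2 A), hPinv, mul_one]
  refine ⟨conjRep P r, (↑P⁻¹ : M2 A), P⁻¹.isUnit, hconj, ?_, ?_, ?_⟩
  · -- continuity
    intro n
    obtain ⟨L, hL, h⟩ := hc n
    refine ⟨L, hL, fun σ hσ i j => ?_⟩
    have e : conjRep P r σ - 1 = (↑P⁻¹ : M2 A) * (r σ - 1) * (P : M2 A) := by
      change (↑P⁻¹ : M2 A) * r σ * (P : M2 A) - 1 = _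
      rw [mul_sub, sub_mul, mul_one, hinvP]
    rw [e]
    exact mul_mul_entries_mem _ _ _ _ (h σ hσ) i j
  · -- residual condition
    intro σ i j c hcc
    have e : conjRep P r σ - r σ =
        (↑P⁻¹ : M2 A) * (r σ * ((P : M2 A) - 1) - ((P : M2 A) - 1) * r σ) * 1 := by
      change (↑P⁻¹ : M2 A) * r σ * (P : M2 A) - r σ = _
      have e1 : (↑P⁻¹ : M2 A) * ((P : M2 A) * r σ) = r σ := by
        rw [← mul_assoc, hinvP, one_mul]
      rw [mul_one, mul_sub, mul_sub, sub_mul, mul_sub, mul_one, one_mul, mul_sub, e1, ← mul_assoc]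
      abel
    have h1 : (conjRep P r σ - r σ) i j ∈ maximalIdeal A := by
      rw [e]
      refine mul_mul_entries_mem _ _ _ _ (fun a b => ?_) i j
      rw [Matrix.sub_apply]
      refine (maximalIdeal A).sub_mem ?_ ?_
      · have := mul_mul_entries_mem (maximalIdeal A) (r σ) _ 1 hPm a b
        rwa [mul_one] at this
      · have := mul_mul_entries_mem (maximalIdeal A) 1 _ (r σ) hPm a b
        rwa [one_mul] at this
    have h2 := (maximalIdeal A).add_mem h1 (hres σ i j c hcc)
    rw [Matrix.sub_apply] at h2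
    simpa using h2
  · -- normalisation
    have hTc := lin_conj (↑P⁻¹ : M2 A) hconj x
    have hSc := lin_conj (↑P⁻¹ : M2 A) hconj y
    have hT' : lin (conjRep P r) x = (↑P⁻¹ : M2 A) * T * (P : M2 A) := by
      rw [hT, hTc, mul_assoc, hinvP, mul_one]
    have hS' : lin (conjRep P r) y = (↑P⁻¹ : M2 A) * S * (P : M2 A) := by
      rw [hS, hSc, mul_assoc, hinvP, mul_one]
    have hTP : T * (P : M2 A) * !![1, 0; 0, 0] = (P : M2 A) * !![α, 0; 0, 0] := by
      rw [hP, hP0]
      ext i j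
      fin_cases i <;> fin_cases j <;>
        simp only [Matrix.mul_apply, Fin.sum_univ_two, Matrix.of_apply, Matrix.cons_val',
          Matrix.cons_val_zero, Matrix.cons_val_one, Matrix.cons_val_fin_one, Fin.zero_eta,
          Fin.mk_one, Fin.isValue, mul_one, mul_zero, add_zero]
      · rw [hv0, hβ, ht, hv1]
        rw [hd, ht, hv1] at hα'
        linear_combination -hα'
      · rw [hv0, hβ, ht, hv1]
        ring
    have hSP : S * (P : M2 A) * !![1, 0; 0, 0] = (P : M2 A) * !![0, 0; 1, 0] := by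
      rw [hP, hP0]
      ext i j
      fin_cases i <;> fin_cases j <;>
        simp only [Matrix.mul_apply, Fin.sum_univ_two, Matrix.of_apply, Matrix.cons_val',
          Matrix.cons_val_zero, Matrix.cons_val_one, Matrix.cons_val_fin_one, Fin.zero_eta,
          Fin.mk_one, Fin.isValue, mul_one, mul_zero, add_zero, zero_add]
      · exact hw0.symm
      · exact hw1.symm
    have hT'' : lin (conjRep P r) x * !![1, 0; 0, 0] = !![α, 0; 0, 0] := by
      rw [hT', mul_assoc, mul_assoc, ← mul_assoc T, hTP, ← mul_assoc, hinvP, one_mul]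
    have hS'' : lin (conjRep P r) y * !![1, 0; 0, 0] = !![0, 0; 1, 0] := by
      rw [hS', mul_assoc, mul_assoc, ← mul_assoc S, hSP, ← mul_assoc, hinvP, one_mul]
    refine ⟨?_, ?_, ?_⟩
    · have := congrFun (congrFun hT'' 1) 0
      simpa [Matrix.mul_apply, Fin.sum_univ_two] using this
    · have := congrFun (congrFun hS'' 0) 0
      simpa [Matrix.mul_apply, Fin.sum_univ_two] using this
    · have := congrFun (congrFun hS'' 1) 0
      simpa [Matrix.mul_apply, Fin.sum_univ_two] using this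

end Fermat.Agent.S53
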