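import Fermat.Agent.S53.TranslateA

/-!
# S53: translation layer between `GaloisRepAdic` and matrix representations (part B: residual)
-/

set_option autoImplicit false

namespace Fermat.Agent.S53

open IsLocalRing TensorProduct

section Aux

variable {k : Type} [Field k]

/-- Two residual representations with the same matrices in some bases are equivalent. -/
lemma residual_isEquiv_of_toMatrix_eq {ρ₁ ρ₂ : ResidualGaloisRep k}
    (b₁ : Module.Basis (Fin 2) k ρ₁.V) (b₂ : Module.Basis (Fin 2) k ρ₂.V)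
    (h : ∀ σ, LinearMap.toMatrix b₁ b₁ (ρ₁.ρ σ) = LinearMap.toMatrix b₂ b₂ (ρ₂.ρ σ)) :
    ρ₁.IsEquiv ρ₂ := by
  refine ⟨⟨b₁.equiv b₂ (Equiv.refl _), fun σ x => ?_⟩⟩
  apply b₂.repr.injective
  ext i
  have h1 : b₂.repr (b₁.equiv b₂ (Equiv.refl _) (ρ₁.ρ σ x)) i = b₁.repr (ρ₁.ρ σ x) i := by
    simp [Module.Basis.equiv]
  have h2 : ∀ j, b₂.repr (b₁.equiv b₂ (Equiv.refl _) x) j = b₁.repr x j := by
    intro j
    simp [Module.Basis.equiv]
  rw [h1, ← LinearMap.toMatrix_mulVec_repr b₁ b₁, ← LinearMap.toMatrix_mulVec_repr b₂ b₂, h σ]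
  simp only [Matrix.mulVec, dotProduct, h2]

/-- Transport of a basis along an equivalence of residual representations preserves matrices. -/
lemma toMatrix_map_symm {ρ₁ ρ₂ : ResidualGaloisRep k} (e : ρ₁.Equiv ρ₂)
    (b₂ : Module.Basis (Fin 2) k ρ₂.V) (σ : Gal) :
    LinearMap.toMatrix (b₂.map e.toLinearEquiv.symm) (b₂.map e.toLinearEquiv.symm) (ρ₁.ρ σ) =
      LinearMap.toMatrix b₂ b₂ (ρ₂.ρ σ) := by
  ext i j
  rw [LinearMap.toMatrix_apply, LinearMap.toMatrix_apply, Module.Basis.map_repr,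
    Module.Basis.map_apply, LinearEquiv.trans_apply, LinearEquiv.symm_symm, e.map_apply,
    LinearEquiv.apply_symm_apply]

end Aux

section

variable {𝒪 : Type} [CommRing 𝒪] [IsLocalRing 𝒪] {A : Type} [CommRing A] [IsLocalRing A]
  [Algebra 𝒪 A] [IsLocalHom (algebraMap 𝒪 A)]

omit [Algebra 𝒪 A] [IsLocalHom (algebraMap 𝒪 A)] [IsLocalRing 𝒪] [CommRing 𝒪] in
lemma toMatrix_residual (ρ : GaloisRepAdic A) (b : Module.Basis (Fin 2) A ρ.V) (σ : Gal) :
    LinearMap.toMatrix (Algebra.TensorProduct.basis (ResidueField A) b)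
      (Algebra.TensorProduct.basis (ResidueField A) b) (ρ.residual.ρ σ) =
      (matOf ρ b σ).map (residue A) :=
  LinearMap.toMatrix_baseChange (ResidueField A) (ρ.ρ σ) b b

/-- The basis of the base change of `ρbar`. -/
noncomputable def bcBasis {k k' : Type} [Field k] [Field k'] (ψ : k →+* k')
    (ρbar : ResidualGaloisRep k) (bbar : Module.Basis (Fin 2) k ρbar.V) :
    Module.Basis (Fin 2) k' (ρbar.baseChangeAlong ψ).V :=
  letI : Algebra k k' := ψ.toAlgebra
  Algebra.TensorProduct.basis k' bbar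

lemma toMatrix_bcBasis {k k' : Type} [Field k] [Field k'] (ψ : k →+* k')
    (ρbar : ResidualGaloisRep k) (bbar : Module.Basis (Fin 2) k ρbar.V) (σ : Gal) :
    LinearMap.toMatrix (bcBasis ψ ρbar bbar) (bcBasis ψ ρbar bbar)
      ((ρbar.baseChangeAlong ψ).ρ σ) = (rbarOf ρbar bbar σ).map ψ := by
  let _ : Algebra k k' := ψ.toAlgebra
  exact LinearMap.toMatrix_baseChange k' (ρbar.ρ σ) bbar bbar

lemma resCond_iff (rbar : Gal →* M2 (ResidueField 𝒪)) (r : Gal →* M2 A) :
    ResCond rbar r ↔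
      ∀ σ, (r σ).map (residue A) = (rbar σ).map (ResidueField.map (algebraMap 𝒪 A)) := by
  constructor
  · intro h σ
    ext i j
    obtain ⟨c, hc⟩ := residue_surjective (rbar σ i j)
    have h1 := h σ i j c hc
    rw [← residue_eq_zero_iff, map_sub, sub_eq_zero] at h1
    rw [Matrix.map_apply, Matrix.map_apply, h1, ← hc, ResidueField.map_residue]
  · intro h σ i j c hc
    have h1 := congrFun (congrFun (h σ) i) j
    rw [Matrix.map_apply, Matrix.map_apply, ← hc, ResidueField.map_residue] at h1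
    rw [← residue_eq_zero_iff, map_sub, sub_eq_zero, h1]

variable (ρbar : ResidualGaloisRep (ResidueField 𝒪))
  (bbar : Module.Basis (Fin 2) (ResidueField 𝒪) ρbar.V)

/-- T1d -/
theorem exists_ofMat_isEquiv_of_residual (ρA : GaloisRepAdic A)
    (h : ρA.residual.IsEquiv (ρbar.baseChangeAlong (ResidueField.map (algebraMap 𝒪 A)))) :
    ∃ (r : Gal →* M2 A) (hr : MatCont r), ρA.IsEquiv (ofMat r hr) ∧
      ResCond (rbarOf ρbar bbar) r := by
  obtain ⟨e⟩ := h
  let w : Module.Basis (Fin 2) (ResidueField A) (ResidueField A ⊗[A] ρA.V) :=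
    (bcBasis (ResidueField.map (algebraMap 𝒪 A)) ρbar bbar).map e.toLinearEquiv.symm
  obtain ⟨v, hv⟩ := (TensorProduct.mk_surjective A ρA.V (ResidueField A)
    Ideal.Quotient.mk_surjective).comp_left w
  have hv' : ∀ i, (1 : ResidueField A) ⊗ₜ[A] v i = w i := fun i => congrFun hv i
  have hv'' : (TensorProduct.mk A (ResidueField A) ρA.V 1) ∘ v = w := hv
  let b : Module.Basis (Fin 2) A ρA.V :=
    .mk (Module.IsLocalRing.linearIndependent_of_flat v (hv'' ▸ w.linearIndependent))
      (span_eq_top_of_tmul_eq_basis v w hv').ge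
  have hb : Algebra.TensorProduct.basis (ResidueField A) b = w := by
    apply Module.Basis.eq_of_apply_eq
    intro i
    rw [Algebra.TensorProduct.basis_apply, ← hv' i, Module.Basis.mk_apply]
  refine ⟨matOf ρA b, matOf_cont ρA b, isEquiv_ofMat_matOf ρA b, ?_⟩
  rw [resCond_iff]
  intro σ
  rw [← toMatrix_residual, hb, ← toMatrix_bcBasis]
  exact toMatrix_map_symm e _ σ

/-- T1e -/
theorem residual_ofMat_isEquiv {r : Gal →* M2 A} (hr : MatCont r)
    (hres : ResCond (rbarOf ρbar bbar) r) :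
    (ofMat r hr).residual.IsEquiv
      (ρbar.baseChangeAlong (ResidueField.map (algebraMap 𝒪 A))) := by
  rw [resCond_iff] at hres
  refine residual_isEquiv_of_toMatrix_eq
    (Algebra.TensorProduct.basis (ResidueField A) (Pi.basisFun A (Fin 2)))
    (bcBasis (ResidueField.map (algebraMap 𝒪 A)) ρbar bbar) fun σ => ?_
  rw [toMatrix_bcBasis, ← hres σ]
  have h1 := toMatrix_residual (ofMat r hr) (Pi.basisFun A (Fin 2)) σ
  have h2 : matOf (ofMat r hr) (Pi.basisFun A (Fin 2)) σ = r σ := by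
    change LinearMap.toMatrix (Pi.basisFun A (Fin 2)) (Pi.basisFun A (Fin 2))
      (Matrix.toLin' (r σ)) = r σ
    rw [LinearMap.toMatrix_eq_toMatrix', LinearMap.toMatrix'_toLin']
  rw [h2] at h1
  exact h1

end

end Fermat.Agent.S53
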