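import Fermat.Agent.S53.Tangent
import Fermat.Agent.S53.TranslateB
import Fermat.Agent.S53.NormalForm

/-!
# S53: finiteness of the set of tangent vectors, from `TangentFinite`
-/

set_option autoImplicit false

namespace Fermat.Agent.S53

open IsLocalRing GaloisRep

attribute [local instance] dualAlg

lemma finitePhi_map_eq {𝒪 : Type} [CommRing 𝒪] [IsLocalRing 𝒪]
    [IsLocalHom (algebraMap 𝒪 (DualNumber (ResidueField 𝒪)))] :
    ResidueField.map (algebraMap 𝒪 (DualNumber (ResidueField 𝒪))) =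
      (residue (DualNumber (ResidueField 𝒪))).comp
        (algebraMap (ResidueField 𝒪) (DualNumber (ResidueField 𝒪))) := by
  apply RingHom.ext
  intro z
  obtain ⟨c, rfl⟩ := residue_surjective z
  rw [ResidueField.map_residue]
  rfl

theorem finite_Phi {𝒪 : Type} [CommRing 𝒪] [IsLocalRing 𝒪] [Finite (ResidueField 𝒪)]
    (ρbar : ResidualGaloisRep (ResidueField 𝒪))
    (bbar : Module.Basis (Fin 2) (ResidueField 𝒪) ρbar.V) (x y : Gal →₀ 𝒪)
    (hx : lin (𝒪 := 𝒪) (rbarOf ρbar bbar) x = !![1, 0; 0, 0])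
    (hy : lin (𝒪 := 𝒪) (rbarOf ρbar bbar) y = !![0, 0; 1, 0])
    (𝒟 : ∀ ⦃A : Type⦄ [CommRing A] [IsLocalRing A] [Algebra 𝒪 A], GaloisRepAdic A → Prop)
    (hfin : TangentFinite 𝒪 ρbar 𝒟) : (Phi (rbarOf ρbar bbar) x y 𝒟).Finite := by
  have hloc : IsLocalHom (algebraMap 𝒪 (DualNumber (ResidueField 𝒪))) :=
    (isTest_dualNumber (𝒪 := 𝒪)).isLocalHom
  unfold TangentFinite at hfin
  have hres : ∀ f : Phi (rbarOf ρbar bbar) x y 𝒟,
      (ofMat _ f.2.cont).residual.IsEquiv (ρbar.baseChangeAlong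
        ((residue (DualNumber (ResidueField 𝒪))).comp
        (algebraMap (ResidueField 𝒪) (DualNumber (ResidueField 𝒪))))) := by
    intro f
    rw [← finitePhi_map_eq]
    exact residual_ofMat_isEquiv ρbar bbar f.2.cont f.2.res
  rw [← Set.finite_coe_iff]
  refine @Finite.of_injective _ _ hfin
    (fun f : Phi (rbarOf ρbar bbar) x y 𝒟 =>
      Quotient.mk _ ⟨ofMat _ f.2.cont, f.2.type, hres f⟩) ?_
  intro f f' hff
  have h1 := Quotient.exact hff
  obtain ⟨M, hM, hconj⟩ := exists_conj_of_isEquiv f.2.cont f'.2.cont h1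
  have h2 := normal_unique (rbarOf ρbar bbar) x y hx hy f.2.res f'.2.res f.2.norm f'.2.norm M hM hconj
  apply Subtype.ext
  apply U_algHom_ext
  intro σ i j
  exact congrFun (congrFun (DFunLike.congr_fun h2 σ) i) j

end Fermat.Agent.S53
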