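import Mathlib.RingTheory.AdicCompletion.Basic

/-!
# S53: successive approximation in a complete ring
-/

set_option autoImplicit false

namespace Fermat.Agent.S53

/-- C5: general successive approximation. -/
theorem exists_limit_of_approx {P : Type} [CommRing P] (m : Ideal P) [IsPrecomplete m P]
    (S : ℕ → Set P) (hS : ∀ i, ∀ q ∈ S i, ∃ q' ∈ S (i + 1), q' - q ∈ m ^ i)
    (n : ℕ) (q : P) (hq : q ∈ S n) :
    ∃ L : P, L - q ∈ m ^ n ∧ ∀ i, n ≤ i → ∃ q' ∈ S i, L - q' ∈ m ^ i := by
  classical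
  -- the recursive sequence
  let s : (k : ℕ) → {p : P // p ∈ S (n + k)} := fun k =>
    Nat.rec (motive := fun k => {p : P // p ∈ S (n + k)}) ⟨q, hq⟩
      (fun k p => ⟨(hS (n + k) p.1 p.2).choose, (hS (n + k) p.1 p.2).choose_spec.1⟩) k
  have hs0 : (s 0).1 = q := rfl
  have hstep : ∀ k, (s (k + 1)).1 - (s k).1 ∈ m ^ (n + k) := fun k =>
    (hS (n + k) (s k).1 (s k).2).choose_spec.2
  have hle : ∀ k l, k ≤ l → (s l).1 - (s k).1 ∈ m ^ (n + k) := by
    intro k l hkl
    induction l, hkl using Nat.le_induction with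
    | base => simp
    | succ l hkl ih =>
      have h1 : (s (l + 1)).1 - (s l).1 ∈ m ^ (n + k) :=
        Ideal.pow_le_pow_right (by omega) (hstep l)
      have : (s (l + 1)).1 - (s k).1 = ((s (l + 1)).1 - (s l).1) + ((s l).1 - (s k).1) := by ring
      rw [this]
      exact Ideal.add_mem _ h1 ih
  let f : ℕ → P := fun i => (s (i - n)).1
  have hcauchy : ∀ {a b : ℕ}, a ≤ b → f a ≡ f b [SMOD (m ^ a • ⊤ : Submodule P P)] := by
    intro a b hab
    rw [SModEq.sub_mem, smul_eq_mul, Ideal.mul_top]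
    have h1 := hle (a - n) (b - n) (by omega)
    have h2 : f a - f b = -((s (b - n)).1 - (s (a - n)).1) := by simp [f]
    rw [h2]
    exact Ideal.neg_mem_iff _ |>.mpr (Ideal.pow_le_pow_right (by omega) h1)
  obtain ⟨L, hL⟩ := IsPrecomplete.prec ‹IsPrecomplete m P› hcauchy
  have hL' : ∀ i, L - f i ∈ m ^ i := by
    intro i
    have := hL i
    rw [SModEq.sub_mem, smul_eq_mul, Ideal.mul_top] at this
    have h2 : L - f i = -(f i - L) := by ring
    rw [h2]
    exact (Ideal.neg_mem_iff _).mpr this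
  refine ⟨L, ?_, fun i hi => ?_⟩
  · have h1 := hL' n
    have h2 : f n = q := by
      change (s (n - n)).1 = q
      rw [Nat.sub_self]
      exact hs0
    rwa [h2] at h1
  · refine ⟨f i, ?_, hL' i⟩
    have h1 : ∀ j, n + (i - n) = j → f i ∈ S j := by
      rintro j rfl
      exact (s (i - n)).2
    exact h1 i (Nat.add_sub_cancel' hi)

end Fermat.Agent.S53
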