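import Mathlib

/-!
# S53: power series rings over complete noetherian local rings are complete
(plus: evaluation homs into Artinian local algebras, uniqueness of homs agreeing on the variables)
-/

set_option autoImplicit false
set_option linter.unusedSectionVars false

namespace Fermat.Agent.S53

open IsLocalRing MvPowerSeries Finsupp

section basic

variable {σ : Type} {𝒪 : Type} [CommRing 𝒪] [IsLocalRing 𝒪]

theorem mvps_mem_maximalIdeal_iff (f : MvPowerSeries σ 𝒪) :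
    f ∈ maximalIdeal (MvPowerSeries σ 𝒪) ↔ constantCoeff f ∈ maximalIdeal 𝒪 := by
  rw [mem_maximalIdeal, mem_maximalIdeal, mem_nonunits_iff, mem_nonunits_iff,
    MvPowerSeries.isUnit_iff_constantCoeff]

theorem mvps_X_mem_maximalIdeal (a : σ) :
    (X a : MvPowerSeries σ 𝒪) ∈ maximalIdeal (MvPowerSeries σ 𝒪) := by
  rw [mvps_mem_maximalIdeal_iff]; simp

theorem mvps_C_mem_maximalIdeal {c : 𝒪} (hc : c ∈ maximalIdeal 𝒪) :
    (C c : MvPowerSeries σ 𝒪) ∈ maximalIdeal (MvPowerSeries σ 𝒪) := by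
  rw [mvps_mem_maximalIdeal_iff]; simpa using hc

/-- The filtration `F_n = {f | coeff_d f ∈ 𝔪^(n-|d|)}`. -/
def mvpsFilt (σ : Type) (𝒪 : Type) [CommRing 𝒪] [IsLocalRing 𝒪] (n : ℕ) :
    Ideal (MvPowerSeries σ 𝒪) where
  carrier := {f | ∀ d, coeff d f ∈ maximalIdeal 𝒪 ^ (n - degree d)}
  add_mem' := fun {f g} hf hg d => by
    rw [map_add]; exact Ideal.add_mem _ (hf d) (hg d)
  zero_mem' := fun d => by rw [map_zero]; exact Ideal.zero_mem _
  smul_mem' := fun a f hf d => by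
    classical
    rw [smul_eq_mul, coeff_mul]
    refine Ideal.sum_mem _ fun p hp => ?_
    refine Ideal.mul_mem_left _ _ (Ideal.pow_le_pow_right ?_ (hf p.2))
    have h1 : p.1 + p.2 = d := by simpa using hp
    have h2 : degree d = degree p.1 + degree p.2 := by rw [← h1, map_add]
    omega

theorem mem_mvpsFilt {n : ℕ} {f : MvPowerSeries σ 𝒪} :
    f ∈ mvpsFilt σ 𝒪 n ↔ ∀ d, coeff d f ∈ maximalIdeal 𝒪 ^ (n - degree d) := Iff.rfl

theorem maximalIdeal_mul_mvpsFilt_le (n : ℕ) :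
    maximalIdeal (MvPowerSeries σ 𝒪) * mvpsFilt σ 𝒪 n ≤ mvpsFilt σ 𝒪 (n + 1) := by
  classical
  rw [Ideal.mul_le]
  intro a ha f hf d
  rw [coeff_mul]
  refine Ideal.sum_mem _ fun p hp => ?_
  have h1 : p.1 + p.2 = d := by simpa using hp
  have h2 : degree d = degree p.1 + degree p.2 := by rw [← h1, map_add]
  by_cases h0 : p.1 = 0
  · have h3 : coeff p.1 a ∈ maximalIdeal 𝒪 := by
      rw [h0]; exact (mvps_mem_maximalIdeal_iff a).mp ha
    have h4 : coeff p.1 a * coeff p.2 f ∈ maximalIdeal 𝒪 ^ (1 + (n - degree p.2)) := by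
      rw [pow_add, pow_one]; exact Ideal.mul_mem_mul h3 (hf p.2)
    refine Ideal.pow_le_pow_right ?_ h4
    omega
  · have h3 : degree p.1 ≠ 0 := by
      intro h; exact h0 ((Finsupp.degree_eq_zero_iff _).mp h)
    refine Ideal.mul_mem_left _ _ (Ideal.pow_le_pow_right ?_ (hf p.2))
    omega

theorem maximalIdeal_pow_le_mvpsFilt (n : ℕ) :
    maximalIdeal (MvPowerSeries σ 𝒪) ^ n ≤ mvpsFilt σ 𝒪 n := by
  induction n with
  | zero => intro f _ d; simp
  | succ n ih =>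
    rw [pow_succ']
    exact (Ideal.mul_mono_right ih).trans (maximalIdeal_mul_mvpsFilt_le n)

end basic

section finite

theorem mvps_mem_span_X_pow {σ R : Type} [Finite σ] [CommRing R] (n : ℕ) (g : MvPowerSeries σ R)
    (hg : ∀ d, degree d < n → coeff d g = 0) :
    g ∈ (Ideal.span (Set.range X) : Ideal (MvPowerSeries σ R)) ^ n := by
  have hmap : Ideal.map (toAdicCompletionAlgEquiv σ R).toRingEquiv (Ideal.span (Set.range X)) =
    (MvPolynomial.idealOfVars σ R).map (algebraMap ..) := by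
    simp_rw [Ideal.map_span, ← Set.range_comp]
    congr 2; ext1
    simp [AdicCompletion.algebraMap_apply, ← MvPolynomial.coe_X, toAdicCompletion_coe]
  have h0 : truncTotal n g = 0 := by
    ext d
    rw [coeff_truncTotal_eq_ite]
    split_ifs with h
    · simpa using hg d h
    · simp
  have h1 : toAdicCompletion σ R g ∈
      (AdicCompletion.eval (MvPolynomial.idealOfVars σ R) (MvPolynomial σ R) n).ker := by
    rw [LinearMap.mem_ker, AdicCompletion.eval_apply, toAdicCompletion_apply_eq_mk_truncTotal, h0]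
    simp
  rw [← AdicCompletion.pow_smul_top_eq_ker_eval (MvPolynomial.idealOfVars_fg σ R),
    Ideal.smul_top_eq_map, Submodule.restrictScalars_mem, Ideal.map_pow, ← hmap, ← Ideal.map_pow]
    at h1
  obtain ⟨x, hx, hxg⟩ := (Ideal.mem_map_of_equiv _ _).mp h1
  have : x = g := (toAdicCompletionAlgEquiv σ R).injective hxg
  exact this ▸ hx

variable {σ : Type} [Finite σ] {𝒪 : Type} [CommRing 𝒪] [IsLocalRing 𝒪]

theorem mvps_sub_truncTotal_mem (n : ℕ) (f : MvPowerSeries σ 𝒪) :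
    f - (truncTotal n f : MvPolynomial σ 𝒪) ∈
      (Ideal.span (Set.range X) : Ideal (MvPowerSeries σ 𝒪)) ^ n := by
  refine mvps_mem_span_X_pow n _ fun d hd => ?_
  rw [map_sub, MvPolynomial.coeff_coe, coeff_truncTotal _ hd, sub_self]

theorem mvps_span_X_le : (Ideal.span (Set.range X) : Ideal (MvPowerSeries σ 𝒪)) ≤
    maximalIdeal (MvPowerSeries σ 𝒪) := by
  rw [Ideal.span_le]
  rintro _ ⟨a, rfl⟩
  exact mvps_X_mem_maximalIdeal a

theorem mvps_coe_mem_of_coeff_mem (I : Ideal 𝒪) (p : MvPolynomial σ 𝒪) (hp : ∀ d, p.coeff d ∈ I) :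
    (p : MvPowerSeries σ 𝒪) ∈ I.map (C : 𝒪 →+* MvPowerSeries σ 𝒪) := by
  have h1 : p ∈ I.map (MvPolynomial.C : 𝒪 →+* MvPolynomial σ 𝒪) := MvPolynomial.mem_map_C_iff.mpr hp
  have h2 := Ideal.mem_map_of_mem (MvPolynomial.coeToMvPowerSeries.ringHom (σ := σ) (R := 𝒪)) h1
  rw [Ideal.map_map] at h2
  have h3 : (MvPolynomial.coeToMvPowerSeries.ringHom (σ := σ) (R := 𝒪)).comp MvPolynomial.C = C := by
    ext1 c; simp
  rw [h3] at h2
  exact h2

theorem mvps_map_C_le : (maximalIdeal 𝒪).map (C : 𝒪 →+* MvPowerSeries σ 𝒪) ≤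
    maximalIdeal (MvPowerSeries σ 𝒪) := by
  rw [Ideal.map_le_iff_le_comap]
  intro c hc
  exact mvps_C_mem_maximalIdeal hc

theorem mvps_mem_maximalIdeal_pow (n : ℕ) (f : MvPowerSeries σ 𝒪)
    (hf : ∀ d, degree d < n → coeff d f ∈ maximalIdeal 𝒪 ^ n) :
    f ∈ maximalIdeal (MvPowerSeries σ 𝒪) ^ n := by
  have h1 := Ideal.pow_right_mono (mvps_span_X_le (σ := σ) (𝒪 := 𝒪)) n (mvps_sub_truncTotal_mem n f)
  have h2 : ((truncTotal n f : MvPolynomial σ 𝒪) : MvPowerSeries σ 𝒪) ∈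
      maximalIdeal (MvPowerSeries σ 𝒪) ^ n := by
    have := mvps_coe_mem_of_coeff_mem (maximalIdeal 𝒪 ^ n) (truncTotal n f) (fun d => by
      rw [coeff_truncTotal_eq_ite]
      split_ifs with h
      · exact hf d h
      · exact Ideal.zero_mem _)
    rw [Ideal.map_pow] at this
    exact Ideal.pow_right_mono mvps_map_C_le n this
  have := Ideal.add_mem _ h1 h2
  simpa using this


theorem mvps_isPrecomplete [IsPrecomplete (maximalIdeal 𝒪) 𝒪] :
    IsPrecomplete (maximalIdeal (MvPowerSeries σ 𝒪)) (MvPowerSeries σ 𝒪) where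
  prec' := by
    intro f hf
    have hf' : ∀ {m n : ℕ}, m ≤ n → f m - f n ∈ maximalIdeal (MvPowerSeries σ 𝒪) ^ m := by
      intro m n hmn
      have := hf hmn
      rw [SModEq.sub_mem] at this
      simpa using this
    have hc : ∀ d : σ →₀ ℕ, ∃ L : 𝒪, ∀ n : ℕ,
        coeff d (f (n + degree d)) ≡ L [SMOD (maximalIdeal 𝒪 ^ n • ⊤ : Submodule 𝒪 𝒪)] := by
      intro d
      refine IsPrecomplete.prec' (I := maximalIdeal 𝒪) (fun n => coeff d (f (n + degree d))) ?_
      intro m n hmn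
      rw [SModEq.sub_mem]
      have h1 := maximalIdeal_pow_le_mvpsFilt _ (hf' (show m + degree d ≤ n + degree d by omega)) d
      rw [map_sub] at h1
      simpa using h1
    choose L hL using hc
    let Lf : MvPowerSeries σ 𝒪 := fun d => L d
    have hLf : ∀ d, coeff d Lf = L d := fun d => rfl
    refine ⟨Lf, fun n => ?_⟩
    rw [SModEq.sub_mem]
    have h1 : f n - f (2 * n) ∈ maximalIdeal (MvPowerSeries σ 𝒪) ^ n := hf' (by omega)
    have h2 : f (2 * n) - Lf ∈
        maximalIdeal (MvPowerSeries σ 𝒪) ^ n := by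
      refine mvps_mem_maximalIdeal_pow n _ fun d hd => ?_
      have h3 := hL d (2 * n - degree d)
      rw [SModEq.sub_mem] at h3
      have h4 : 2 * n - degree d + degree d = 2 * n := by omega
      rw [h4] at h3
      have h5 : coeff d (f (2 * n)) - L d ∈ maximalIdeal 𝒪 ^ (2 * n - degree d) := by
        simpa using h3
      rw [map_sub, hLf]
      exact Ideal.pow_le_pow_right (by omega) h5
    have := Ideal.add_mem _ h1 h2
    simpa using this

instance mvps_isAdicComplete [IsNoetherianRing 𝒪] [IsAdicComplete (maximalIdeal 𝒪) 𝒪] :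
    IsAdicComplete (maximalIdeal (MvPowerSeries σ 𝒪)) (MvPowerSeries σ 𝒪) :=
  { (inferInstance : IsHausdorff (maximalIdeal (MvPowerSeries σ 𝒪)) (MvPowerSeries σ 𝒪)),
    (mvps_isPrecomplete : IsPrecomplete (maximalIdeal (MvPowerSeries σ 𝒪)) (MvPowerSeries σ 𝒪)) with }

instance mvps_isLocalHom_algebraMap : IsLocalHom (algebraMap 𝒪 (MvPowerSeries σ 𝒪)) := by
  refine ⟨fun c hc => ?_⟩
  rw [MvPowerSeries.isUnit_iff_constantCoeff] at hc
  simpa [MvPowerSeries.algebraMap_apply] using hc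

theorem mvps_residue_surjective :
    Function.Surjective (residue (MvPowerSeries σ 𝒪) ∘ algebraMap 𝒪 (MvPowerSeries σ 𝒪)) := by
  intro x
  obtain ⟨f, rfl⟩ := residue_surjective x
  refine ⟨constantCoeff f, ?_⟩
  rw [Function.comp_apply, ← sub_eq_zero, ← map_sub, residue_eq_zero_iff, mvps_mem_maximalIdeal_iff]
  simp [MvPowerSeries.algebraMap_apply]

theorem mvps_exists_eval {B : Type} [CommRing B] [IsLocalRing B] [Algebra 𝒪 B] (n : ℕ)
    (hn : maximalIdeal B ^ n = ⊥) (t : σ → B) (ht : ∀ a, t a ∈ maximalIdeal B) :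
    ∃ φ : MvPowerSeries σ 𝒪 →ₐ[𝒪] B, ∀ a, φ (X a) = t a := by
  have h1 : MvPolynomial.idealOfVars σ 𝒪 ≤
      (maximalIdeal B).comap (MvPolynomial.aeval t : MvPolynomial σ 𝒪 →ₐ[𝒪] B) := by
    rw [Ideal.span_le]
    rintro _ ⟨a, rfl⟩
    simpa using ht a
  have h2 : ∀ p ∈ MvPolynomial.idealOfVars σ 𝒪 ^ n,
      (MvPolynomial.aeval t : MvPolynomial σ 𝒪 →ₐ[𝒪] B) p = 0 := by
    intro p hp
    have h3 := Ideal.le_comap_pow (MvPolynomial.aeval t : MvPolynomial σ 𝒪 →ₐ[𝒪] B) n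
      (Ideal.pow_right_mono h1 n hp)
    rw [hn] at h3
    simpa using h3
  refine ⟨(Ideal.Quotient.liftₐ (MvPolynomial.idealOfVars σ 𝒪 ^ n) (MvPolynomial.aeval t) h2).comp
    ((truncTotalAlgHom σ 𝒪 n).restrictScalars 𝒪), fun a => ?_⟩
  have h4 : (X a : MvPowerSeries σ 𝒪) =
      algebraMap (MvPolynomial σ 𝒪) (MvPowerSeries σ 𝒪) (MvPolynomial.X a) := by
    simp [MvPowerSeries.algebraMap_apply']
  rw [AlgHom.comp_apply, AlgHom.restrictScalars_apply, h4, AlgHom.commutes]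
  simp

theorem mvps_algHom_ext {A : Type} [CommRing A] [IsLocalRing A] [Algebra 𝒪 A]
    [IsHausdorff (maximalIdeal A) A] (φ ψ : MvPowerSeries σ 𝒪 →ₐ[𝒪] A)
    (hφ : ∀ a, φ (X a) ∈ maximalIdeal A) (h : ∀ a, φ (X a) = ψ (X a)) : φ = ψ := by
  have key : ∀ (χ : MvPowerSeries σ 𝒪 →ₐ[𝒪] A), (∀ a, χ (X a) ∈ maximalIdeal A) →
      ∀ (n : ℕ) (g : MvPowerSeries σ 𝒪), g ∈ (Ideal.span (Set.range X) : Ideal (MvPowerSeries σ 𝒪)) ^ n →
      χ g ∈ maximalIdeal A ^ n := by
    intro χ hχ n g hg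
    have h1 : (Ideal.span (Set.range X) : Ideal (MvPowerSeries σ 𝒪)) ≤ (maximalIdeal A).comap χ := by
      rw [Ideal.span_le]
      rintro _ ⟨a, rfl⟩
      exact hχ a
    exact Ideal.le_comap_pow χ n (Ideal.pow_right_mono h1 n hg)
  have hpol : φ.comp (MvPolynomial.coeToMvPowerSeries.algHom 𝒪) =
      ψ.comp (MvPolynomial.coeToMvPowerSeries.algHom 𝒪) := by
    refine MvPolynomial.algHom_ext fun a => ?_
    simpa using h a
  ext f
  rw [← sub_eq_zero]
  refine IsHausdorff.haus' (I := maximalIdeal A) _ fun n => ?_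
  rw [SModEq.zero]
  have h1 := mvps_sub_truncTotal_mem n f
  have h2 := key φ hφ n _ h1
  have h3 := key ψ (fun a => h a ▸ hφ a) n _ h1
  have h4 : φ ((truncTotal n f : MvPolynomial σ 𝒪) : MvPowerSeries σ 𝒪) =
      ψ ((truncTotal n f : MvPolynomial σ 𝒪) : MvPowerSeries σ 𝒪) :=
    DFunLike.congr_fun hpol (truncTotal n f)
  rw [map_sub] at h2 h3
  have := Ideal.sub_mem _ h2 h3
  rw [h4] at this
  simpa using this

end finite

/-- C4 -/
theorem isAdicComplete_mvPowerSeries (𝒪 : Type) [CommRing 𝒪] [IsNoetherianRing 𝒪] [IsLocalRing 𝒪]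
    [IsAdicComplete (maximalIdeal 𝒪) 𝒪] (e : ℕ) :
    IsAdicComplete (maximalIdeal (MvPowerSeries (Fin e) 𝒪)) (MvPowerSeries (Fin e) 𝒪) :=
  mvps_isAdicComplete

end Fermat.Agent.S53
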