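import Mathlib
import Fermat.Prelude.Thm_IsLocalRing_isAdicComplete_of_module_finite
import Fermat.Agent.S53.PowerSeriesComplete
import Fermat.Agent.S53.Approx
set_option autoImplicit false
set_option linter.unusedSectionVars false
namespace Fermat.Agent.S53
open IsLocalRing MvPowerSeries Finsupp

section general

variable {σ : Type} [Finite σ] {𝒪 : Type} [CommRing 𝒪] [IsLocalRing 𝒪]

theorem mvps_maximalIdeal_eq : maximalIdeal (MvPowerSeries σ 𝒪) =
    (maximalIdeal 𝒪).map (C : 𝒪 →+* MvPowerSeries σ 𝒪) ⊔ Ideal.span (Set.range X) := by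
  refine le_antisymm (fun f hf => ?_) (sup_le mvps_map_C_le mvps_span_X_le)
  have h1 : f - C (constantCoeff f) ∈ (Ideal.span (Set.range X) : Ideal (MvPowerSeries σ 𝒪)) ^ 1 := by
    refine mvps_mem_span_X_pow 1 _ fun d hd => ?_
    have hd0 : d = 0 := (Finsupp.degree_eq_zero_iff d).mp (by omega)
    subst hd0
    simp
  rw [pow_one] at h1
  have h2 : C (constantCoeff f) ∈ (maximalIdeal 𝒪).map (C : 𝒪 →+* MvPowerSeries σ 𝒪) :=
    Ideal.mem_map_of_mem _ ((mvps_mem_maximalIdeal_iff f).mp hf)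
  have := Ideal.add_mem _ (Ideal.mem_sup_left h2) (Ideal.mem_sup_right h1)
  simpa using this

theorem mvps_map_maximalIdeal {B : Type} [CommRing B] [Algebra 𝒪 B]
    (φ : MvPowerSeries σ 𝒪 →ₐ[𝒪] B) :
    (maximalIdeal (MvPowerSeries σ 𝒪)).map (φ : MvPowerSeries σ 𝒪 →+* B) =
      (maximalIdeal 𝒪).map (algebraMap 𝒪 B) ⊔ Ideal.span (Set.range fun a => φ (X a)) := by
  rw [mvps_maximalIdeal_eq, Ideal.map_sup, Ideal.map_map, Ideal.map_span, ← Set.range_comp]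
  congr 2
  ext c
  simpa [MvPowerSeries.algebraMap_apply] using φ.commutes c

theorem mvps_exists_eval' {B : Type} [CommRing B] [Algebra 𝒪 B] (𝔟 : Ideal B) (n : ℕ)
    (hn : 𝔟 ^ n = ⊥) (t : σ → B) (ht : ∀ a, t a ∈ 𝔟) :
    ∃ φ : MvPowerSeries σ 𝒪 →ₐ[𝒪] B, ∀ a, φ (X a) = t a := by
  have h1 : MvPolynomial.idealOfVars σ 𝒪 ≤
      𝔟.comap (MvPolynomial.aeval t : MvPolynomial σ 𝒪 →ₐ[𝒪] B) := by
    rw [Ideal.span_le]
    rintro _ ⟨a, rfl⟩
    simpa using ht a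
  have h2 : ∀ p ∈ MvPolynomial.idealOfVars σ 𝒪 ^ n,
      (MvPolynomial.aeval t : MvPolynomial σ 𝒪 →ₐ[𝒪] B) p = 0 := by
    intro p hp
    have h3 := Ideal.le_comap_pow (MvPolynomial.aeval t : MvPolynomial σ 𝒪 →ₐ[𝒪] B) n
      (Ideal.pow_right_mono h1 n hp)
    rw [hn] at h3
    simpa using h3
  refine ⟨(Ideal.Quotient.liftₐ (MvPolynomial.idealOfVars σ 𝒪 ^ n) (MvPolynomial.aeval t) h2).comp
    ((truncTotalAlgHom σ 𝒪 n).restrictScalars 𝒪), fun a => ?_⟩
  have h4 : (X a : MvPowerSeries σ 𝒪) =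
      algebraMap (MvPolynomial σ 𝒪) (MvPowerSeries σ 𝒪) (MvPolynomial.X a) := by
    simp [MvPowerSeries.algebraMap_apply']
  rw [AlgHom.comp_apply, AlgHom.restrictScalars_apply, h4, AlgHom.commutes]
  simp

theorem mvps_sub_mem_pow {B : Type} [CommRing B] [Algebra 𝒪 B] (𝔟 : Ideal B)
    (φ ψ : MvPowerSeries σ 𝒪 →ₐ[𝒪] B)
    (hφ : ∀ a, φ (X a) ∈ 𝔟) (h : ∀ a, φ (X a) = ψ (X a)) (n : ℕ) (f : MvPowerSeries σ 𝒪) :
    φ f - ψ f ∈ 𝔟 ^ n := by
  have key : ∀ (χ : MvPowerSeries σ 𝒪 →ₐ[𝒪] B), (∀ a, χ (X a) ∈ 𝔟) →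
      ∀ (g : MvPowerSeries σ 𝒪), g ∈ (Ideal.span (Set.range X) : Ideal (MvPowerSeries σ 𝒪)) ^ n →
      χ g ∈ 𝔟 ^ n := by
    intro χ hχ g hg
    have h1 : (Ideal.span (Set.range X) : Ideal (MvPowerSeries σ 𝒪)) ≤ 𝔟.comap χ := by
      rw [Ideal.span_le]
      rintro _ ⟨a, rfl⟩
      exact hχ a
    exact Ideal.le_comap_pow χ n (Ideal.pow_right_mono h1 n hg)
  have hpol : φ.comp (MvPolynomial.coeToMvPowerSeries.algHom 𝒪) =
      ψ.comp (MvPolynomial.coeToMvPowerSeries.algHom 𝒪) := by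
    refine MvPolynomial.algHom_ext fun a => ?_
    simpa using h a
  have h1 := mvps_sub_truncTotal_mem n f
  have h2 := key φ hφ _ h1
  have h3 := key ψ (fun a => h a ▸ hφ a) _ h1
  have h4 : φ ((truncTotal n f : MvPolynomial σ 𝒪) : MvPowerSeries σ 𝒪) =
      ψ ((truncTotal n f : MvPolynomial σ 𝒪) : MvPowerSeries σ 𝒪) :=
    DFunLike.congr_fun hpol (truncTotal n f)
  rw [map_sub] at h2 h3
  have := Ideal.sub_mem _ h2 h3
  rw [h4] at this
  simpa using this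

theorem mvps_algHom_ext' {B : Type} [CommRing B] [Algebra 𝒪 B] (𝔟 : Ideal B) (n : ℕ)
    (hn : 𝔟 ^ n = ⊥) (φ ψ : MvPowerSeries σ 𝒪 →ₐ[𝒪] B)
    (hφ : ∀ a, φ (X a) ∈ 𝔟) (h : ∀ a, φ (X a) = ψ (X a)) : φ = ψ := by
  ext f
  have := mvps_sub_mem_pow 𝔟 φ ψ hφ h n f
  rw [hn] at this
  exact sub_eq_zero.mp (by simpa using this)

end general

section general2

variable {σ : Type} [Finite σ] {𝒪 : Type} [CommRing 𝒪] [IsLocalRing 𝒪]

/-- Evaluation of power series in a complete local algebra. -/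
theorem mvps_exists_eval_complete {A : Type} [CommRing A] [Algebra 𝒪 A] (I : Ideal A)
    [IsAdicComplete I A] (t : σ → A) (ht : ∀ a, t a ∈ I) :
    ∃ φ : MvPowerSeries σ 𝒪 →ₐ[𝒪] A, ∀ a, φ (X a) = t a := by
  have hpow : ∀ n : ℕ, (I.map (Ideal.Quotient.mk (I ^ n))) ^ n = ⊥ := by
    intro n
    rw [← Ideal.map_pow, Ideal.map_quotient_self]
  have hex : ∀ n : ℕ, ∃ φ : MvPowerSeries σ 𝒪 →ₐ[𝒪] A ⧸ I ^ n,
      ∀ a, φ (X a) = Ideal.Quotient.mk (I ^ n) (t a) := fun n =>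
    mvps_exists_eval' (I.map (Ideal.Quotient.mk (I ^ n))) n (hpow n) _
      (fun a => Ideal.mem_map_of_mem _ (ht a))
  choose f hf using hex
  have hcompat : ∀ {m n : ℕ} (hle : m ≤ n),
      (Ideal.Quotient.factorₐ 𝒪 (Ideal.pow_le_pow_right hle)).comp (f n) = f m := by
    intro m n hle
    refine mvps_algHom_ext' (I.map (Ideal.Quotient.mk (I ^ m))) m (hpow m) _ _ (fun a => ?_)
      (fun a => ?_)
    · rw [AlgHom.comp_apply, hf]
      exact Ideal.mem_map_of_mem _ (ht a)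
    · rw [AlgHom.comp_apply, hf, hf]
      rfl
  refine ⟨IsAdicComplete.liftAlgHom I f hcompat, fun a => ?_⟩
  rw [← sub_eq_zero]
  refine IsHausdorff.haus' (I := I) _ fun n => ?_
  rw [SModEq.zero, smul_eq_mul, Ideal.mul_top, ← Ideal.Quotient.eq, IsAdicComplete.mk_liftAlgHom, hf]

theorem surjective_of_nilpotent {P B : Type} [CommRing P] [CommRing B] (π : P →+* B) (I : Ideal P)
    (N : ℕ) (hN : (I.map π) ^ N = ⊥) (h : ∀ b : B, ∃ f : P, b - π f ∈ I.map π) :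
    Function.Surjective π := by
  have key : ∀ j : ℕ, ∀ b : B, ∃ f : P, b - π f ∈ (I.map π) ^ j := by
    intro j
    induction j with
    | zero => intro b; exact ⟨0, by simp⟩
    | succ j ih =>
      -- every element of `(I.map π)^j` is `π g` modulo `(I.map π)^(j+1)`
      have h2 : ∀ c ∈ (I.map π) ^ j, ∃ g : P, c - π g ∈ (I.map π) ^ (j + 1) := by
        intro c hc
        rw [← Ideal.map_pow] at hc
        refine Submodule.span_induction (p := fun c _ => ∃ g : P, c - π g ∈ (I.map π) ^ (j + 1))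
          ?_ ?_ ?_ ?_ hc
        · rintro _ ⟨g, _, rfl⟩
          exact ⟨g, by simp⟩
        · exact ⟨0, by simp⟩
        · rintro c₁ c₂ _ _ ⟨g₁, h₁⟩ ⟨g₂, h₂⟩
          refine ⟨g₁ + g₂, ?_⟩
          have := Ideal.add_mem _ h₁ h₂
          rw [map_add]
          convert this using 1
          ring
        · rintro a c hc' ⟨g, hg⟩
          obtain ⟨f, hf⟩ := h a
          refine ⟨f * g, ?_⟩
          have hc'' : c ∈ (I.map π) ^ j := by rw [← Ideal.map_pow]; exact hc'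
          have e1 : a • c - π (f * g) = (a - π f) * c + π f * (c - π g) := by
            rw [smul_eq_mul, map_mul]; ring
          rw [e1, pow_succ']
          refine Ideal.add_mem _ (Ideal.mul_mem_mul hf hc'') ?_
          rw [← pow_succ']
          exact Ideal.mul_mem_left _ _ hg
      intro b
      obtain ⟨f, hf⟩ := ih b
      obtain ⟨g, hg⟩ := h2 _ hf
      refine ⟨f + g, ?_⟩
      rw [map_add]
      convert hg using 1
      ring
  intro b
  obtain ⟨f, hf⟩ := key N b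
  rw [hN] at hf
  exact ⟨f, (sub_eq_zero.mp (by simpa using hf)).symm⟩

theorem le_of_le_sup_sq {U : Type} [CommRing U] (m 𝔞 : Ideal U) (n : ℕ) (hn : m ^ n ≤ 𝔞)
    (h : m ≤ 𝔞 ⊔ m ^ 2) : m ≤ 𝔞 := by
  have key : ∀ j : ℕ, m ≤ 𝔞 ⊔ m ^ (j + 1) := by
    intro j
    induction j with
    | zero => simp
    | succ j ih =>
      refine h.trans (sup_le le_sup_left ?_)
      calc m ^ 2 = m * m := pow_two m
        _ ≤ m * (𝔞 ⊔ m ^ (j + 1)) := Ideal.mul_mono_right ih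
        _ = m * 𝔞 ⊔ m * m ^ (j + 1) := Ideal.mul_sup _ _ _
        _ ≤ 𝔞 ⊔ m ^ (j + 1 + 1) := by
          refine sup_le_sup Ideal.mul_le_right ?_
          rw [← pow_succ']
  refine (key n).trans (sup_le le_rfl ((Ideal.pow_le_pow_right (by omega)).trans hn))

end general2

/-- An `𝒪`-algebra `U` with a maximal ideal `mU` with residue field `k` and a family of "good"
ideals, all of whose cotangent spaces are generated by finitely many fixed elements. -/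
structure GoodData (𝒪 U : Type) [CommRing 𝒪] [IsLocalRing 𝒪] [CommRing U] [Algebra 𝒪 U] where
  mU : Ideal U
  exists_sub_mem : ∀ u : U, ∃ c : 𝒪, u - algebraMap 𝒪 U c ∈ mU
  algebraMap_mem_iff : ∀ c : 𝒪, algebraMap 𝒪 U c ∈ mU ↔ c ∈ maximalIdeal 𝒪
  Good : Ideal U → Prop
  good_le : ∀ K, Good K → K ≤ mU
  good_pow : ∀ K, Good K → ∃ n, mU ^ n ≤ K
  good_mono : ∀ K K', Good K → K ≤ K' → K' ≤ mU → Good K'
  good_inf : ∀ K K', Good K → Good K' → Good (K ⊓ K')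
  good_mU : Good mU
  e : ℕ
  x : Fin e → U
  x_mem : ∀ i, x i ∈ mU
  good_gen : ∀ K, Good K → mU ≤ K ⊔ Ideal.span (Set.range x) ⊔
    (maximalIdeal 𝒪).map (algebraMap 𝒪 U) ⊔ mU ^ 2

namespace GoodData

variable {𝒪 U : Type} [CommRing 𝒪] [IsLocalRing 𝒪] [CommRing U] [Algebra 𝒪 U] (D : GoodData 𝒪 U)

/-- The power series ring mapping onto all good quotients. -/
abbrev P : Type := MvPowerSeries (Fin D.e) 𝒪

/-- The ideal of `U` generated by the `x i` and `𝔪_𝒪`. -/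
def cU : Ideal U := (maximalIdeal 𝒪).map (algebraMap 𝒪 U) ⊔ Ideal.span (Set.range D.x)

lemma cU_le : D.cU ≤ D.mU := by
  refine sup_le ?_ ?_
  · rw [Ideal.map_le_iff_le_comap]
    intro c hc
    exact (D.algebraMap_mem_iff c).mpr hc
  · rw [Ideal.span_le]
    rintro _ ⟨i, rfl⟩
    exact D.x_mem i

lemma mU_le_of_good {K : Ideal U} (hK : D.Good K) : D.mU ≤ K ⊔ D.cU := by
  obtain ⟨n, hn⟩ := D.good_pow K hK
  refine le_of_le_sup_sq D.mU (K ⊔ D.cU) n (hn.trans le_sup_left) ?_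
  refine (D.good_gen K hK).trans (le_of_eq ?_)
  rw [cU, sup_assoc K, sup_comm (Ideal.span _)]

lemma map_mU_pow_eq_bot {K : Ideal U} {n : ℕ} (hn : D.mU ^ n ≤ K) :
    (D.mU.map (Ideal.Quotient.mk K)) ^ n = ⊥ := by
  rw [← Ideal.map_pow, Ideal.map_eq_bot_iff_le_ker, Ideal.mk_ker]
  exact hn

lemma exists_pi (K : Ideal U) (hK : ∃ n, D.mU ^ n ≤ K) :
    ∃ φ : D.P →ₐ[𝒪] U ⧸ K, ∀ i, φ (X i) = Ideal.Quotient.mk K (D.x i) := by
  obtain ⟨n, hn⟩ := hK
  exact mvps_exists_eval' (D.mU.map (Ideal.Quotient.mk K)) n (D.map_mU_pow_eq_bot hn) _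
    (fun i => Ideal.mem_map_of_mem _ (D.x_mem i))

/-- The evaluation map `P → U ⧸ K`, `X i ↦ x i`. -/
noncomputable def pi (K : Ideal U) (hK : ∃ n, D.mU ^ n ≤ K) : D.P →ₐ[𝒪] U ⧸ K :=
  (D.exists_pi K hK).choose

lemma pi_X (K : Ideal U) (hK : ∃ n, D.mU ^ n ≤ K) (i : Fin D.e) :
    D.pi K hK (X i) = Ideal.Quotient.mk K (D.x i) :=
  (D.exists_pi K hK).choose_spec i

lemma pi_unique (K : Ideal U) (hK : ∃ n, D.mU ^ n ≤ K) (φ : D.P →ₐ[𝒪] U ⧸ K)
    (hφ : ∀ i, φ (X i) = Ideal.Quotient.mk K (D.x i)) : φ = D.pi K hK := by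
  obtain ⟨n, hn⟩ := id hK
  refine mvps_algHom_ext' (D.mU.map (Ideal.Quotient.mk K)) n (D.map_mU_pow_eq_bot hn) _ _
    (fun i => ?_) (fun i => ?_)
  · rw [hφ]; exact Ideal.mem_map_of_mem _ (D.x_mem i)
  · rw [hφ, pi_X]

lemma factor_comp_pi {K K' : Ideal U} (h : K ≤ K') (hK : ∃ n, D.mU ^ n ≤ K)
    (hK' : ∃ n, D.mU ^ n ≤ K') :
    (Ideal.Quotient.factorₐ 𝒪 h).comp (D.pi K hK) = D.pi K' hK' := by
  refine D.pi_unique K' hK' _ fun i => ?_
  rw [AlgHom.comp_apply, pi_X]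
  rfl

lemma factor_pi {K K' : Ideal U} (h : K ≤ K') (hK : ∃ n, D.mU ^ n ≤ K)
    (hK' : ∃ n, D.mU ^ n ≤ K') (p : D.P) :
    Ideal.Quotient.factor h (D.pi K hK p) = D.pi K' hK' p :=
  DFunLike.congr_fun (D.factor_comp_pi h hK hK') p

lemma map_pi_maximalIdeal (K : Ideal U) (hK : ∃ n, D.mU ^ n ≤ K) :
    (maximalIdeal D.P).map (D.pi K hK : D.P →+* U ⧸ K) = D.cU.map (Ideal.Quotient.mk K) := by
  rw [mvps_map_maximalIdeal, cU, Ideal.map_sup, Ideal.map_map, Ideal.map_span, ← Set.range_comp]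
  have h1 : (fun a => D.pi K hK (X a)) = (⇑(Ideal.Quotient.mk K) ∘ D.x) := by
    funext i
    exact D.pi_X K hK i
  rw [h1]
  rfl

lemma map_pi_maximalIdeal_of_good {K : Ideal U} (hK : D.Good K) :
    (maximalIdeal D.P).map (D.pi K (D.good_pow K hK) : D.P →+* U ⧸ K) =
      D.mU.map (Ideal.Quotient.mk K) := by
  rw [map_pi_maximalIdeal]
  refine le_antisymm (Ideal.map_mono D.cU_le) ?_
  refine (Ideal.map_mono (D.mU_le_of_good hK)).trans ?_
  rw [Ideal.map_sup, Ideal.map_quotient_self, bot_sup_eq]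

lemma pi_surjective {K : Ideal U} (hK : D.Good K) :
    Function.Surjective (D.pi K (D.good_pow K hK)) := by
  obtain ⟨n, hn⟩ := D.good_pow K hK
  refine surjective_of_nilpotent (D.pi K (D.good_pow K hK) : D.P →+* U ⧸ K) (maximalIdeal D.P) n
    ?_ ?_
  · rw [D.map_pi_maximalIdeal_of_good hK]; exact D.map_mU_pow_eq_bot hn
  · intro b
    obtain ⟨u, rfl⟩ := Ideal.Quotient.mk_surjective b
    obtain ⟨c, hc⟩ := D.exists_sub_mem u
    refine ⟨algebraMap 𝒪 D.P c, ?_⟩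
    rw [D.map_pi_maximalIdeal_of_good hK]
    have : (D.pi K (D.good_pow K hK) : D.P →+* U ⧸ K) (algebraMap 𝒪 D.P c) =
        Ideal.Quotient.mk K (algebraMap 𝒪 U c) := (D.pi K (D.good_pow K hK)).commutes c
    rw [this, ← map_sub]
    exact Ideal.mem_map_of_mem _ hc

lemma pow_le_ker_pi {K : Ideal U} {n : ℕ} (hn : D.mU ^ n ≤ K) (hK : ∃ n, D.mU ^ n ≤ K) :
    maximalIdeal D.P ^ n ≤ RingHom.ker (D.pi K hK : D.P →+* U ⧸ K) := by
  rw [← Ideal.map_eq_bot_iff_le_ker, Ideal.map_pow, map_pi_maximalIdeal, eq_bot_iff,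
    ← D.map_mU_pow_eq_bot hn]
  exact Ideal.pow_right_mono (Ideal.map_mono D.cU_le) n

instance finite_residueField_P [Finite (ResidueField 𝒪)] : Finite (ResidueField D.P) := by
  refine Finite.of_surjective (ResidueField.map (algebraMap 𝒪 D.P)) fun z => ?_
  obtain ⟨c, hc⟩ := mvps_residue_surjective (σ := Fin D.e) (𝒪 := 𝒪) z
  exact ⟨residue 𝒪 c, by rw [ResidueField.map_residue]; exact hc⟩

variable [IsNoetherianRing 𝒪] [Finite (ResidueField 𝒪)]

lemma finite_quot_of_good {K : Ideal U} (hK : D.Good K) {n : ℕ} (hn : D.mU ^ n ≤ K) :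
    Finite (U ⧸ K) ∧ Nat.card (U ⧸ K) ≤ Nat.card (D.P ⧸ maximalIdeal D.P ^ n) := by
  have : Finite (D.P ⧸ maximalIdeal D.P ^ n) := finite_quotient_iff.mpr ⟨n, le_rfl⟩
  have hsurj : Function.Surjective (Ideal.Quotient.lift (maximalIdeal D.P ^ n)
      (D.pi K (D.good_pow K hK) : D.P →+* U ⧸ K)
      (fun p hp => D.pow_le_ker_pi hn (D.good_pow K hK) hp)) :=
    Ideal.Quotient.lift_surjective_of_surjective _ _ (D.pi_surjective hK)
  exact ⟨Finite.of_surjective _ hsurj, Nat.card_le_card_of_surjective _ hsurj⟩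

lemma exists_least (n : ℕ) : ∃ K, D.Good K ∧ D.mU ^ (n + 1) ≤ K ∧
    ∀ K', D.Good K' → D.mU ^ (n + 1) ≤ K' → K ≤ K' := by
  set M := Nat.card (D.P ⧸ maximalIdeal D.P ^ (n + 1)) with hM
  obtain ⟨K₀, ⟨hG₀, hp₀⟩, hmin⟩ := WellFounded.has_min
    (measure (fun K : Ideal U => M - Nat.card (U ⧸ K))).wf
    {K | D.Good K ∧ D.mU ^ (n + 1) ≤ K}
    ⟨D.mU, D.good_mU, Ideal.pow_le_self (by omega)⟩
  refine ⟨K₀, hG₀, hp₀, fun K hG hp => ?_⟩
  have hG₁ : D.Good (K₀ ⊓ K) := D.good_inf _ _ hG₀ hG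
  have hp₁ : D.mU ^ (n + 1) ≤ K₀ ⊓ K := le_inf hp₀ hp
  obtain ⟨hf₁, hc₁⟩ := D.finite_quot_of_good hG₁ hp₁
  obtain ⟨hf₀, hc₀⟩ := D.finite_quot_of_good hG₀ hp₀
  have h1 := hmin (K₀ ⊓ K) ⟨hG₁, hp₁⟩
  have h2 : ¬ (M - Nat.card (U ⧸ (K₀ ⊓ K)) < M - Nat.card (U ⧸ K₀)) := h1
  have h3 : Nat.card (U ⧸ (K₀ ⊓ K)) ≤ Nat.card (U ⧸ K₀) := by omega
  have hsurj : Function.Surjective (Ideal.Quotient.factor (inf_le_left : K₀ ⊓ K ≤ K₀)) :=
    Ideal.Quotient.factor_surjective _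
  have hbij := hsurj.bijective_of_nat_card_le h3
  intro u hu
  have h4 : Ideal.Quotient.factor (inf_le_left : K₀ ⊓ K ≤ K₀) (Ideal.Quotient.mk _ u) =
      Ideal.Quotient.factor (inf_le_left : K₀ ⊓ K ≤ K₀) 0 := by
    rw [Ideal.Quotient.factor_mk, map_zero]
    exact Ideal.Quotient.eq_zero_iff_mem.mpr hu
  have h5 := hbij.1 h4
  exact (Ideal.Quotient.eq_zero_iff_mem.mp h5).2

/-- The least good ideal containing `mU ^ (n+1)`. -/
noncomputable def Kn (n : ℕ) : Ideal U := (D.exists_least n).choose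

lemma good_Kn (n : ℕ) : D.Good (D.Kn n) := (D.exists_least n).choose_spec.1

lemma pow_le_Kn (n : ℕ) : D.mU ^ (n + 1) ≤ D.Kn n := (D.exists_least n).choose_spec.2.1

lemma Kn_le (n : ℕ) {K' : Ideal U} (h : D.Good K') (h' : D.mU ^ (n + 1) ≤ K') : D.Kn n ≤ K' :=
  (D.exists_least n).choose_spec.2.2 K' h h'

lemma Kn_succ_le (n : ℕ) : D.Kn (n + 1) ≤ D.Kn n :=
  D.Kn_le (n + 1) (D.good_Kn n) ((Ideal.pow_le_pow_right (by omega)).trans (D.pow_le_Kn n))

lemma Kn_antitone {m n : ℕ} (h : m ≤ n) : D.Kn n ≤ D.Kn m :=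
  D.Kn_le n (D.good_Kn m) ((Ideal.pow_le_pow_right (by omega)).trans (D.pow_le_Kn m))

lemma Kn_le_sup (n : ℕ) : D.Kn n ≤ D.Kn (n + 1) ⊔ D.mU ^ (n + 1) :=
  D.Kn_le n (D.good_mono _ _ (D.good_Kn (n + 1)) le_sup_left
    (sup_le (D.good_le _ (D.good_Kn (n + 1))) (Ideal.pow_le_self (by omega)))) le_sup_right

/-- The surjection `P → U ⧸ K n`. -/
noncomputable def q (n : ℕ) : D.P →ₐ[𝒪] U ⧸ D.Kn n := D.pi (D.Kn n) (D.good_pow _ (D.good_Kn n))

lemma q_surjective (n : ℕ) : Function.Surjective (D.q n) := D.pi_surjective (D.good_Kn n)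

lemma q_X (n : ℕ) (i : Fin D.e) : D.q n (X i) = Ideal.Quotient.mk _ (D.x i) := D.pi_X _ _ i

lemma factor_q {m n : ℕ} (h : m ≤ n) (p : D.P) :
    Ideal.Quotient.factor (D.Kn_antitone h) (D.q n p) = D.q m p := D.factor_pi _ _ _ p

/-- The kernel of `P → U ⧸ K n`. -/
noncomputable def Jn (n : ℕ) : Ideal D.P := RingHom.ker (D.q n : D.P →+* U ⧸ D.Kn n)

lemma mem_Jn {n : ℕ} {p : D.P} : p ∈ D.Jn n ↔ D.q n p = 0 := Iff.rfl

lemma pow_le_Jn (n : ℕ) : maximalIdeal D.P ^ (n + 1) ≤ D.Jn n := D.pow_le_ker_pi (D.pow_le_Kn n) _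

lemma Jn_antitone {m n : ℕ} (h : m ≤ n) : D.Jn n ≤ D.Jn m := by
  intro p hp
  rw [mem_Jn] at hp ⊢
  rw [← D.factor_q h, hp, map_zero]

lemma Jn_le_sup (n : ℕ) : D.Jn n ≤ D.Jn (n + 1) ⊔ maximalIdeal D.P ^ (n + 1) := by
  intro p hp
  rw [mem_Jn] at hp
  -- `q (n+1) p` lies in the image of `K n`
  obtain ⟨u, hu⟩ := Ideal.Quotient.mk_surjective (D.q (n + 1) p)
  have h1 : u ∈ D.Kn n := by
    rw [← Ideal.Quotient.eq_zero_iff_mem, ← hp, ← D.factor_q (Nat.le_succ n), ← hu,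
      Ideal.Quotient.factor_mk]
  have h2 : D.q (n + 1) p ∈ (D.mU ^ (n + 1)).map (Ideal.Quotient.mk (D.Kn (n + 1))) := by
    have h3 := Ideal.mem_map_of_mem (Ideal.Quotient.mk (D.Kn (n + 1))) (D.Kn_le_sup n h1)
    rw [Ideal.map_sup, Ideal.map_quotient_self, bot_sup_eq, hu] at h3
    exact h3
  rw [Ideal.map_pow, ← D.map_pi_maximalIdeal_of_good (D.good_Kn (n + 1)), ← Ideal.map_pow] at h2
  obtain ⟨g, hg, hgp⟩ := (Ideal.mem_map_iff_of_surjective _ (D.q_surjective (n + 1))).mp h2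
  have h4 : p - g ∈ D.Jn (n + 1) := by
    rw [mem_Jn, map_sub, sub_eq_zero]
    exact hgp.symm
  have := Ideal.add_mem _ (Ideal.mem_sup_left h4) (Ideal.mem_sup_right hg)
  simpa using this

/-- The intersection of the `J n`. -/
noncomputable def J : Ideal D.P := ⨅ n, D.Jn n

lemma mem_J {p : D.P} : p ∈ D.J ↔ ∀ n, D.q n p = 0 := by
  rw [J, Ideal.mem_iInf]; rfl

lemma J_le_Jn (n : ℕ) : D.J ≤ D.Jn n := iInf_le _ n

lemma Jn_le_maximalIdeal (n : ℕ) : D.Jn n ≤ maximalIdeal D.P := by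
  refine le_maximalIdeal ?_
  intro h
  have h1 : (1 : D.P) ∈ D.Jn n := h ▸ Submodule.mem_top
  rw [mem_Jn, map_one] at h1
  have h2 : (1 : U) ∈ D.Kn n := by
    rw [← Ideal.Quotient.eq_zero_iff_mem, map_one]; exact h1
  have h3 : (1 : U) ∈ D.mU := D.good_le _ (D.good_Kn n) h2
  have h4 : algebraMap 𝒪 U 1 ∈ D.mU := by rwa [map_one]
  exact (mem_maximalIdeal _).mp ((D.algebraMap_mem_iff 1).mp h4) isUnit_one

lemma J_ne_top : D.J ≠ ⊤ := by
  intro h
  have := (D.J_le_Jn 0).trans (D.Jn_le_maximalIdeal 0)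
  rw [h, top_le_iff] at this
  exact Ideal.IsPrime.ne_top inferInstance this

variable [IsAdicComplete (maximalIdeal 𝒪) 𝒪]

/-- successive approximation: a sequence of compatible cosets of the `J n` has a limit -/
lemma exists_limit (S : ℕ → Set D.P)
    (hS : ∀ i, ∀ p ∈ S i, ∃ p' ∈ S (i + 1), p' - p ∈ maximalIdeal D.P ^ (i + 1))
    (hS' : ∀ i, ∀ p ∈ S i, ∀ p', p' - p ∈ maximalIdeal D.P ^ (i + 1) → p' ∈ S i)
    (hS'' : ∀ i, ∀ p ∈ S (i + 1), p ∈ S i)
    (n : ℕ) (p : D.P) (hp : p ∈ S n) :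
    ∃ L : D.P, L - p ∈ maximalIdeal D.P ^ (n + 1) ∧ ∀ i, L ∈ S i := by
  obtain ⟨L, hL1, hL2⟩ := exists_limit_of_approx (maximalIdeal D.P) (fun i => S (i - 1))
    (fun i p hp => by
      rcases Nat.eq_zero_or_pos i with rfl | hi
      · exact ⟨p, hp, by simp⟩
      · obtain ⟨p', hp', h⟩ := hS (i - 1) p hp
        have e1 : i - 1 + 1 = i := by omega
        rw [e1] at hp' h
        exact ⟨p', by simpa using hp', h⟩) (n + 1) p (by simpa using hp)
  have hge : ∀ i, n ≤ i → L ∈ S i := by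
    intro i hi
    obtain ⟨p', hp', h⟩ := hL2 (i + 1) (by omega)
    exact hS' i p' (by simpa using hp') L h
  have hanti : ∀ i j, i ≤ j → L ∈ S j → L ∈ S i := by
    intro i j hij
    induction j, hij using Nat.le_induction with
    | base => exact id
    | succ j _ ih => exact fun h => ih (hS'' j L h)
  refine ⟨L, hL1, fun i => ?_⟩
  rcases le_total n i with h | h
  · exact hge i h
  · exact hanti i n h (hge n le_rfl)

lemma Jn_le_J_sup (n : ℕ) : D.Jn n ≤ D.J ⊔ maximalIdeal D.P ^ (n + 1) := by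
  intro p hp
  obtain ⟨L, hL1, hL2⟩ := D.exists_limit (fun i => (D.Jn i : Set D.P))
    (fun i p hp => by
      obtain ⟨a, ha, b, hb, hab⟩ := Submodule.mem_sup.mp (D.Jn_le_sup i hp)
      refine ⟨a, ha, ?_⟩
      have : a - p = -b := by rw [← hab]; ring
      rw [this]
      exact neg_mem hb)
    (fun i p hp p' h => by
      have := Ideal.add_mem _ (D.pow_le_Jn i h) hp
      simpa using this)
    (fun i p hp => D.Jn_antitone (Nat.le_succ i) hp) n p hp
  have h1 : L ∈ D.J := by rw [J, Ideal.mem_iInf]; exact hL2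
  have h2 : p = L + -(L - p) := by ring
  rw [h2]
  exact Ideal.add_mem _ (Ideal.mem_sup_left h1) (Ideal.mem_sup_right (neg_mem hL1))

lemma Jn_eq (n : ℕ) : D.Jn n = D.J ⊔ maximalIdeal D.P ^ (n + 1) :=
  le_antisymm (D.Jn_le_J_sup n) (sup_le (D.J_le_Jn n) (D.pow_le_Jn n))

lemma exists_lift (u : U) : ∃ L : D.P, ∀ n, D.q n L = Ideal.Quotient.mk _ u := by
  obtain ⟨p, hp⟩ := D.q_surjective 0 (Ideal.Quotient.mk _ u)
  obtain ⟨L, -, hL⟩ := D.exists_limit (fun i => {p | D.q i p = Ideal.Quotient.mk _ u})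
    (fun i p hp => by
      obtain ⟨p₁, hp₁⟩ := D.q_surjective (i + 1) (Ideal.Quotient.mk _ u)
      have h1 : p₁ - p ∈ D.Jn i := by
        rw [mem_Jn, map_sub, ← D.factor_q (Nat.le_succ i) p₁, hp₁, Ideal.Quotient.factor_mk,
          sub_eq_zero]
        exact hp.symm
      obtain ⟨a, ha, b, hb, hab⟩ := Submodule.mem_sup.mp (D.Jn_le_sup i h1)
      refine ⟨p₁ - a, ?_, ?_⟩
      · change D.q (i + 1) (p₁ - a) = _
        rw [map_sub, hp₁, (D.mem_Jn).mp ha, sub_zero]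
      · have : p₁ - a - p = b := by linear_combination -hab
        rw [this]; exact hb)
    (fun i p hp p' h => by
      change D.q i p' = _
      have h1 : D.q i (p' - p) = 0 := D.pow_le_Jn i h
      rw [map_sub, sub_eq_zero] at h1
      rw [h1]; exact hp)
    (fun i p hp => by
      change D.q i p = _
      rw [← D.factor_q (Nat.le_succ i) p, show D.q (i + 1) p = _ from hp, Ideal.Quotient.factor_mk])
    0 p hp
  exact ⟨L, hL⟩

/-- The pro-representing ring. -/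
abbrev R : Type := D.P ⧸ D.J

instance nontrivial_R : Nontrivial D.R := Ideal.Quotient.nontrivial_iff.mpr D.J_ne_top

instance isLocalRing_R : IsLocalRing D.R :=
  IsLocalRing.of_surjective' (Ideal.Quotient.mk D.J) Ideal.Quotient.mk_surjective

instance isLocalHom_mk_R : IsLocalHom (Ideal.Quotient.mk D.J) :=
  IsLocalHom.of_surjective (Ideal.Quotient.mk D.J) Ideal.Quotient.mk_surjective

instance isLocalHom_algebraMap_P_R : IsLocalHom (algebraMap D.P D.R) := D.isLocalHom_mk_R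

instance isAdicComplete_R : IsAdicComplete (maximalIdeal D.R) D.R :=
  IsLocalRing.isAdicComplete_of_module_finite (𝒪 := D.P) (T := D.R)

instance isLocalHom_algebraMap_R : IsLocalHom (algebraMap 𝒪 D.R) := by
  have h : algebraMap 𝒪 D.R = (Ideal.Quotient.mk D.J).comp (algebraMap 𝒪 D.P) := rfl
  rw [h]
  infer_instance

lemma residue_surjective_R : Function.Surjective (residue D.R ∘ algebraMap 𝒪 D.R) := by
  intro z
  obtain ⟨y, rfl⟩ := residue_surjective z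
  obtain ⟨p, rfl⟩ := Ideal.Quotient.mk_surjective y
  obtain ⟨c, hc⟩ := mvps_residue_surjective (σ := Fin D.e) (𝒪 := 𝒪) (residue D.P p)
  refine ⟨c, ?_⟩
  have h1 : algebraMap 𝒪 D.P c - p ∈ maximalIdeal D.P := by
    rw [← residue_eq_zero_iff, map_sub, sub_eq_zero]; exact hc
  rw [Function.comp_apply, ← sub_eq_zero, ← map_sub, residue_eq_zero_iff]
  have h2 : algebraMap 𝒪 D.R c - Ideal.Quotient.mk D.J p =
      Ideal.Quotient.mk D.J (algebraMap 𝒪 D.P c - p) := by rw [map_sub]; rfl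
  rw [h2]
  exact map_nonunit (Ideal.Quotient.mk D.J) _ h1

lemma maximalIdeal_R_eq : maximalIdeal D.R = (maximalIdeal D.P).map (Ideal.Quotient.mk D.J) :=
  (map_maximalIdeal_of_surjective _ Ideal.Quotient.mk_surjective).symm

lemma mk_mem_pow_iff (n : ℕ) (p : D.P) :
    Ideal.Quotient.mk D.J p ∈ maximalIdeal D.R ^ (n + 1) ↔ D.q n p = 0 := by
  rw [maximalIdeal_R_eq, ← Ideal.map_pow, Ideal.mem_quotient_iff_mem_sup, sup_comm, ← D.Jn_eq,
    mem_Jn]

lemma mk_eq_mk_iff (p p' : D.P) :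
    Ideal.Quotient.mk D.J p = Ideal.Quotient.mk D.J p' ↔ ∀ n, D.q n p = D.q n p' := by
  rw [Ideal.Quotient.eq, mem_J]
  simp only [map_sub, sub_eq_zero]

/-- A lift of `u : U` to `P`. -/
noncomputable def lift (u : U) : D.P := (D.exists_lift u).choose

lemma q_lift (n : ℕ) (u : U) : D.q n (D.lift u) = Ideal.Quotient.mk _ u :=
  (D.exists_lift u).choose_spec n

/-- The universal map `U → R`. -/
noncomputable def fR : U →ₐ[𝒪] D.R where
  toFun u := Ideal.Quotient.mk D.J (D.lift u)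
  map_one' := by
    rw [← map_one (Ideal.Quotient.mk D.J), mk_eq_mk_iff]
    intro n; rw [q_lift, map_one, map_one]
  map_mul' u v := by
    rw [← map_mul (Ideal.Quotient.mk D.J), mk_eq_mk_iff]
    intro n; rw [map_mul, q_lift, q_lift, q_lift, map_mul]
  map_zero' := by
    rw [← map_zero (Ideal.Quotient.mk D.J), mk_eq_mk_iff]
    intro n; rw [q_lift, map_zero, map_zero]
  map_add' u v := by
    rw [← map_add (Ideal.Quotient.mk D.J), mk_eq_mk_iff]
    intro n; rw [map_add, q_lift, q_lift, q_lift, map_add]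
  commutes' c := by
    change Ideal.Quotient.mk D.J _ = Ideal.Quotient.mk D.J (algebraMap 𝒪 D.P c)
    rw [mk_eq_mk_iff]
    intro n; rw [q_lift, AlgHom.commutes]; rfl

lemma fR_apply (u : U) : D.fR u = Ideal.Quotient.mk D.J (D.lift u) := rfl

lemma fR_eq_mk {u : U} {p : D.P} (h : ∀ n, D.q n p = Ideal.Quotient.mk _ u) :
    D.fR u = Ideal.Quotient.mk D.J p := by
  rw [fR_apply, mk_eq_mk_iff]
  intro n; rw [q_lift, h]

lemma fR_x (i : Fin D.e) : D.fR (D.x i) = Ideal.Quotient.mk D.J (X i) :=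
  D.fR_eq_mk fun n => D.q_X n i

lemma comap_fR (n : ℕ) : (maximalIdeal D.R ^ (n + 1)).comap D.fR = D.Kn n := by
  ext u
  rw [Ideal.mem_comap, fR_apply, mk_mem_pow_iff, q_lift, Ideal.Quotient.eq_zero_iff_mem]

lemma dense_fR (n : ℕ) (z : D.R) : ∃ u : U, z - D.fR u ∈ maximalIdeal D.R ^ n := by
  obtain ⟨p, rfl⟩ := Ideal.Quotient.mk_surjective z
  obtain ⟨u, hu⟩ := Ideal.Quotient.mk_surjective (D.q n p)
  refine ⟨u, Ideal.pow_le_pow_right (Nat.le_succ n) ?_⟩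
  rw [fR_apply, ← map_sub, mk_mem_pow_iff, map_sub, q_lift, hu, sub_self]

theorem existsUnique_hom {A : Type} [CommRing A] [IsLocalRing A]
    [IsAdicComplete (maximalIdeal A) A] [Algebra 𝒪 A] [IsLocalHom (algebraMap 𝒪 A)]
    (hA : Function.Surjective (residue A ∘ algebraMap 𝒪 A)) (g : U →ₐ[𝒪] A)
    (hg : ∀ n, D.Good ((maximalIdeal A ^ (n + 1)).comap g)) :
    ∃! φ : D.R →ₐ[𝒪] A, φ.comp D.fR = g := by
  -- `g` maps `mU` into the maximal ideal
  have hgm : ∀ u ∈ D.mU, g u ∈ maximalIdeal A := by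
    intro u hu
    obtain ⟨c, hc⟩ := hA (residue A (g u))
    have h1 : g (u - algebraMap 𝒪 U c) ∈ maximalIdeal A := by
      rw [map_sub, AlgHom.commutes, ← residue_eq_zero_iff, map_sub, sub_eq_zero]
      exact hc.symm
    have h2 : u - algebraMap 𝒪 U c ∈ (maximalIdeal A ^ (0 + 1)).comap g := by
      rw [Ideal.mem_comap, zero_add, pow_one]; exact h1
    have h3 := D.good_le _ (hg 0) h2
    have h4 : algebraMap 𝒪 U c ∈ D.mU := by
      have := D.mU.sub_mem hu h3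
      simpa using this
    have h5 : algebraMap 𝒪 A c ∈ maximalIdeal A :=
      map_nonunit (algebraMap 𝒪 A) c ((D.algebraMap_mem_iff c).mp h4)
    have := (maximalIdeal A).add_mem h1 h5
    rw [map_sub, AlgHom.commutes] at this
    simpa using this
  have hpow : ∀ n, D.mU ^ (n + 1) ≤ (maximalIdeal A ^ (n + 1)).comap g := by
    intro n
    refine (Ideal.pow_right_mono (show D.mU ≤ (maximalIdeal A).comap g from hgm) (n + 1)).trans ?_
    exact Ideal.le_comap_pow g (n + 1)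
  have hKn : ∀ n, D.Kn n ≤ (maximalIdeal A ^ (n + 1)).comap g := fun n =>
    D.Kn_le n (hg n) (hpow n)
  -- the induced maps `U ⧸ K n → A ⧸ 𝔪 ^ (n+1)`
  let gbar : ∀ n, U ⧸ D.Kn n →ₐ[𝒪] A ⧸ maximalIdeal A ^ (n + 1) := fun n =>
    Ideal.Quotient.liftₐ (D.Kn n) ((Ideal.Quotient.mkₐ 𝒪 (maximalIdeal A ^ (n + 1))).comp g)
      (fun u hu => Ideal.Quotient.eq_zero_iff_mem.mpr (hKn n hu))
  have hgbar : ∀ n u, gbar n (Ideal.Quotient.mk _ u) = Ideal.Quotient.mk _ (g u) := fun n u => rfl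
  obtain ⟨Φ, hΦ⟩ := mvps_exists_eval_complete (𝒪 := 𝒪) (maximalIdeal A) (fun i => g (D.x i))
    (fun i => hgm _ (D.x_mem i))
  have key : ∀ n (p : D.P), Ideal.Quotient.mk (maximalIdeal A ^ (n + 1)) (Φ p) =
      gbar n (D.q n p) := by
    intro n p
    have h1 : (Ideal.Quotient.mkₐ 𝒪 (maximalIdeal A ^ (n + 1))).comp Φ = (gbar n).comp (D.q n) := by
      refine mvps_algHom_ext' ((maximalIdeal A).map (Ideal.Quotient.mk (maximalIdeal A ^ (n + 1))))
        (n + 1) (by rw [← Ideal.map_pow, Ideal.map_quotient_self]) _ _ (fun i => ?_) (fun i => ?_)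
      · rw [AlgHom.comp_apply, hΦ]
        exact Ideal.mem_map_of_mem _ (hgm _ (D.x_mem i))
      · rw [AlgHom.comp_apply, AlgHom.comp_apply, hΦ, q_X, hgbar]
        rfl
    exact DFunLike.congr_fun h1 p
  have haus : ∀ a : A, (∀ n, Ideal.Quotient.mk (maximalIdeal A ^ (n + 1)) a = 0) → a = 0 := by
    intro a ha
    refine IsHausdorff.haus' (I := maximalIdeal A) a fun n => ?_
    rw [SModEq.zero, smul_eq_mul, Ideal.mul_top]
    exact Ideal.pow_le_pow_right (Nat.le_succ n) (Ideal.Quotient.eq_zero_iff_mem.mp (ha n))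
  have hJ : ∀ p ∈ D.J, Φ p = 0 := by
    intro p hp
    refine haus _ fun n => ?_
    rw [key, (D.mem_J).mp hp n, map_zero]
  refine ⟨Ideal.Quotient.liftₐ D.J Φ hJ, ?_, ?_⟩
  · ext u
    rw [AlgHom.comp_apply, fR_apply]
    change Φ (D.lift u) = g u
    rw [← sub_eq_zero]
    refine haus _ fun n => ?_
    rw [map_sub, key, q_lift, hgbar, sub_self]
  · intro φ hφ
    apply Ideal.Quotient.algHom_ext
    refine mvps_algHom_ext _ _ (fun i => ?_) (fun i => ?_)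
    · change φ (Ideal.Quotient.mk D.J (X i)) ∈ _
      rw [← fR_x, ← AlgHom.comp_apply, hφ]
      exact hgm _ (D.x_mem i)
    · change φ (Ideal.Quotient.mk D.J (X i)) = Φ (X i)
      rw [← fR_x, ← AlgHom.comp_apply, hφ, hΦ]

end GoodData

/-- Abstract pro-representability: `K_n`, `J`, `R = P ⧸ J`, universality. -/
theorem exists_prorep_of_good {𝒪 : Type} [CommRing 𝒪] [IsLocalRing 𝒪] [IsNoetherianRing 𝒪]
    [IsAdicComplete (maximalIdeal 𝒪) 𝒪] [Finite (ResidueField 𝒪)]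
    {U : Type} [CommRing U] [Algebra 𝒪 U] (mU : Ideal U)
    (hmU : ∀ u : U, ∃ c : 𝒪, u - algebraMap 𝒪 U c ∈ mU)
    (hmU' : ∀ c : 𝒪, algebraMap 𝒪 U c ∈ mU ↔ c ∈ maximalIdeal 𝒪)
    (Good : Ideal U → Prop) (good_le : ∀ K, Good K → K ≤ mU)
    (good_pow : ∀ K, Good K → ∃ n, mU ^ n ≤ K)
    (good_mono : ∀ K K', Good K → K ≤ K' → K' ≤ mU → Good K')
    (good_inf : ∀ K K', Good K → Good K' → Good (K ⊓ K')) (good_mU : Good mU)
    (e : ℕ) (x : Fin e → U) (hx : ∀ i, x i ∈ mU)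
    (good_gen : ∀ K, Good K → mU ≤ K ⊔ Ideal.span (Set.range x) ⊔
      (maximalIdeal 𝒪).map (algebraMap 𝒪 U) ⊔ mU ^ 2) :
    ∃ (R : Type) (_ : CommRing R) (_ : IsLocalRing R) (_ : IsNoetherianRing R)
      (_ : IsAdicComplete (maximalIdeal R) R) (_ : Algebra 𝒪 R)
      (_ : IsLocalHom (algebraMap 𝒪 R)) (fR : U →ₐ[𝒪] R),
      Function.Surjective (residue R ∘ algebraMap 𝒪 R) ∧
      (∀ n, Good ((maximalIdeal R ^ (n + 1)).comap fR)) ∧
      (∀ n (z : R), ∃ u : U, z - fR u ∈ maximalIdeal R ^ n) ∧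
      ∀ (A : Type) [CommRing A] [IsLocalRing A] [IsNoetherianRing A]
        [IsAdicComplete (maximalIdeal A) A] [Algebra 𝒪 A] [IsLocalHom (algebraMap 𝒪 A)],
        Function.Surjective (residue A ∘ algebraMap 𝒪 A) →
        ∀ g : U →ₐ[𝒪] A, (∀ n, Good ((maximalIdeal A ^ (n + 1)).comap g)) →
          ∃! φ : R →ₐ[𝒪] A, φ.comp fR = g := by
  let D : GoodData 𝒪 U :=
    { mU := mU, exists_sub_mem := hmU, algebraMap_mem_iff := hmU', Good := Good,
      good_le := good_le, good_pow := good_pow, good_mono := good_mono, good_inf := good_inf,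
      good_mU := good_mU, e := e, x := x, x_mem := hx, good_gen := good_gen }
  refine ⟨D.R, inferInstance, D.isLocalRing_R, inferInstance, D.isAdicComplete_R, inferInstance,
    D.isLocalHom_algebraMap_R, D.fR, D.residue_surjective_R, fun n => ?_, D.dense_fR, ?_⟩
  · rw [D.comap_fR]; exact D.good_Kn n
  · intro A _ _ _ _ _ _ hA g hg
    exact D.existsUnique_hom hA g hg

end Fermat.Agent.S53
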