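import Fermat.Agent.S53.Complete
import Fermat.Agent.S53.TranslateB

/-!
# S53: small lemmas for the final assembly
-/

set_option autoImplicit false
set_option linter.unusedSectionVars false
set_option linter.style.haveILetI false

namespace Fermat.Agent.S53

open IsLocalRing GaloisRep

section Residual

variable {k : Type} [Field k] (ρbar : ResidualGaloisRep k) (bbar : Module.Basis (Fin 2) k ρbar.V)

lemma matCont_rbarOf : MatCont (rbarOf ρbar bbar) :=
  matOf_cont (GaloisRepAdic.ofResidualGaloisRep ρbar) bbar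

lemma isEquiv_ofResidual :
    (GaloisRepAdic.ofResidualGaloisRep ρbar).IsEquiv
      (ofMat (rbarOf ρbar bbar) (matCont_rbarOf ρbar bbar)) :=
  isEquiv_ofMat_matOf (GaloisRepAdic.ofResidualGaloisRep ρbar) bbar

end Residual

section

variable {𝒪 : Type} [CommRing 𝒪] {A : Type} [CommRing A] [Algebra 𝒪 A]

lemma normalized_of_eq {x y : Gal →₀ 𝒪} {r : Gal →* M2 A}
    (hx : lin (𝒪 := 𝒪) r x = !![1, 0; 0, 0]) (hy : lin (𝒪 := 𝒪) r y = !![0, 0; 1, 0]) :
    Normalized x y r := by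
  refine ⟨?_, ?_, ?_⟩
  · rw [hx]; rfl
  · rw [hy]; rfl
  · rw [hy]; rfl

end

lemma henselianLocalRing_of_complete (A : Type) [CommRing A] [IsLocalRing A]
    [IsAdicComplete (maximalIdeal A) A] : HenselianLocalRing A where
  is_henselian f hf a₀ h₁ h₂ :=
    HenselianRing.is_henselian (I := maximalIdeal A) f hf a₀ h₁ (h₂.map _)

section

variable {𝒪 : Type} [CommRing 𝒪] [IsLocalRing 𝒪]
  {R : Type} [CommRing R] [IsLocalRing R] [Algebra 𝒪 R]
  {A : Type} [CommRing A] [IsLocalRing A] [Algebra 𝒪 A]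

lemma isLocalHom_of_algHom (hloc : IsLocalHom (algebraMap 𝒪 A))
    (hsurj : Function.Surjective (residue A ∘ algebraMap 𝒪 A)) (φ : R →ₐ[𝒪] A) :
    IsLocalHom (φ : R →+* A) := by
  refine ⟨fun z hz => ?_⟩
  by_contra hzu
  have hzm : z ∈ maximalIdeal R := hzu
  obtain ⟨c, hc⟩ := hsurj (residue A (φ z))
  have h1 : φ (z - algebraMap 𝒪 R c) ∈ maximalIdeal A := by
    rw [map_sub, AlgHom.commutes, ← residue_eq_zero_iff, map_sub, sub_eq_zero]
    exact hc.symm
  have h2 : z - algebraMap 𝒪 R c ∈ maximalIdeal R := by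
    by_contra h
    have hu : IsUnit (z - algebraMap 𝒪 R c) := by
      by_contra h'
      exact h h'
    exact h1 (hu.map φ)
  have h3 : algebraMap 𝒪 R c ∈ maximalIdeal R := by
    have := (maximalIdeal R).sub_mem hzm h2
    simpa using this
  have h4 : c ∈ maximalIdeal 𝒪 := by
    by_contra h
    have hu : IsUnit c := by
      by_contra h'
      exact h h'
    exact h3 (hu.map _)
  have h5 : algebraMap 𝒪 A c ∈ maximalIdeal A := map_nonunit (algebraMap 𝒪 A) c h4
  have h6 : φ z ∈ maximalIdeal A := by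
    have := (maximalIdeal A).add_mem h1 h5
    rw [map_sub, AlgHom.commutes] at this
    simpa using this
  exact h6 hz

end

section Gen

variable {𝒪 : Type} [CommRing 𝒪] [IsLocalRing 𝒪]
  {rbar : Gal →* M2 (ResidueField 𝒪)} {x y : Gal →₀ 𝒪} {hnbar : Normalized x y rbar}
  {𝒟 : ∀ ⦃A : Type⦄ [CommRing A] [IsLocalRing A] [Algebra 𝒪 A], GaloisRepAdic A → Prop}

lemma Good.gen [Finite (ResidueField 𝒪)] (h𝒟 : IsDeformationCondition 𝒪 𝒟)
    {e : ℕ} {t : Fin e → U x y} (ht : ∀ i, t i ∈ mU rbar hnbar)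
    (htan : ∀ u ∈ mU rbar hnbar, ∃ i, ∀ f ∈ Phi rbar x y 𝒟, f u = f (t i))
    {K : Ideal (U x y)} (h : Good rbar hnbar 𝒟 K) :
    mU rbar hnbar ≤ K ⊔ Ideal.span (Set.range t) ⊔
      (maximalIdeal 𝒪).map (algebraMap 𝒪 (U x y)) ⊔ mU rbar hnbar ^ 2 := by
  haveI := h.isLocalRing
  have h1 := h.maximalIdeal_eq h𝒟 ht htan
  intro u hu
  have h2 : Ideal.Quotient.mk K u ∈ maximalIdeal (U x y ⧸ K) := (mk_mem_maximalIdeal_iff h.le u).mpr hu
  have h3 : (maximalIdeal 𝒪).map (algebraMap 𝒪 (U x y ⧸ K)) ⊔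
      Ideal.span (Set.range fun i => Ideal.Quotient.mk K (t i)) =
      ((maximalIdeal 𝒪).map (algebraMap 𝒪 (U x y)) ⊔ Ideal.span (Set.range t)).map
        (Ideal.Quotient.mk K) := by
    rw [Ideal.map_sup, Ideal.map_map, Ideal.map_span, ← Set.range_comp]
    rfl
  rw [h1, h3] at h2
  have h4 : u ∈ (((maximalIdeal 𝒪).map (algebraMap 𝒪 (U x y)) ⊔ Ideal.span (Set.range t)).map
        (Ideal.Quotient.mk K)).comap (Ideal.Quotient.mk K) := h2
  rw [Ideal.comap_map_of_surjective _ Ideal.Quotient.mk_surjective, ← RingHom.ker_eq_comap_bot,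
    Ideal.mk_ker] at h4
  refine Ideal.mem_sup_left ?_
  have h5 : (maximalIdeal 𝒪).map (algebraMap 𝒪 (U x y)) ⊔ Ideal.span (Set.range t) ⊔ K ≤
      K ⊔ Ideal.span (Set.range t) ⊔ (maximalIdeal 𝒪).map (algebraMap 𝒪 (U x y)) :=
    sup_le (sup_le le_sup_right (le_sup_right.trans le_sup_left)) (le_sup_left.trans le_sup_left)
  exact h5 h4

end Gen

end Fermat.Agent.S53
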