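import Fermat.Agent.S53.Tangent

/-!
# S53: lifts over complete local noetherian algebras versus good ideals
-/

set_option autoImplicit false
set_option linter.unusedSectionVars false
set_option linter.style.haveILetI false

namespace Fermat.Agent.S53

open IsLocalRing GaloisRep

section Quot

variable {𝒪 : Type} [CommRing 𝒪] [IsLocalRing 𝒪]
  {A : Type} [CommRing A] [IsLocalRing A] [Algebra 𝒪 A]

instance nontrivial_quot_pow (n : ℕ) : Nontrivial (A ⧸ maximalIdeal A ^ (n + 1)) :=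
  Ideal.Quotient.nontrivial_iff.mpr fun h =>
    (maximalIdeal.isMaximal A).ne_top (top_le_iff.mp (h ▸ Ideal.pow_le_self n.succ_ne_zero))

instance isLocalRing_quot_pow (n : ℕ) : IsLocalRing (A ⧸ maximalIdeal A ^ (n + 1)) :=
  IsLocalRing.of_surjective' (Ideal.Quotient.mk _) Ideal.Quotient.mk_surjective

lemma isLocalHom_mk_pow (n : ℕ) :
    IsLocalHom (Ideal.Quotient.mk (maximalIdeal A ^ (n + 1))) :=
  IsLocalHom.of_surjective _ Ideal.Quotient.mk_surjective

lemma isLocalHom_mkₐ_pow (n : ℕ) :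
    IsLocalHom ((Ideal.Quotient.mkₐ 𝒪 (maximalIdeal A ^ (n + 1)) :
      A →ₐ[𝒪] A ⧸ maximalIdeal A ^ (n + 1)) : A →+* A ⧸ maximalIdeal A ^ (n + 1)) :=
  isLocalHom_mk_pow n

lemma maximalIdeal_quot_pow (n : ℕ) :
    maximalIdeal (A ⧸ maximalIdeal A ^ (n + 1)) =
      (maximalIdeal A).map (Ideal.Quotient.mk (maximalIdeal A ^ (n + 1))) := by
  haveI := isLocalHom_mk_pow (A := A) n
  have h1 := maximalIdeal_comap (Ideal.Quotient.mk (maximalIdeal A ^ (n + 1)))
  have h2 := Ideal.map_comap_of_surjective (Ideal.Quotient.mk (maximalIdeal A ^ (n + 1)))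
    Ideal.Quotient.mk_surjective (maximalIdeal (A ⧸ maximalIdeal A ^ (n + 1)))
  rw [h1] at h2
  exact h2.symm

lemma maximalIdeal_quot_pow_pow (n : ℕ) :
    maximalIdeal (A ⧸ maximalIdeal A ^ (n + 1)) ^ (n + 1) = ⊥ := by
  rw [maximalIdeal_quot_pow, ← Ideal.map_pow, Ideal.map_quotient_self]

lemma isTest_quot_pow [IsNoetherianRing A] (hloc : IsLocalHom (algebraMap 𝒪 A))
    (hsurj : Function.Surjective (residue A ∘ algebraMap 𝒪 A)) (n : ℕ) :
    IsArtinianTestAlgebra 𝒪 (A ⧸ maximalIdeal A ^ (n + 1)) where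
  isLocalHom := by
    haveI := isLocalHom_mk_pow (A := A) n
    exact RingHom.isLocalHom_comp (Ideal.Quotient.mk (maximalIdeal A ^ (n + 1))) (algebraMap 𝒪 A)
  residue_surjective := by
    intro z
    obtain ⟨b, rfl⟩ := residue_surjective z
    obtain ⟨a, rfl⟩ := Ideal.Quotient.mk_surjective b
    obtain ⟨c, hc⟩ := hsurj (residue A a)
    refine ⟨c, ?_⟩
    have h1 : algebraMap 𝒪 A c - a ∈ maximalIdeal A := by
      rw [← residue_eq_zero_iff, map_sub, sub_eq_zero]
      exact hc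
    change residue _ (Ideal.Quotient.mk _ (algebraMap 𝒪 A c)) = residue _ (Ideal.Quotient.mk _ a)
    rw [← sub_eq_zero, ← map_sub, ← map_sub, residue_eq_zero_iff, maximalIdeal_quot_pow]
    exact Ideal.mem_map_of_mem _ h1
  isArtinian :=
    (isArtinianRing_iff_isNilpotent_maximalIdeal _).mpr ⟨n + 1, maximalIdeal_quot_pow_pow n⟩

end Quot

section Complete

variable {𝒪 : Type} [CommRing 𝒪] [IsLocalRing 𝒪]
  {𝒟 : ∀ ⦃A : Type⦄ [CommRing A] [IsLocalRing A] [Algebra 𝒪 A], GaloisRepAdic A → Prop}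
  (h𝒟 : IsDeformationCondition 𝒪 𝒟)
  {A : Type} [CommRing A] [IsLocalRing A] [IsNoetherianRing A]
  [IsAdicComplete (maximalIdeal A) A] [Algebra 𝒪 A]

include h𝒟

lemma D_of_isEquiv_complete (hloc : IsLocalHom (algebraMap 𝒪 A))
    (hsurj : Function.Surjective (residue A ∘ algebraMap 𝒪 A)) {ρ ρ' : GaloisRepAdic A}
    (e : ρ.IsEquiv ρ') (h : 𝒟 ρ) : 𝒟 ρ' := by
  rw [h𝒟.iff_forall_surjective hloc hsurj] at h ⊢
  intro B _ _ _ hB q hq hqs
  obtain ⟨e⟩ := e
  exact h𝒟.of_isEquiv hB ⟨e.baseChangeAlong _ hq⟩ (h hB q hq hqs)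

variable {rbar : Gal →* M2 (ResidueField 𝒪)} {x y : Gal →₀ 𝒪} {hnbar : Normalized x y rbar}

/-- L2: a lift over a complete algebra gives good ideals. -/
theorem good_comap_liftU [Finite (ResidueField 𝒪)] (hloc : IsLocalHom (algebraMap 𝒪 A))
    (hsurj : Function.Surjective (residue A ∘ algebraMap 𝒪 A)) {r : Gal →* M2 A}
    (h : IsLift rbar x y 𝒟 r) (n : ℕ) :
    Good rbar hnbar 𝒟 ((maximalIdeal A ^ (n + 1)).comap (liftU r h.norm)) := by
  have hB := isTest_quot_pow hloc hsurj n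
  let q : A →ₐ[𝒪] A ⧸ maximalIdeal A ^ (n + 1) := Ideal.Quotient.mkₐ 𝒪 _
  have hq : IsLocalHom (q : A →+* A ⧸ maximalIdeal A ^ (n + 1)) := isLocalHom_mkₐ_pow n
  have hD := (h𝒟.iff_forall_surjective hloc hsurj _).mp h.type hB q hq
    (Ideal.Quotient.mkₐ_surjective _ _)
  have hL : IsLift rbar x y 𝒟 (mapRep (q : A →+* A ⧸ maximalIdeal A ^ (n + 1)) r) :=
    ⟨h.cont.map _ hq, h.res.map q hq, h.norm.map q,
      h𝒟.of_isEquiv hB (baseChangeAlong_ofMat h.cont _ hq) hD⟩
  have hG := good_ker_liftU (hnbar := hnbar) h𝒟 hB hL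
  have hcomp : liftU (mapRep (q : A →+* A ⧸ maximalIdeal A ^ (n + 1)) r) hL.norm =
      q.comp (liftU r h.norm) := U_algHom_ext fun σ i j => by simp
  have hker : RingHom.ker (liftU (mapRep (q : A →+* A ⧸ maximalIdeal A ^ (n + 1)) r) hL.norm) =
      (maximalIdeal A ^ (n + 1)).comap (liftU r h.norm) := by
    ext u
    rw [RingHom.mem_ker, hcomp, Ideal.mem_comap]
    exact Ideal.Quotient.eq_zero_iff_mem
  rw [← hker]
  exact hG

omit h𝒟 [IsNoetherianRing A] [IsAdicComplete (maximalIdeal A) A] in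
lemma map_mU_le_of_good {g : U x y →ₐ[𝒪] A}
    (hg : Good rbar hnbar 𝒟 ((maximalIdeal A ^ (0 + 1)).comap g)) {u : U x y}
    (hu : u ∈ mU rbar hnbar) : g u ∈ maximalIdeal A := by
  obtain ⟨n, hn⟩ := hg.pow_le
  have h1 : u ^ n ∈ (maximalIdeal A ^ (0 + 1)).comap g := hn (Ideal.pow_mem_pow hu n)
  rw [Ideal.mem_comap, zero_add, pow_one, map_pow] at h1
  exact (maximalIdeal.isMaximal A).isPrime.mem_of_pow_mem n h1

/-- L1: a map from `U` all of whose truncations are good gives a lift. -/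
theorem isLift_of_good_comap (hloc : IsLocalHom (algebraMap 𝒪 A))
    (hsurj : Function.Surjective (residue A ∘ algebraMap 𝒪 A)) (g : U x y →ₐ[𝒪] A)
    (hg : ∀ n, Good rbar hnbar 𝒟 ((maximalIdeal A ^ (n + 1)).comap g)) :
    IsLift rbar x y 𝒟 (mapRep (g : U x y →+* A) (rU x y)) := by
  have hsub : ∀ σ i j, (mapRep (g : U x y →+* A) (rU x y) σ - 1) i j =
      g ((rU x y σ - 1) i j) := by
    intro σ i j
    simp only [Matrix.sub_apply, mapRep_apply, map_sub, Matrix.one_apply]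
    split_ifs <;> simp
  have hcont : MatCont (mapRep (g : U x y →+* A) (rU x y)) := by
    intro n
    cases n with
    | zero =>
      exact ⟨⊥, inferInstance, fun σ _ i j => by rw [pow_zero, Ideal.one_eq_top]; trivial⟩
    | succ n =>
      obtain ⟨L, hL, h⟩ := (hg n).openKer
      refine ⟨L, hL, fun σ hσ i j => ?_⟩
      rw [hsub]
      exact h σ hσ i j
  refine ⟨hcont, ?_, (rU_normalized x y).map g, ?_⟩
  · intro σ i j c hc
    have h1 := map_mU_le_of_good (hg 0) (rU_sub_mem_mU rbar hnbar σ i j c hc)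
    rw [map_sub, AlgHom.commutes] at h1
    exact h1
  · rw [h𝒟.iff_forall_surjective hloc hsurj]
    intro B _ _ _ hB q hq hqs
    haveI := hB.isArtinian
    obtain ⟨n, hn⟩ := exists_maximalIdeal_pow_eq_bot B
    have hn1 : maximalIdeal B ^ (n + 1) = ⊥ := by rw [pow_succ, hn, Ideal.bot_mul]
    set K := (maximalIdeal A ^ (n + 1)).comap g with hK
    have hGK : Good rbar hnbar 𝒟 K := hg n
    haveI := hGK.isLocalRing
    have hkill : ∀ u ∈ K, (q.comp g) u = 0 := by
      intro u hu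
      have h1 : (maximalIdeal A ^ (n + 1)).map (q : A →+* B) ≤ maximalIdeal B ^ (n + 1) := by
        rw [Ideal.map_pow]
        exact Ideal.pow_right_mono (map_maximalIdeal_le (q : A →+* B)) _
      have h2 := h1 (Ideal.mem_map_of_mem (q : A →+* B) hu)
      rw [hn1] at h2
      exact h2
    let f : (U x y ⧸ K) →ₐ[𝒪] B := Ideal.Quotient.liftₐ K (q.comp g) hkill
    have hf : IsLocalHom (f : (U x y ⧸ K) →+* B) := by
      refine ⟨fun a ha => ?_⟩
      obtain ⟨u, rfl⟩ := Ideal.Quotient.mk_surjective a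
      by_contra hu
      have h1 : u ∈ mU rbar hnbar := (mk_mem_maximalIdeal_iff hGK.le u).mp hu
      have h2 : q (g u) ∈ maximalIdeal B :=
        map_nonunit (q : A →+* B) _ (map_mU_le_of_good (hg 0) h1)
      exact h2 ha
    have hmap : mapRep (f : (U x y ⧸ K) →+* B) (rK K) =
        mapRep (q : A →+* B) (mapRep (g : U x y →+* A) (rU x y)) := by
      ext σ i j
      rfl
    have h1 := D_map h𝒟 hGK.isTest hB f hf hGK.openKer.matCont (hGK.type _ _)
      (by rw [hmap]; exact hcont.map _ hq)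
    exact h𝒟.of_isEquiv hB (isEquiv_symm (baseChangeAlong_ofMat hcont _ hq))
      (D_congr hmap _ _ h1)

end Complete

end Fermat.Agent.S53
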