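import Fermat.Statements.S53

/-!
# S53: shared definitions (matrix form of Galois representations)
-/

set_option autoImplicit false

namespace Fermat.Agent.S53

open IsLocalRing

/-- The absolute Galois group of `ℚ`. -/
abbrev Gal : Type := AlgebraicClosure ℚ ≃ₐ[ℚ] AlgebraicClosure ℚ

/-- `2 × 2` matrices. -/
abbrev M2 (A : Type) : Type := Matrix (Fin 2) (Fin 2) A

section Basic

variable {A B : Type} [CommRing A] [CommRing B]

/-- Push a matrix representation forward along a ring homomorphism. -/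
noncomputable def mapRep (φ : A →+* B) (r : Gal →* M2 A) : Gal →* M2 B :=
  (φ.mapMatrix : M2 A →+* M2 B).toMonoidHom.comp r

@[simp] lemma mapRep_apply (φ : A →+* B) (r : Gal →* M2 A) (σ : Gal) (i j : Fin 2) :
    mapRep φ r σ i j = φ (r σ i j) := rfl

lemma mapRep_apply' (φ : A →+* B) (r : Gal →* M2 A) (σ : Gal) :
    mapRep φ r σ = (r σ).map φ := rfl

end Basic

section Local

variable {A : Type} [CommRing A] [IsLocalRing A]

/-- Adic continuity of a matrix representation. -/
def MatCont (r : Gal →* M2 A) : Prop :=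
  ∀ n : ℕ, ∃ L : IntermediateField ℚ (AlgebraicClosure ℚ), FiniteDimensional ℚ L ∧
    ∀ σ : Gal, (∀ x ∈ L, σ x = x) → ∀ i j, (r σ - 1) i j ∈ maximalIdeal A ^ n

omit [IsLocalRing A] in
lemma mem_smul_top_pi (I : Ideal A) (w : Fin 2 → A) (hw : ∀ i, w i ∈ I) :
    w ∈ I • (⊤ : Submodule A (Fin 2 → A)) := by
  rw [pi_eq_sum_univ w]
  refine Submodule.sum_mem _ fun i _ => ?_
  exact Submodule.smul_mem_smul (hw i) Submodule.mem_top

/-- The `GaloisRepAdic` attached to a continuous matrix representation. -/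
@[reducible] noncomputable def ofMat (r : Gal →* M2 A) (hr : MatCont r) : GaloisRepAdic A where
  V := Fin 2 → A
  finrank_eq := by simp
  ρ := ((Matrix.toLinAlgEquiv' : M2 A ≃ₐ[A] Module.End A (Fin 2 → A)) :
    M2 A →* Module.End A (Fin 2 → A)).comp r
  isAdicContinuous := by
    intro n
    obtain ⟨L, hL, h⟩ := hr n
    refine ⟨L, hL, fun σ hσ v => ?_⟩
    apply mem_smul_top_pi
    intro i
    have : (((Matrix.toLinAlgEquiv' : M2 A ≃ₐ[A] Module.End A (Fin 2 → A)) :
        M2 A →* Module.End A (Fin 2 → A)).comp r σ v - v) i = ∑ j, (r σ - 1) i j * v j := by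
      change ((r σ).mulVec v - v) i = _
      have h1 : (r σ).mulVec v - v = (r σ - 1).mulVec v := by
        rw [Matrix.sub_mulVec, Matrix.one_mulVec]
      rw [h1]
      rfl
    rw [this]
    exact Ideal.sum_mem _ fun j _ => Ideal.mul_mem_right _ _ (h σ hσ i j)

@[simp] lemma ofMat_ρ_apply (r : Gal →* M2 A) (hr : MatCont r) (σ : Gal) (v : Fin 2 → A) :
    (ofMat r hr).ρ σ v = (r σ).mulVec v := rfl

end Local

section Alg

variable {𝒪 : Type} [CommRing 𝒪] {A : Type} [CommRing A] [Algebra 𝒪 A]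

/-- Linear extension of a matrix representation to finitely supported `𝒪`-combinations of group
elements. -/
noncomputable def lin (r : Gal →* M2 A) : (Gal →₀ 𝒪) →ₗ[𝒪] M2 A :=
  Finsupp.linearCombination 𝒪 (fun σ => r σ)

/-- The rigidification: `r(x)` has lower-left entry `0` and `r(y)` has first column `e₂`. -/
def Normalized (x y : Gal →₀ 𝒪) (r : Gal →* M2 A) : Prop :=
  lin r x 1 0 = 0 ∧ lin r y 0 0 = 0 ∧ lin r y 1 0 = 1

end Alg

section Res

variable {𝒪 : Type} [CommRing 𝒪] [IsLocalRing 𝒪] {A : Type} [CommRing A] [IsLocalRing A]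
  [Algebra 𝒪 A]

/-- `r` reduces to `rbar` modulo the maximal ideal (entrywise, through lifts to `𝒪`). -/
def ResCond (rbar : Gal →* M2 (ResidueField 𝒪)) (r : Gal →* M2 A) : Prop :=
  ∀ (σ : Gal) (i j : Fin 2) (c : 𝒪), residue 𝒪 c = rbar σ i j →
    r σ i j - algebraMap 𝒪 A c ∈ maximalIdeal A

end Res

/-- The matrix form of a residual representation in a basis. -/
noncomputable def rbarOf {k : Type} [Field k] (ρbar : ResidualGaloisRep k)
    (bbar : Module.Basis (Fin 2) k ρbar.V) : Gal →* M2 k :=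
  ((LinearMap.toMatrixAlgEquiv bbar : Module.End k ρbar.V ≃ₐ[k] M2 k) :
    Module.End k ρbar.V →* M2 k).comp ρbar.ρ

end Fermat.Agent.S53
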