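import Mathlib.Algebra.DualNumber
import Mathlib.RingTheory.DualNumber
import Mathlib.RingTheory.LocalRing.ResidueField.Basic
import Mathlib.LinearAlgebra.Dual.Lemmas

/-!
# S53: maps to the dual numbers detecting proper sub-ideals of the maximal ideal
-/

set_option autoImplicit false

namespace Fermat.Agent.S53

open IsLocalRing

/-- The `𝒪`-algebra structure on `k[ε]` used in `GaloisRep.TangentFinite` (syntactically the same
term). -/
@[reducible] noncomputable def dualAlg (𝒪 : Type) [CommRing 𝒪] [IsLocalRing 𝒪] :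
    Algebra 𝒪 (DualNumber (ResidueField 𝒪)) :=
  ((algebraMap (ResidueField 𝒪) (DualNumber (ResidueField 𝒪))).comp
      (algebraMap 𝒪 (ResidueField 𝒪))).toAlgebra

/-- C6 -/
theorem exists_algHom_dualNumber {𝒪 : Type} [CommRing 𝒪] [IsLocalRing 𝒪]
    {A : Type} [CommRing A] [IsLocalRing A] [Algebra 𝒪 A]
    (hloc : IsLocalHom (algebraMap 𝒪 A))
    (hsurj : Function.Surjective (IsLocalRing.residue A ∘ algebraMap 𝒪 A))
    (I : Ideal A) (hI : I < maximalIdeal A) (h2 : maximalIdeal A ^ 2 ≤ I)
    (h𝒪 : (maximalIdeal 𝒪).map (algebraMap 𝒪 A) ≤ I) :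
    letI := dualAlg 𝒪
    ∃ f : A →ₐ[𝒪] DualNumber (ResidueField 𝒪), IsLocalHom (f : A →+* DualNumber (ResidueField 𝒪)) ∧
      (∀ a ∈ I, f a = 0) ∧ ∃ t ∈ maximalIdeal A, f t ≠ 0 := by
  letI := dualAlg 𝒪
  -- the residue map `A → k`
  have hbij : Function.Bijective (ResidueField.map (algebraMap 𝒪 A)) := by
    refine ⟨RingHom.injective _, fun z => ?_⟩
    obtain ⟨c, hc⟩ := hsurj z
    exact ⟨residue 𝒪 c, by rw [ResidueField.map_residue]; exact hc⟩
  let κ : ResidueField 𝒪 ≃+* ResidueField A := RingEquiv.ofBijective _ hbij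
  let res : A →+* ResidueField 𝒪 := (κ.symm : ResidueField A →+* ResidueField 𝒪).comp (residue A)
  have hres_alg : ∀ c : 𝒪, res (algebraMap 𝒪 A c) = residue 𝒪 c := by
    intro c
    change κ.symm (residue A (algebraMap 𝒪 A c)) = residue 𝒪 c
    rw [RingEquiv.symm_apply_eq]
    exact (ResidueField.map_residue (algebraMap 𝒪 A) c).symm
  have hres_zero : ∀ a : A, res a = 0 ↔ a ∈ maximalIdeal A := by
    intro a
    change κ.symm (residue A a) = 0 ↔ _
    rw [map_eq_zero_iff _ κ.symm.injective, residue_eq_zero_iff]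
  -- decomposition of elements
  have hdec : ∀ a : A, ∃ c : 𝒪, a - algebraMap 𝒪 A c ∈ maximalIdeal A := by
    intro a
    obtain ⟨c, hc⟩ := hsurj (residue A a)
    refine ⟨c, ?_⟩
    rw [← residue_eq_zero_iff, map_sub, sub_eq_zero]
    exact hc.symm
  -- `A ⧸ I` as a `k`-algebra
  let ψ : ResidueField 𝒪 →+* A ⧸ I :=
    Ideal.Quotient.lift (maximalIdeal 𝒪) ((Ideal.Quotient.mk I).comp (algebraMap 𝒪 A)) (by
      intro c hc
      exact Ideal.Quotient.eq_zero_iff_mem.mpr (h𝒪 (Ideal.mem_map_of_mem _ hc)))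
  letI : Algebra (ResidueField 𝒪) (A ⧸ I) := ψ.toAlgebra
  have hψ : ∀ c : 𝒪, ψ (residue 𝒪 c) = Ideal.Quotient.mk I (algebraMap 𝒪 A c) := fun c => rfl
  have hsmul : ∀ (c : 𝒪) (w : A), (residue 𝒪 c) • (Ideal.Quotient.mk I w) =
      Ideal.Quotient.mk I (algebraMap 𝒪 A c * w) := by
    intro c w
    rw [Algebra.smul_def, map_mul]
    rfl
  -- the element `t`
  obtain ⟨t, htm, htI⟩ := Set.exists_of_ssubset hI
  have htnot : Ideal.Quotient.mk I t ∉
      Submodule.span (ResidueField 𝒪) {(1 : A ⧸ I)} := by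
    intro hmem
    obtain ⟨z, hz⟩ := Submodule.mem_span_singleton.mp hmem
    obtain ⟨c, rfl⟩ := residue_surjective z
    have h1 : Ideal.Quotient.mk I (algebraMap 𝒪 A c * 1) = Ideal.Quotient.mk I t := by
      rw [← hsmul, map_one]; exact hz
    rw [mul_one, Ideal.Quotient.eq] at h1
    have h3 : algebraMap 𝒪 A c ∈ maximalIdeal A := by
      have := Ideal.add_mem _ (hI.le h1) htm
      simpa using this
    have h4 : c ∈ maximalIdeal 𝒪 := by
      by_contra hc
      have hu : IsUnit c := by simpa using hc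
      exact (mem_maximalIdeal _).mp h3 (hu.map _)
    have h5 : algebraMap 𝒪 A c ∈ I := h𝒪 (Ideal.mem_map_of_mem _ h4)
    apply htI
    have := I.sub_mem h5 h1
    simpa using this
  obtain ⟨lam, hlam_t, hlam_one⟩ := Submodule.exists_dual_map_eq_bot_of_notMem htnot inferInstance
  have hlam1 : lam 1 = 0 := by
    have : lam 1 ∈ Submodule.map lam (Submodule.span (ResidueField 𝒪) {(1 : A ⧸ I)}) :=
      Submodule.mem_map_of_mem (Submodule.mem_span_singleton_self _)
    rw [hlam_one] at this
    simpa using this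
  let l : A → ResidueField 𝒪 := fun a => lam (Ideal.Quotient.mk I a)
  have hl_add : ∀ a b, l (a + b) = l a + l b := fun a b => by simp [l]
  have hl_I : ∀ a ∈ I, l a = 0 := fun a ha => by
    simp only [l]
    rw [Ideal.Quotient.eq_zero_iff_mem.mpr ha, map_zero]
  have hl_smul : ∀ (c : 𝒪) (w : A), l (algebraMap 𝒪 A c * w) = residue 𝒪 c * l w := by
    intro c w
    simp only [l]
    rw [← hsmul, map_smul, smul_eq_mul]
  have hl_alg : ∀ c : 𝒪, l (algebraMap 𝒪 A c) = 0 := by
    intro c
    have := hl_smul c 1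
    rw [mul_one] at this
    rw [this]
    simp [l, hlam1]
  have hl_mul : ∀ a b, l (a * b) = res a * l b + res b * l a := by
    intro a b
    obtain ⟨c, hc⟩ := hdec a
    obtain ⟨d, hd⟩ := hdec b
    set μ := a - algebraMap 𝒪 A c with hμ
    set ν := b - algebraMap 𝒪 A d with hν
    have ha : a = algebraMap 𝒪 A c + μ := by rw [hμ]; ring
    have hb : b = algebraMap 𝒪 A d + ν := by rw [hν]; ring
    have hra : res a = residue 𝒪 c := by
      rw [ha, map_add, hres_alg, (hres_zero μ).mpr hc, add_zero]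
    have hrb : res b = residue 𝒪 d := by
      rw [hb, map_add, hres_alg, (hres_zero ν).mpr hd, add_zero]
    have hla : l a = l μ := by rw [ha, hl_add, hl_alg, zero_add]
    have hlb : l b = l ν := by rw [hb, hl_add, hl_alg, zero_add]
    have hμν : l (μ * ν) = 0 := hl_I _ (h2 (by rw [pow_two]; exact Ideal.mul_mem_mul hc hd))
    have hexp : a * b = algebraMap 𝒪 A c * algebraMap 𝒪 A d + algebraMap 𝒪 A c * ν +
        algebraMap 𝒪 A d * μ + μ * ν := by rw [ha, hb]; ring
    rw [hexp, hl_add, hl_add, hl_add, hμν, hl_smul, hl_smul, hl_smul, hl_alg, hra, hrb, hla, hlb]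
    ring
  let f0 : A →+* DualNumber (ResidueField 𝒪) :=
    { toFun := fun a => TrivSqZeroExt.inl (res a) + TrivSqZeroExt.inr (l a)
      map_one' := by
        apply TrivSqZeroExt.ext
        · simp
        · simp [l, hlam1]
      map_mul' := fun a b => by
        apply TrivSqZeroExt.ext
        · simp
        · simp [hl_mul, mul_comm]
      map_zero' := by
        apply TrivSqZeroExt.ext
        · simp
        · simp [l]
      map_add' := fun a b => by
        apply TrivSqZeroExt.ext
        · simp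
        · simp [hl_add] }
  let f : A →ₐ[𝒪] DualNumber (ResidueField 𝒪) :=
    { f0 with
      commutes' := fun c => by
        change TrivSqZeroExt.inl (res (algebraMap 𝒪 A c)) + TrivSqZeroExt.inr (l (algebraMap 𝒪 A c))
          = algebraMap (ResidueField 𝒪) (DualNumber (ResidueField 𝒪)) (residue 𝒪 c)
        rw [hres_alg, hl_alg, TrivSqZeroExt.algebraMap_eq_inl]
        simp }
  refine ⟨f, ⟨fun a ha => ?_⟩, fun a ha => ?_, t, htm, ?_⟩
  · have h1 : IsUnit (TrivSqZeroExt.fst (f a)) := TrivSqZeroExt.isUnit_iff_isUnit_fst.mp ha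
    have h3 : TrivSqZeroExt.fst (f a) = res a := by
      change TrivSqZeroExt.fst (TrivSqZeroExt.inl (res a) + TrivSqZeroExt.inr (l a)) = res a
      simp
    rw [h3] at h1
    by_contra hna
    exact h1.ne_zero ((hres_zero a).mpr hna)
  · change TrivSqZeroExt.inl (res a) + TrivSqZeroExt.inr (l a) = 0
    rw [hl_I a ha, (hres_zero a).mpr (hI.le ha)]
    simp
  · intro h0
    have h1 : TrivSqZeroExt.snd (f t) = l t := by
      change TrivSqZeroExt.snd (TrivSqZeroExt.inl (res t) + TrivSqZeroExt.inr (l t)) = l t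
      simp
    rw [h0] at h1
    exact hlam_t h1.symm

end Fermat.Agent.S53
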