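import Fermat.Agent.S53.Defs

/-!
# S53: artinian test algebras are finite rings
-/

set_option autoImplicit false

namespace Fermat.Agent.S53

open IsLocalRing

lemma finite_of_isFiniteLength {A : Type} [CommRing A] [IsLocalRing A] [Finite (ResidueField A)]
    {L : Type} [AddCommGroup L] [Module A L] (hL : IsFiniteLength A L) : Finite L := by
  induction hL with
  | of_subsingleton => infer_instance
  | @of_simple_quotient L _ _ N hs _ ih =>
    obtain ⟨I, hI, ⟨e⟩⟩ := isSimpleModule_iff_quot_maximal.mp hs
    obtain rfl := IsLocalRing.eq_maximalIdeal hI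
    have h1 : Finite (L ⧸ N) :=
      Finite.of_equiv (ResidueField A) e.symm.toEquiv
    have h2 : Finite (L ⧸ N.toAddSubgroup) := h1
    have h3 : Finite N.toAddSubgroup := ih
    exact Finite.of_equiv _ (AddSubgroup.addGroupEquivQuotientProdAddSubgroup
      (s := N.toAddSubgroup)).symm

lemma residueField_map_bijective {𝒪 : Type} [CommRing 𝒪] [IsLocalRing 𝒪]
    {A : Type} [CommRing A] [IsLocalRing A] [Algebra 𝒪 A] [IsLocalHom (algebraMap 𝒪 A)]
    (hsurj : Function.Surjective (IsLocalRing.residue A ∘ algebraMap 𝒪 A)) :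
    Function.Bijective (ResidueField.map (algebraMap 𝒪 A)) := by
  refine ⟨RingHom.injective _, fun z => ?_⟩
  obtain ⟨c, hc⟩ := hsurj z
  exact ⟨residue 𝒪 c, by rw [ResidueField.map_residue]; exact hc⟩

/-- C7 -/
theorem finite_of_isArtinianTestAlgebra {𝒪 : Type} [CommRing 𝒪] [IsLocalRing 𝒪]
    [Finite (ResidueField 𝒪)] {A : Type} [CommRing A] [IsLocalRing A] [Algebra 𝒪 A]
    (h : GaloisRep.IsArtinianTestAlgebra 𝒪 A) : Finite A := by
  have := h.isLocalHom
  have := h.isArtinian
  have : Finite (ResidueField A) :=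
    Finite.of_surjective _ (residueField_map_bijective h.residue_surjective).2
  exact finite_of_isFiniteLength (A := A)
    (isFiniteLength_iff_isNoetherian_isArtinian.mpr ⟨inferInstance, inferInstance⟩)

end Fermat.Agent.S53
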