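import Fermat.Agent.S53.Defs

/-!
# S53: the universal ring of normalised `2 × 2` matrix representations of `Gal`
-/

set_option autoImplicit false

namespace Fermat.Agent.S53

open IsLocalRing

section LinMap

variable {𝒪 : Type} [CommRing 𝒪] {A B : Type} [CommRing A] [CommRing B] [Algebra 𝒪 A] [Algebra 𝒪 B]

lemma lin_mapRep (f : A →ₐ[𝒪] B) (r : Gal →* M2 A) (z : Gal →₀ 𝒪) :
    lin (mapRep (f : A →+* B) r) z = (lin r z).map f := by
  have h := Finsupp.apply_linearCombination 𝒪 (f.mapMatrix (m := Fin 2)).toLinearMap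
    (fun σ => r σ) z
  exact h.symm

lemma lin_mapRep_apply (f : A →ₐ[𝒪] B) (r : Gal →* M2 A) (z : Gal →₀ 𝒪) (i j : Fin 2) :
    lin (mapRep (f : A →+* B) r) z i j = f (lin r z i j) := by
  rw [lin_mapRep]; rfl

lemma Normalized.map {x y : Gal →₀ 𝒪} {r : Gal →* M2 A} (h : Normalized x y r) (f : A →ₐ[𝒪] B) :
    Normalized x y (mapRep (f : A →+* B) r) := by
  obtain ⟨h1, h2, h3⟩ := h
  refine ⟨?_, ?_, ?_⟩
  · rw [lin_mapRep_apply, h1, map_zero]
  · rw [lin_mapRep_apply, h2, map_zero]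
  · rw [lin_mapRep_apply, h3, map_one]

end LinMap

section Univ

variable {𝒪 : Type} [CommRing 𝒪]

/-- Index set of the generators. -/
abbrev Gen : Type := Gal × Fin 2 × Fin 2

/-- The polynomial ring on the matrix entries. -/
abbrev Pol (𝒪 : Type) [CommRing 𝒪] : Type := MvPolynomial Gen 𝒪

/-- The generic matrices. -/
noncomputable def genMat (𝒪 : Type) [CommRing 𝒪] (σ : Gal) : M2 (Pol 𝒪) :=
  Matrix.of fun i j => MvPolynomial.X (σ, i, j)

/-- Linear combinations of generic matrices. -/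
noncomputable def genLin (z : Gal →₀ 𝒪) : M2 (Pol 𝒪) :=
  Finsupp.linearCombination 𝒪 (genMat 𝒪) z

/-- The relations. -/
def relSet (x y : Gal →₀ 𝒪) : Set (Pol 𝒪) :=
  {p | (∃ σ τ i j, p = (genMat 𝒪 (σ * τ) - genMat 𝒪 σ * genMat 𝒪 τ) i j) ∨
       (∃ i j, p = (genMat 𝒪 1 - 1) i j) ∨
       p = genLin x 1 0 ∨ p = genLin y 0 0 ∨ p = genLin y 1 0 - 1}

/-- The universal ring. -/
def U (x y : Gal →₀ 𝒪) : Type := Pol 𝒪 ⧸ Ideal.span (relSet x y)

variable (x y : Gal →₀ 𝒪)

noncomputable instance instCommRingU : CommRing (U x y) :=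
  inferInstanceAs (CommRing (Pol 𝒪 ⧸ Ideal.span (relSet x y)))

noncomputable instance instAlgebraU : Algebra 𝒪 (U x y) :=
  inferInstanceAs (Algebra 𝒪 (Pol 𝒪 ⧸ Ideal.span (relSet x y)))

/-- The quotient map. -/
noncomputable def mkU : Pol 𝒪 →ₐ[𝒪] U x y := Ideal.Quotient.mkₐ 𝒪 (Ideal.span (relSet x y))

lemma mkU_surjective : Function.Surjective (mkU x y) :=
  Ideal.Quotient.mkₐ_surjective 𝒪 (Ideal.span (relSet x y))

lemma mkU_eq_zero {p : Pol 𝒪} (hp : p ∈ relSet x y) : mkU x y p = 0 :=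
  Ideal.Quotient.eq_zero_iff_mem.mpr (Ideal.subset_span hp)

/-- The tautological representation. -/
noncomputable def rU : Gal →* M2 (U x y) where
  toFun σ := (mkU x y).mapMatrix (genMat 𝒪 σ)
  map_one' := by
    rw [← sub_eq_zero, ← map_one (mkU x y).mapMatrix, ← map_sub]
    ext i j
    exact mkU_eq_zero x y (Or.inr (Or.inl ⟨i, j, rfl⟩))
  map_mul' σ τ := by
    rw [← sub_eq_zero, ← map_mul, ← map_sub]
    ext i j
    exact mkU_eq_zero x y (Or.inl ⟨σ, τ, i, j, rfl⟩)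

lemma rU_apply (σ : Gal) (i j : Fin 2) :
    rU x y σ i j = mkU x y (MvPolynomial.X (σ, i, j)) := rfl

lemma lin_rU (z : Gal →₀ 𝒪) :
    lin (rU x y) z = (genLin z).map (mkU x y) := by
  have h := Finsupp.apply_linearCombination 𝒪
    ((mkU x y).mapMatrix (m := Fin 2)).toLinearMap (genMat 𝒪) z
  exact h.symm

lemma rU_normalized : Normalized x y (rU x y) := by
  refine ⟨?_, ?_, ?_⟩
  · rw [lin_rU]
    exact mkU_eq_zero x y (Or.inr (Or.inr (Or.inl rfl)))
  · rw [lin_rU]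
    exact mkU_eq_zero x y (Or.inr (Or.inr (Or.inr (Or.inl rfl))))
  · rw [lin_rU, ← sub_eq_zero]
    have : mkU x y (genLin y 1 0 - 1) = 0 :=
      mkU_eq_zero x y (Or.inr (Or.inr (Or.inr (Or.inr rfl))))
    rw [map_sub, map_one] at this
    exact this

variable {A : Type} [CommRing A] [Algebra 𝒪 A]

/-- Evaluation of polynomials at the entries of a representation. -/
noncomputable def evalPol (r : Gal →* M2 A) : Pol 𝒪 →ₐ[𝒪] A :=
  MvPolynomial.aeval fun g : Gen => r g.1 g.2.1 g.2.2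

lemma evalPol_genMat (r : Gal →* M2 A) (σ : Gal) :
    (genMat 𝒪 σ).map (evalPol (𝒪 := 𝒪) r) = r σ := by
  ext i j
  simp [evalPol, genMat]

lemma evalPol_genLin (r : Gal →* M2 A) (z : Gal →₀ 𝒪) :
    (genLin z).map (evalPol (𝒪 := 𝒪) r) = lin r z := by
  have h := Finsupp.apply_linearCombination 𝒪
    ((evalPol (𝒪 := 𝒪) r).mapMatrix (m := Fin 2)).toLinearMap (genMat 𝒪) z
  refine h.trans ?_
  unfold lin
  have h2 : (⇑((evalPol (𝒪 := 𝒪) r).mapMatrix (m := Fin 2)).toLinearMap ∘ genMat 𝒪) =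
      fun σ => r σ := by
    funext σ
    exact evalPol_genMat r σ
  rw [h2]

variable {x y}

lemma evalPol_eq_zero (r : Gal →* M2 A) (hn : Normalized x y r) (p : Pol 𝒪)
    (hp : p ∈ Ideal.span (relSet x y)) : evalPol (𝒪 := 𝒪) r p = 0 := by
  have hle : Ideal.span (relSet x y) ≤ RingHom.ker (evalPol (𝒪 := 𝒪) r : Pol 𝒪 →+* A) := by
    rw [Ideal.span_le]
    rintro p (⟨σ, τ, i, j, rfl⟩ | ⟨i, j, rfl⟩ | rfl | rfl | rfl)
    · change evalPol (𝒪 := 𝒪) r _ = 0
      have h1 : (evalPol (𝒪 := 𝒪) r).mapMatrix (genMat 𝒪 (σ * τ) - genMat 𝒪 σ * genMat 𝒪 τ) = 0 := by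
        rw [map_sub, map_mul]
        change (genMat 𝒪 (σ * τ)).map (evalPol (𝒪 := 𝒪) r) -
          (genMat 𝒪 σ).map (evalPol (𝒪 := 𝒪) r) * (genMat 𝒪 τ).map (evalPol (𝒪 := 𝒪) r) = 0
        rw [evalPol_genMat, evalPol_genMat, evalPol_genMat, map_mul, sub_self]
      exact congrFun (congrFun h1 i) j
    · change evalPol (𝒪 := 𝒪) r _ = 0
      have h1 : (evalPol (𝒪 := 𝒪) r).mapMatrix (genMat 𝒪 1 - 1) = 0 := by
        rw [map_sub, map_one]
        change (genMat 𝒪 1).map (evalPol (𝒪 := 𝒪) r) - 1 = 0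
        rw [evalPol_genMat, map_one, sub_self]
      exact congrFun (congrFun h1 i) j
    · change evalPol (𝒪 := 𝒪) r _ = 0
      have := congrFun (congrFun (evalPol_genLin r x) 1) 0
      exact this.trans hn.1
    · change evalPol (𝒪 := 𝒪) r _ = 0
      have := congrFun (congrFun (evalPol_genLin r y) 0) 0
      exact this.trans hn.2.1
    · change evalPol (𝒪 := 𝒪) r _ = 0
      have := congrFun (congrFun (evalPol_genLin r y) 1) 0
      rw [map_sub, map_one, sub_eq_zero]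
      exact this.trans hn.2.2
  exact hle hp

/-- The classifying map of a normalised representation. -/
noncomputable def liftU (r : Gal →* M2 A) (hn : Normalized x y r) : U x y →ₐ[𝒪] A :=
  Ideal.Quotient.liftₐ (Ideal.span (relSet x y)) (evalPol r) (evalPol_eq_zero r hn)

lemma liftU_mkU (r : Gal →* M2 A) (hn : Normalized x y r) (p : Pol 𝒪) :
    liftU r hn (mkU x y p) = evalPol r p := rfl

@[simp] lemma liftU_rU (r : Gal →* M2 A) (hn : Normalized x y r) (σ : Gal) (i j : Fin 2) :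
    liftU r hn (rU x y σ i j) = r σ i j := by
  rw [rU_apply, liftU_mkU]
  simp [evalPol]

lemma mapRep_liftU (r : Gal →* M2 A) (hn : Normalized x y r) :
    mapRep (liftU r hn : U x y →+* A) (rU x y) = r := by
  ext σ i j
  simp

/-- Two algebra homomorphisms out of `U` agreeing on the entries of `rU` are equal. -/
lemma U_algHom_ext {f g : U x y →ₐ[𝒪] A}
    (h : ∀ σ i j, f (rU x y σ i j) = g (rU x y σ i j)) : f = g := by
  have h1 : f.comp (mkU x y) = g.comp (mkU x y) := by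
    apply MvPolynomial.algHom_ext
    rintro ⟨σ, i, j⟩
    exact h σ i j
  ext u
  obtain ⟨p, rfl⟩ := mkU_surjective x y u
  exact DFunLike.congr_fun h1 p

lemma liftU_mapRep (f : U x y →ₐ[𝒪] A) :
    liftU (mapRep (f : U x y →+* A) (rU x y)) ((rU_normalized x y).map f) = f :=
  U_algHom_ext fun σ i j => by simp

end Univ

end Fermat.Agent.S53
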