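import Fermat.Agent.S53.TranslateA
import Fermat.Agent.S53.Univ
import Fermat.Agent.S53.FiniteTest

/-!
# S53: local structure of quotients of the universal ring
-/

set_option autoImplicit false
set_option linter.unusedSectionVars false
set_option linter.style.haveILetI false

namespace Fermat.Agent.S53

open IsLocalRing GaloisRep

section

variable {𝒪 : Type} [CommRing 𝒪] [IsLocalRing 𝒪]
  (rbar : Gal →* M2 (ResidueField 𝒪)) {x y : Gal →₀ 𝒪} (hnbar : Normalized x y rbar)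

/-- The residual point of the universal ring. -/
noncomputable def πU : U x y →ₐ[𝒪] ResidueField 𝒪 := liftU rbar hnbar

/-- The maximal ideal of the universal ring at the residual point. -/
noncomputable def mU : Ideal (U x y) := RingHom.ker (πU rbar hnbar : U x y →+* ResidueField 𝒪)

lemma mem_mU (u : U x y) : u ∈ mU rbar hnbar ↔ πU rbar hnbar u = 0 := Iff.rfl

lemma πU_algebraMap (c : 𝒪) : πU rbar hnbar (algebraMap 𝒪 (U x y) c) = residue 𝒪 c :=
  (πU rbar hnbar).commutes c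

lemma πU_rU (σ : Gal) (i j : Fin 2) : πU rbar hnbar (rU x y σ i j) = rbar σ i j :=
  liftU_rU rbar hnbar σ i j

lemma πU_surjective : Function.Surjective (πU rbar hnbar) := fun z => by
  obtain ⟨c, rfl⟩ := residue_surjective z
  exact ⟨algebraMap 𝒪 (U x y) c, πU_algebraMap rbar hnbar c⟩

instance mU_isMaximal : (mU rbar hnbar).IsMaximal :=
  RingHom.ker_isMaximal_of_surjective _ (πU_surjective rbar hnbar)

lemma exists_sub_mem_mU (u : U x y) : ∃ c : 𝒪, u - algebraMap 𝒪 (U x y) c ∈ mU rbar hnbar := by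
  obtain ⟨c, hc⟩ := residue_surjective (πU rbar hnbar u)
  refine ⟨c, ?_⟩
  rw [mem_mU, map_sub, πU_algebraMap, hc, sub_self]

lemma algebraMap_mem_mU_iff (c : 𝒪) :
    algebraMap 𝒪 (U x y) c ∈ mU rbar hnbar ↔ c ∈ maximalIdeal 𝒪 := by
  rw [mem_mU, πU_algebraMap, residue_eq_zero_iff]

lemma rU_sub_mem_mU (σ : Gal) (i j : Fin 2) (c : 𝒪) (hc : residue 𝒪 c = rbar σ i j) :
    rU x y σ i j - algebraMap 𝒪 (U x y) c ∈ mU rbar hnbar := by
  rw [mem_mU, map_sub, πU_algebraMap, πU_rU, hc, sub_self]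

variable {rbar hnbar}

lemma map_mk_mU_isMaximal {K : Ideal (U x y)} (hle : K ≤ mU rbar hnbar) :
    ((mU rbar hnbar).map (Ideal.Quotient.mk K)).IsMaximal :=
  Ideal.IsMaximal.map_of_surjective_of_ker_le Ideal.Quotient.mk_surjective (by simpa using hle)

lemma isLocalRing_quot {K : Ideal (U x y)} (hle : K ≤ mU rbar hnbar) {n : ℕ}
    (hpow : mU rbar hnbar ^ n ≤ K) : IsLocalRing (U x y ⧸ K) := by
  have hmax := map_mk_mU_isMaximal hle
  refine IsLocalRing.of_unique_max_ideal ⟨_, hmax, fun M hM => ?_⟩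
  refine (hmax.eq_of_le hM.ne_top ?_).symm
  rw [Ideal.map_le_iff_le_comap]
  intro u hu
  rw [Ideal.mem_comap]
  apply hM.isPrime.mem_of_pow_mem n
  rw [← map_pow, Ideal.Quotient.eq_zero_iff_mem.mpr (hpow (Ideal.pow_mem_pow hu n))]
  exact M.zero_mem

lemma maximalIdeal_quot {K : Ideal (U x y)} [IsLocalRing (U x y ⧸ K)] (hle : K ≤ mU rbar hnbar) :
    maximalIdeal (U x y ⧸ K) = (mU rbar hnbar).map (Ideal.Quotient.mk K) :=
  (IsLocalRing.eq_maximalIdeal (map_mk_mU_isMaximal hle)).symm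

lemma mk_mem_maximalIdeal_iff {K : Ideal (U x y)} [IsLocalRing (U x y ⧸ K)]
    (hle : K ≤ mU rbar hnbar) (u : U x y) :
    Ideal.Quotient.mk K u ∈ maximalIdeal (U x y ⧸ K) ↔ u ∈ mU rbar hnbar := by
  rw [maximalIdeal_quot hle]
  exact Ideal.mem_quotient_iff_mem hle

lemma isLocalHom_algebraMap_quot {K : Ideal (U x y)} [IsLocalRing (U x y ⧸ K)]
    (hle : K ≤ mU rbar hnbar) : IsLocalHom (algebraMap 𝒪 (U x y ⧸ K)) := by
  refine ⟨fun c hc => ?_⟩
  by_contra hcu
  have h1 : c ∈ maximalIdeal 𝒪 := hcu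
  have h2 : Ideal.Quotient.mk K (algebraMap 𝒪 (U x y) c) ∈ maximalIdeal (U x y ⧸ K) :=
    (mk_mem_maximalIdeal_iff hle _).mpr ((algebraMap_mem_mU_iff rbar hnbar c).mpr h1)
  exact h2 hc

lemma residue_surjective_quot {K : Ideal (U x y)} [IsLocalRing (U x y ⧸ K)]
    (hle : K ≤ mU rbar hnbar) :
    Function.Surjective (IsLocalRing.residue (U x y ⧸ K) ∘ algebraMap 𝒪 (U x y ⧸ K)) := by
  intro z
  obtain ⟨a, rfl⟩ := residue_surjective z
  obtain ⟨u, rfl⟩ := Ideal.Quotient.mk_surjective a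
  obtain ⟨c, hc⟩ := exists_sub_mem_mU rbar hnbar u
  refine ⟨c, ?_⟩
  have h2 := (mk_mem_maximalIdeal_iff hle _).mpr hc
  rw [← residue_eq_zero_iff, map_sub, map_sub, sub_eq_zero] at h2
  exact h2.symm

lemma isTest_quot {K : Ideal (U x y)} [IsLocalRing (U x y ⧸ K)] [Finite (U x y ⧸ K)]
    (hle : K ≤ mU rbar hnbar) : IsArtinianTestAlgebra 𝒪 (U x y ⧸ K) where
  isLocalHom := isLocalHom_algebraMap_quot hle
  residue_surjective := residue_surjective_quot hle
  isArtinian := isArtinian_of_finite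

/-- The tautological representation modulo `K`. -/
noncomputable def rK (K : Ideal (U x y)) : Gal →* M2 (U x y ⧸ K) :=
  mapRep (Ideal.Quotient.mk K) (rU x y)

lemma rK_apply (K : Ideal (U x y)) (σ : Gal) (i j : Fin 2) :
    rK K σ i j = Ideal.Quotient.mk K (rU x y σ i j) := rfl

lemma rK_normalized (K : Ideal (U x y)) : Normalized x y (rK K) :=
  (rU_normalized x y).map (Ideal.Quotient.mkₐ 𝒪 K)

lemma rK_resCond {K : Ideal (U x y)} [IsLocalRing (U x y ⧸ K)] (hle : K ≤ mU rbar hnbar) :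
    ResCond rbar (rK K) := by
  intro σ i j c hc
  exact (mk_mem_maximalIdeal_iff hle _).mpr (rU_sub_mem_mU rbar hnbar σ i j c hc)

lemma rK_sub_one_apply (K : Ideal (U x y)) (σ : Gal) (i j : Fin 2) :
    (rK K σ - 1) i j = Ideal.Quotient.mk K ((rU x y σ - 1) i j) := by
  simp only [Matrix.sub_apply, rK_apply, map_sub, Matrix.one_apply]
  split_ifs <;> simp

/-- Triviality of `rU` modulo `K` on an open subgroup. -/
def OpenKer (K : Ideal (U x y)) : Prop :=
  ∃ L : IntermediateField ℚ (AlgebraicClosure ℚ), FiniteDimensional ℚ L ∧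
    ∀ σ : Gal, (∀ z ∈ L, σ z = z) → ∀ i j, (rU x y σ - 1) i j ∈ K

lemma OpenKer.matCont {K : Ideal (U x y)} [IsLocalRing (U x y ⧸ K)] (h : OpenKer K) :
    MatCont (rK K) := by
  intro n
  obtain ⟨L, hL, h⟩ := h
  refine ⟨L, hL, fun σ hσ i j => ?_⟩
  rw [rK_sub_one_apply, Ideal.Quotient.eq_zero_iff_mem.mpr (h σ hσ i j)]
  exact Ideal.zero_mem _

lemma OpenKer.mono {K K' : Ideal (U x y)} (h : OpenKer K) (hle : K ≤ K') : OpenKer K' := by
  obtain ⟨L, hL, h⟩ := h
  exact ⟨L, hL, fun σ hσ i j => hle (h σ hσ i j)⟩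

lemma OpenKer.inf {K K' : Ideal (U x y)} (h : OpenKer K) (h' : OpenKer K') : OpenKer (K ⊓ K') := by
  obtain ⟨L, hL, h⟩ := h
  obtain ⟨L', hL', h'⟩ := h'
  refine ⟨L ⊔ L', IntermediateField.finiteDimensional_sup L L', fun σ hσ i j => ⟨?_, ?_⟩⟩
  · exact h σ (fun z hz => hσ z ((le_sup_left : L ≤ L ⊔ L') hz)) i j
  · exact h' σ (fun z hz => hσ z ((le_sup_right : L' ≤ L ⊔ L') hz)) i j

end

section General

variable {𝒪 : Type} [CommRing 𝒪] [IsLocalRing 𝒪]
  {rbar : Gal →* M2 (ResidueField 𝒪)} {x y : Gal →₀ 𝒪} {hnbar : Normalized x y rbar}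
  {A : Type} [CommRing A] [IsLocalRing A] [Algebra 𝒪 A]

/-- The classifying map of a lift of `rbar` is compatible with the residual points. -/
lemma liftU_mem_maximalIdeal_iff [IsLocalHom (algebraMap 𝒪 A)] {r : Gal →* M2 A}
    (hres : ResCond rbar r) (hn : Normalized x y r) (u : U x y) :
    liftU r hn u ∈ maximalIdeal A ↔ u ∈ mU rbar hnbar := by
  let f₁ : U x y →ₐ[𝒪] ResidueField A :=
    (IsScalarTower.toAlgHom 𝒪 A (ResidueField A)).comp (liftU r hn)
  let mapk : ResidueField 𝒪 →ₐ[𝒪] ResidueField A :=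
    { ResidueField.map (algebraMap 𝒪 A) with
      commutes' := fun c => ResidueField.map_residue (algebraMap 𝒪 A) c }
  let f₂ : U x y →ₐ[𝒪] ResidueField A := mapk.comp (πU rbar hnbar)
  have hf : f₁ = f₂ := by
    apply U_algHom_ext
    intro σ i j
    obtain ⟨c, hc⟩ := residue_surjective (rbar σ i j)
    change residue A (liftU r hn (rU x y σ i j)) =
      ResidueField.map (algebraMap 𝒪 A) (πU rbar hnbar (rU x y σ i j))
    rw [liftU_rU, πU_rU, ← hc, ResidueField.map_residue, ← sub_eq_zero, ← map_sub,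
      residue_eq_zero_iff]
    exact hres σ i j c hc
  have h1 : residue A (liftU r hn u) = ResidueField.map (algebraMap 𝒪 A) (πU rbar hnbar u) :=
    DFunLike.congr_fun hf u
  rw [← residue_eq_zero_iff, h1, mem_mU, map_eq_zero]

end General

end Fermat.Agent.S53
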