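import Fermat.Agent.S53.Good

/-!
# S53: good ideals of the universal ring
-/

set_option autoImplicit false
set_option linter.unusedSectionVars false
set_option linter.style.haveILetI false

namespace Fermat.Agent.S53

open IsLocalRing GaloisRep

section Transport

variable {𝒪 : Type} [CommRing 𝒪] [IsLocalRing 𝒪]
  {𝒟 : ∀ ⦃A : Type⦄ [CommRing A] [IsLocalRing A] [Algebra 𝒪 A], GaloisRepAdic A → Prop}
  (h𝒟 : IsDeformationCondition 𝒪 𝒟)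
  {A B : Type} [CommRing A] [IsLocalRing A] [Algebra 𝒪 A] [CommRing B] [IsLocalRing B] [Algebra 𝒪 B]

include h𝒟

lemma D_map (hA : IsArtinianTestAlgebra 𝒪 A) (hB : IsArtinianTestAlgebra 𝒪 B) (f : A →ₐ[𝒪] B)
    (hf : IsLocalHom (f : A →+* B)) {r : Gal →* M2 A} (hc : MatCont r) (h : 𝒟 (ofMat r hc))
    (hc' : MatCont (mapRep (f : A →+* B) r)) : 𝒟 (ofMat (mapRep (f : A →+* B) r) hc') :=
  h𝒟.of_isEquiv hB (baseChangeAlong_ofMat hc (f : A →+* B) hf) (h𝒟.baseChangeAlong hA hB f hf h)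

lemma D_of_map_injective (hA : IsArtinianTestAlgebra 𝒪 A) (hB : IsArtinianTestAlgebra 𝒪 B)
    (f : A →ₐ[𝒪] B) (hf : IsLocalHom (f : A →+* B)) (hinj : Function.Injective f)
    {r : Gal →* M2 A} (hc : MatCont r) (hc' : MatCont (mapRep (f : A →+* B) r))
    (h : 𝒟 (ofMat (mapRep (f : A →+* B) r) hc')) : 𝒟 (ofMat r hc) :=
  h𝒟.of_baseChangeAlong_injective hA hB f hf hinj
    (h𝒟.of_isEquiv hB (isEquiv_symm (baseChangeAlong_ofMat hc (f : A →+* B) hf)) h)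

omit h𝒟 in
lemma D_congr {r r' : Gal →* M2 A} (h : r = r') (hc : MatCont r) (hc' : MatCont r')
    (hD : 𝒟 (ofMat r hc)) : 𝒟 (ofMat r' hc') := by
  subst h
  exact hD

end Transport

section Good

variable {𝒪 : Type} [CommRing 𝒪] [IsLocalRing 𝒪]
  (rbar : Gal →* M2 (ResidueField 𝒪)) {x y : Gal →₀ 𝒪} (hnbar : Normalized x y rbar)
  (𝒟 : ∀ ⦃A : Type⦄ [CommRing A] [IsLocalRing A] [Algebra 𝒪 A], GaloisRepAdic A → Prop)

/-- Good ideals: those `K` for which `U ⧸ K` with the tautological representation is a test object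
of type `𝒟`. -/
structure Good (K : Ideal (U x y)) : Prop where
  le : K ≤ mU rbar hnbar
  pow_le : ∃ n, mU rbar hnbar ^ n ≤ K
  fin : Finite (U x y ⧸ K)
  openKer : OpenKer K
  type : ∀ (_ : IsLocalRing (U x y ⧸ K)) (hc : MatCont (rK K)), 𝒟 (ofMat (rK K) hc)

variable {rbar hnbar 𝒟}

lemma Good.isLocalRing {K : Ideal (U x y)} (h : Good rbar hnbar 𝒟 K) : IsLocalRing (U x y ⧸ K) := by
  obtain ⟨n, hn⟩ := h.pow_le
  exact isLocalRing_quot h.le hn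

lemma Good.isTest {K : Ideal (U x y)} (h : Good rbar hnbar 𝒟 K) [IsLocalRing (U x y ⧸ K)] :
    IsArtinianTestAlgebra 𝒪 (U x y ⧸ K) :=
  haveI := h.fin
  isTest_quot h.le

lemma isLocalHom_factor {K K' : Ideal (U x y)} [IsLocalRing (U x y ⧸ K)]
    [IsLocalRing (U x y ⧸ K')] (hK : K ≤ mU rbar hnbar) (hK' : K' ≤ mU rbar hnbar) (hle : K ≤ K') :
    IsLocalHom ((Ideal.Quotient.factorₐ 𝒪 hle : (U x y ⧸ K) →ₐ[𝒪] (U x y ⧸ K')) :
      (U x y ⧸ K) →+* (U x y ⧸ K')) := by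
  refine ⟨fun a ha => ?_⟩
  obtain ⟨u, rfl⟩ := Ideal.Quotient.mk_surjective a
  by_contra hu
  have h1 : Ideal.Quotient.mk K u ∈ maximalIdeal (U x y ⧸ K) := hu
  have h2 : Ideal.Quotient.mk K' u ∈ maximalIdeal (U x y ⧸ K') :=
    (mk_mem_maximalIdeal_iff hK' u).mpr ((mk_mem_maximalIdeal_iff hK u).mp h1)
  exact h2 ha

lemma mapRep_factor_rK {K K' : Ideal (U x y)} (hle : K ≤ K') :
    mapRep ((Ideal.Quotient.factorₐ 𝒪 hle : (U x y ⧸ K) →ₐ[𝒪] (U x y ⧸ K')) :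
      (U x y ⧸ K) →+* (U x y ⧸ K')) (rK K) = rK K' := by
  ext σ i j
  rfl

variable (h𝒟 : IsDeformationCondition 𝒪 𝒟)

include h𝒟

/-- G2: good ideals are upward closed (below `mU`). -/
lemma Good.mono {K K' : Ideal (U x y)} (h : Good rbar hnbar 𝒟 K) (hle : K ≤ K')
    (hK' : K' ≤ mU rbar hnbar) : Good rbar hnbar 𝒟 K' := by
  obtain ⟨n, hn⟩ := h.pow_le
  have hfin := h.fin
  have hfin' : Finite (U x y ⧸ K') :=
    Finite.of_surjective _ (Ideal.Quotient.factor_surjective hle)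
  refine ⟨hK', ⟨n, hn.trans hle⟩, hfin', h.openKer.mono hle, fun hloc hc => ?_⟩
  haveI := h.isLocalRing
  have h1 := D_map h𝒟 h.isTest (isTest_quot hK') (Ideal.Quotient.factorₐ 𝒪 hle)
    (isLocalHom_factor h.le hK' hle) h.openKer.matCont (h.type _ _)
    (by rw [mapRep_factor_rK]; exact hc)
  exact D_congr (mapRep_factor_rK hle) _ hc h1

/-- G3: good ideals are closed under intersection. -/
lemma Good.inf {K₁ K₂ : Ideal (U x y)} (h₁ : Good rbar hnbar 𝒟 K₁) (h₂ : Good rbar hnbar 𝒟 K₂) :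
    Good rbar hnbar 𝒟 (K₁ ⊓ K₂) := by
  obtain ⟨n₁, hn₁⟩ := h₁.pow_le
  obtain ⟨n₂, hn₂⟩ := h₂.pow_le
  have hfin₁ := h₁.fin
  have hfin₂ := h₂.fin
  have hle : K₁ ⊓ K₂ ≤ mU rbar hnbar := inf_le_left.trans h₁.le
  have hsup : K₁ ⊔ K₂ ≤ mU rbar hnbar := sup_le h₁.le h₂.le
  have hpow : mU rbar hnbar ^ (max n₁ n₂) ≤ K₁ ⊓ K₂ :=
    le_inf ((Ideal.pow_le_pow_right (le_max_left _ _)).trans hn₁)
      ((Ideal.pow_le_pow_right (le_max_right _ _)).trans hn₂)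
  let pA : (U x y ⧸ (K₁ ⊓ K₂)) →ₐ[𝒪] (U x y ⧸ K₁) := Ideal.Quotient.factorₐ 𝒪 inf_le_left
  let pB : (U x y ⧸ (K₁ ⊓ K₂)) →ₐ[𝒪] (U x y ⧸ K₂) := Ideal.Quotient.factorₐ 𝒪 inf_le_right
  let f : (U x y ⧸ K₁) →ₐ[𝒪] (U x y ⧸ (K₁ ⊔ K₂)) := Ideal.Quotient.factorₐ 𝒪 le_sup_left
  let g : (U x y ⧸ K₂) →ₐ[𝒪] (U x y ⧸ (K₁ ⊔ K₂)) := Ideal.Quotient.factorₐ 𝒪 le_sup_right
  have hinj : Function.Injective (fun z => (pA z, pB z)) := by
    intro a b hab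
    obtain ⟨u, rfl⟩ := Ideal.Quotient.mk_surjective a
    obtain ⟨v, rfl⟩ := Ideal.Quotient.mk_surjective b
    have h1 : Ideal.Quotient.mk K₁ u = Ideal.Quotient.mk K₁ v := congrArg Prod.fst hab
    have h2 : Ideal.Quotient.mk K₂ u = Ideal.Quotient.mk K₂ v := congrArg Prod.snd hab
    rw [Ideal.Quotient.eq] at h1 h2 ⊢
    exact ⟨h1, h2⟩
  have hfin : Finite (U x y ⧸ (K₁ ⊓ K₂)) := Finite.of_injective _ hinj
  have hfinsup : Finite (U x y ⧸ (K₁ ⊔ K₂)) :=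
    Finite.of_surjective _ (Ideal.Quotient.factor_surjective (le_sup_left : K₁ ≤ K₁ ⊔ K₂))
  refine ⟨hle, ⟨_, hpow⟩, hfin, h₁.openKer.inf h₂.openKer, fun hloc hc => ?_⟩
  haveI := h₁.isLocalRing
  haveI := h₂.isLocalRing
  haveI : IsLocalRing (U x y ⧸ (K₁ ⊔ K₂)) := isLocalRing_quot hsup (hn₁.trans le_sup_left)
  have hpA := isLocalHom_factor (K := K₁ ⊓ K₂) (K' := K₁) hle h₁.le inf_le_left
  have hpB := isLocalHom_factor (K := K₁ ⊓ K₂) (K' := K₂) hle h₂.le inf_le_right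
  refine h𝒟.of_fibreProduct h₁.isTest h₂.isTest (isTest_quot hsup) (isTest_quot hle) f g pA pB
    hpA hpB ?_ hinj ?_ ?_ ?_
  · ext a
    obtain ⟨u, rfl⟩ := Ideal.Quotient.mk_surjective a
    rfl
  · intro a b hab
    obtain ⟨u, rfl⟩ := Ideal.Quotient.mk_surjective a
    obtain ⟨v, rfl⟩ := Ideal.Quotient.mk_surjective b
    have h1 : Ideal.Quotient.mk (K₁ ⊔ K₂) u = Ideal.Quotient.mk (K₁ ⊔ K₂) v := hab
    rw [Ideal.Quotient.eq, Submodule.mem_sup] at h1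
    obtain ⟨κ₁, hκ₁, κ₂, hκ₂, hsum⟩ := h1
    refine ⟨Ideal.Quotient.mk _ (u - κ₁), ?_, ?_⟩
    · change Ideal.Quotient.mk K₁ (u - κ₁) = Ideal.Quotient.mk K₁ u
      rw [Ideal.Quotient.eq]
      simpa using K₁.neg_mem hκ₁
    · change Ideal.Quotient.mk K₂ (u - κ₁) = Ideal.Quotient.mk K₂ v
      rw [Ideal.Quotient.eq]
      have : u - κ₁ - v = κ₂ := by linear_combination -hsum
      rw [this]
      exact hκ₂
  · refine h𝒟.of_isEquiv h₁.isTest (isEquiv_symm (baseChangeAlong_ofMat hc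
      (pA : (U x y ⧸ (K₁ ⊓ K₂)) →+* (U x y ⧸ K₁)) hpA)) ?_
    exact D_congr (mapRep_factor_rK inf_le_left).symm h₁.openKer.matCont _ (h₁.type _ _)
  · refine h𝒟.of_isEquiv h₂.isTest (isEquiv_symm (baseChangeAlong_ofMat hc
      (pB : (U x y ⧸ (K₁ ⊓ K₂)) →+* (U x y ⧸ K₂)) hpB)) ?_
    exact D_congr (mapRep_factor_rK inf_le_right).symm h₂.openKer.matCont _ (h₂.type _ _)

end Good

end Fermat.Agent.S53
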