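import Fermat.Agent.S53.GoodIdeal

/-!
# S53: lifts over test algebras give good ideals
-/

set_option autoImplicit false
set_option linter.unusedSectionVars false
set_option linter.style.haveILetI false

namespace Fermat.Agent.S53

open IsLocalRing GaloisRep

section

variable {𝒪 : Type} [CommRing 𝒪] [IsLocalRing 𝒪]
  (rbar : Gal →* M2 (ResidueField 𝒪)) (x y : Gal →₀ 𝒪)
  (𝒟 : ∀ ⦃A : Type⦄ [CommRing A] [IsLocalRing A] [Algebra 𝒪 A], GaloisRepAdic A → Prop)

/-- A normalised lift of `rbar` of type `𝒟`. -/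
structure IsLift {A : Type} [CommRing A] [IsLocalRing A] [Algebra 𝒪 A] (r : Gal →* M2 A) : Prop where
  cont : MatCont r
  res : ResCond rbar r
  norm : Normalized x y r
  type : 𝒟 (ofMat r cont)

end

lemma exists_maximalIdeal_pow_eq_bot (A : Type) [CommRing A] [IsLocalRing A] [IsArtinianRing A] :
    ∃ n : ℕ, maximalIdeal A ^ n = ⊥ :=
  (isArtinianRing_iff_isNilpotent_maximalIdeal A).mp inferInstance

section

variable {𝒪 : Type} [CommRing 𝒪] [IsLocalRing 𝒪]
  {rbar : Gal →* M2 (ResidueField 𝒪)} {x y : Gal →₀ 𝒪} {hnbar : Normalized x y rbar}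
  {𝒟 : ∀ ⦃A : Type⦄ [CommRing A] [IsLocalRing A] [Algebra 𝒪 A], GaloisRepAdic A → Prop}
  {A : Type} [CommRing A] [IsLocalRing A] [Algebra 𝒪 A]

lemma map_liftU_mU_pow_le [IsLocalHom (algebraMap 𝒪 A)] {r : Gal →* M2 A}
    (hres : ResCond rbar r) (hn : Normalized x y r) (n : ℕ) {u : U x y}
    (hu : u ∈ mU rbar hnbar ^ n) : liftU r hn u ∈ maximalIdeal A ^ n := by
  have h1 : (mU rbar hnbar).map (liftU r hn : U x y →+* A) ≤ maximalIdeal A := by
    rw [Ideal.map_le_iff_le_comap]
    intro v hv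
    exact (liftU_mem_maximalIdeal_iff hres hn v).mpr hv
  have h2 : (mU rbar hnbar ^ n).map (liftU r hn : U x y →+* A) ≤ maximalIdeal A ^ n := by
    rw [Ideal.map_pow]
    exact Ideal.pow_right_mono h1 n
  exact h2 (Ideal.mem_map_of_mem _ hu)

lemma liftU_rU_sub_one (r : Gal →* M2 A) (hn : Normalized x y r) (σ : Gal) (i j : Fin 2) :
    liftU r hn ((rU x y σ - 1) i j) = (r σ - 1) i j := by
  simp only [Matrix.sub_apply, map_sub, liftU_rU, Matrix.one_apply]
  split_ifs <;> simp

/-- G1: the kernel of the classifying map of a lift over a test algebra is good. -/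
theorem good_ker_liftU [Finite (ResidueField 𝒪)] (h𝒟 : IsDeformationCondition 𝒪 𝒟)
    (hA : IsArtinianTestAlgebra 𝒪 A) {r : Gal →* M2 A} (h : IsLift rbar x y 𝒟 r) :
    Good rbar hnbar 𝒟 (RingHom.ker (liftU r h.norm)) := by
  haveI := hA.isLocalHom
  haveI := hA.isArtinian
  haveI hfinA : Finite A := finite_of_isArtinianTestAlgebra hA
  obtain ⟨n, hn⟩ := exists_maximalIdeal_pow_eq_bot A
  have hle : RingHom.ker (liftU r h.norm) ≤ mU rbar hnbar := by
    intro u hu
    rw [← liftU_mem_maximalIdeal_iff h.res h.norm u, (RingHom.mem_ker).mp hu]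
    exact Ideal.zero_mem _
  have hpow : mU rbar hnbar ^ n ≤ RingHom.ker (liftU r h.norm) := by
    intro u hu
    have := map_liftU_mU_pow_le h.res h.norm n hu
    rw [hn] at this
    exact this
  have hfin : Finite (U x y ⧸ RingHom.ker (liftU r h.norm)) :=
    Finite.of_injective _ (Ideal.kerLiftAlg_injective (liftU r h.norm))
  have hopen : OpenKer (RingHom.ker (liftU r h.norm)) := by
    obtain ⟨L, hL, hσ⟩ := h.cont n
    refine ⟨L, hL, fun σ hs i j => ?_⟩
    rw [RingHom.mem_ker, liftU_rU_sub_one]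
    have := hσ σ hs i j
    rw [hn] at this
    exact this
  refine ⟨hle, ⟨n, hpow⟩, hfin, hopen, fun hloc hc => ?_⟩
  have hmap : mapRep (Ideal.kerLiftAlg (liftU r h.norm) :
      (U x y ⧸ RingHom.ker (liftU r h.norm)) →+* A) (rK _) = r := by
    ext σ i j
    exact liftU_rU r h.norm σ i j
  have hι : IsLocalHom (Ideal.kerLiftAlg (liftU r h.norm) :
      (U x y ⧸ RingHom.ker (liftU r h.norm)) →+* A) := by
    refine ⟨fun a ha => ?_⟩
    obtain ⟨u, rfl⟩ := Ideal.Quotient.mk_surjective a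
    by_contra hu
    have h1 : u ∈ mU rbar hnbar := (mk_mem_maximalIdeal_iff hle u).mp hu
    have h2 : liftU r h.norm u ∈ maximalIdeal A := (liftU_mem_maximalIdeal_iff h.res h.norm u).mpr h1
    exact h2 ha
  refine D_of_map_injective h𝒟 (isTest_quot hle) hA (Ideal.kerLiftAlg (liftU r h.norm)) hι
    (Ideal.kerLiftAlg_injective _) hc (by rw [hmap]; exact h.cont) ?_
  exact D_congr hmap.symm h.cont _ h.type

end

section Residual

variable {𝒪 : Type} [CommRing 𝒪] [IsLocalRing 𝒪]

lemma isTest_residueField : IsArtinianTestAlgebra 𝒪 (ResidueField 𝒪) where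
  isLocalHom := by
    rw [ResidueField.algebraMap_eq]
    infer_instance
  residue_surjective :=
    (residue_surjective (R := ResidueField 𝒪)).comp (residue_surjective (R := 𝒪))
  isArtinian := inferInstance

variable {rbar : Gal →* M2 (ResidueField 𝒪)} {x y : Gal →₀ 𝒪} {hnbar : Normalized x y rbar}
  {𝒟 : ∀ ⦃A : Type⦄ [CommRing A] [IsLocalRing A] [Algebra 𝒪 A], GaloisRepAdic A → Prop}

lemma resCond_self : ResCond rbar rbar := by
  intro σ i j c hc
  rw [ResidueField.algebraMap_eq, hc, sub_self]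
  exact Ideal.zero_mem _

/-- G4 -/
theorem good_mU [Finite (ResidueField 𝒪)] (h𝒟 : IsDeformationCondition 𝒪 𝒟)
    (hcbar : MatCont rbar) (hDbar : 𝒟 (ofMat rbar hcbar)) :
    Good rbar hnbar 𝒟 (mU rbar hnbar) :=
  good_ker_liftU h𝒟 isTest_residueField
    (⟨hcbar, resCond_self, hnbar, hDbar⟩ : IsLift rbar x y 𝒟 rbar)

end Residual

end Fermat.Agent.S53
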