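import Fermat.Agent.S53.GoodLift
import Fermat.Agent.S53.DualNumber

/-!
# S53: finitely many generators of the maximal ideals of all good quotients
-/

set_option autoImplicit false
set_option linter.unusedSectionVars false
set_option linter.style.haveILetI false

namespace Fermat.Agent.S53

open IsLocalRing GaloisRep

attribute [local instance] dualAlg

section DualTest

variable {𝒪 : Type} [CommRing 𝒪] [IsLocalRing 𝒪]

lemma algebraMap_dualNumber (c : 𝒪) :
    algebraMap 𝒪 (DualNumber (ResidueField 𝒪)) c = TrivSqZeroExt.inl (residue 𝒪 c) := rfl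

instance finite_dualNumber [Finite (ResidueField 𝒪)] : Finite (DualNumber (ResidueField 𝒪)) :=
  inferInstanceAs (Finite (ResidueField 𝒪 × ResidueField 𝒪))

lemma isTest_dualNumber [Finite (ResidueField 𝒪)] :
    IsArtinianTestAlgebra 𝒪 (DualNumber (ResidueField 𝒪)) where
  isLocalHom := by
    refine ⟨fun c hc => ?_⟩
    rw [algebraMap_dualNumber, TrivSqZeroExt.isUnit_iff_isUnit_fst, TrivSqZeroExt.fst_inl] at hc
    by_contra hcu
    exact hc.ne_zero ((residue_eq_zero_iff c).mpr hcu)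
  residue_surjective := by
    intro z
    obtain ⟨a, rfl⟩ := residue_surjective z
    obtain ⟨c, hc⟩ := residue_surjective (TrivSqZeroExt.fst a)
    refine ⟨c, ?_⟩
    change residue _ (algebraMap 𝒪 (DualNumber (ResidueField 𝒪)) c) = residue _ a
    rw [← sub_eq_zero, ← map_sub, residue_eq_zero_iff, mem_maximalIdeal, mem_nonunits_iff,
      TrivSqZeroExt.isUnit_iff_isUnit_fst, algebraMap_dualNumber]
    simp [hc]
  isArtinian := isArtinian_of_finite

end DualTest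

section

variable {𝒪 : Type} [CommRing 𝒪] [IsLocalRing 𝒪]
  (rbar : Gal →* M2 (ResidueField 𝒪)) (x y : Gal →₀ 𝒪)
  (𝒟 : ∀ ⦃A : Type⦄ [CommRing A] [IsLocalRing A] [Algebra 𝒪 A], GaloisRepAdic A → Prop)

/-- The tangent vectors: classifying maps of lifts to the dual numbers. -/
def Phi : Set (U x y →ₐ[𝒪] DualNumber (ResidueField 𝒪)) :=
  {f | IsLift rbar x y 𝒟 (mapRep (f : U x y →+* DualNumber (ResidueField 𝒪)) (rU x y))}

end

section

variable {𝒪 : Type} [CommRing 𝒪] [IsLocalRing 𝒪]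
  {A B : Type} [CommRing A] [IsLocalRing A] [Algebra 𝒪 A] [CommRing B] [IsLocalRing B] [Algebra 𝒪 B]
  {rbar : Gal →* M2 (ResidueField 𝒪)} {x y : Gal →₀ 𝒪}
  {𝒟 : ∀ ⦃A : Type⦄ [CommRing A] [IsLocalRing A] [Algebra 𝒪 A], GaloisRepAdic A → Prop}

lemma ResCond.map {r : Gal →* M2 A} (h : ResCond rbar r) (f : A →ₐ[𝒪] B)
    (hf : IsLocalHom (f : A →+* B)) : ResCond rbar (mapRep (f : A →+* B) r) := by
  intro σ i j c hc
  have h1 := h σ i j c hc
  have h2 : mapRep (f : A →+* B) r σ i j - algebraMap 𝒪 B c = f (r σ i j - algebraMap 𝒪 A c) := by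
    rw [map_sub, AlgHom.commutes]; rfl
  rw [h2]
  exact map_nonunit (f : A →+* B) _ h1

lemma IsLift.map (h𝒟 : IsDeformationCondition 𝒪 𝒟) (hA : IsArtinianTestAlgebra 𝒪 A)
    (hB : IsArtinianTestAlgebra 𝒪 B) {r : Gal →* M2 A} (h : IsLift rbar x y 𝒟 r) (f : A →ₐ[𝒪] B)
    (hf : IsLocalHom (f : A →+* B)) : IsLift rbar x y 𝒟 (mapRep (f : A →+* B) r) where
  cont := h.cont.map _ hf
  res := h.res.map f hf
  norm := h.norm.map f
  type := D_map h𝒟 hA hB f hf h.cont h.type _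

end

section

variable {𝒪 : Type} [CommRing 𝒪] [IsLocalRing 𝒪]
  {rbar : Gal →* M2 (ResidueField 𝒪)} {x y : Gal →₀ 𝒪} {hnbar : Normalized x y rbar}
  {𝒟 : ∀ ⦃A : Type⦄ [CommRing A] [IsLocalRing A] [Algebra 𝒪 A], GaloisRepAdic A → Prop}

lemma Good.isLift {K : Ideal (U x y)} (h : Good rbar hnbar 𝒟 K) [IsLocalRing (U x y ⧸ K)] :
    IsLift rbar x y 𝒟 (rK K) where
  cont := h.openKer.matCont
  res := rK_resCond h.le
  norm := rK_normalized K
  type := h.type _ _

/-- D3b: finitely many elements of `mU` realising all values on the tangent vectors. -/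
lemma exists_tangent_generators [Finite (ResidueField 𝒪)] (hPhi : (Phi rbar x y 𝒟).Finite) :
    ∃ (e : ℕ) (t : Fin e → U x y), (∀ i, t i ∈ mU rbar hnbar) ∧
      ∀ u ∈ mU rbar hnbar, ∃ i, ∀ f ∈ Phi rbar x y 𝒟, f u = f (t i) := by
  haveI : Finite (Phi rbar x y 𝒟) := hPhi
  let ev : mU rbar hnbar → (Phi rbar x y 𝒟 → DualNumber (ResidueField 𝒪)) := fun u f => f.1 u.1
  haveI : Finite (Set.range ev) := Subtype.finite
  obtain ⟨e, ⟨E⟩⟩ := Finite.exists_equiv_fin (Set.range ev)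
  choose pre hpre using fun s : Set.range ev => s.2
  refine ⟨e, fun i => (pre (E.symm i)).1, fun i => (pre (E.symm i)).2, fun u hu => ?_⟩
  refine ⟨E ⟨ev ⟨u, hu⟩, ⟨u, hu⟩, rfl⟩, fun f hf => ?_⟩
  have h1 := hpre (E.symm (E ⟨ev ⟨u, hu⟩, ⟨u, hu⟩, rfl⟩))
  have h2 := congrFun h1 ⟨f, hf⟩
  rw [Equiv.symm_apply_apply] at h2
  simp only [Equiv.symm_apply_apply]
  exact h2.symm

/-- D3c: the maximal ideal of a good quotient is generated by `m_𝒪` and the `t i`. -/
lemma Good.maximalIdeal_eq [Finite (ResidueField 𝒪)] (h𝒟 : IsDeformationCondition 𝒪 𝒟)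
    {e : ℕ} {t : Fin e → U x y} (ht : ∀ i, t i ∈ mU rbar hnbar)
    (htan : ∀ u ∈ mU rbar hnbar, ∃ i, ∀ f ∈ Phi rbar x y 𝒟, f u = f (t i))
    {K : Ideal (U x y)} (h : Good rbar hnbar 𝒟 K) [IsLocalRing (U x y ⧸ K)] :
    maximalIdeal (U x y ⧸ K) = (maximalIdeal 𝒪).map (algebraMap 𝒪 (U x y ⧸ K)) ⊔
      Ideal.span (Set.range fun i => Ideal.Quotient.mk K (t i)) := by
  haveI := h.fin
  have hT := h.isTest
  haveI := hT.isLocalHom
  set I₀ : Ideal (U x y ⧸ K) := (maximalIdeal 𝒪).map (algebraMap 𝒪 (U x y ⧸ K)) ⊔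
      Ideal.span (Set.range fun i => Ideal.Quotient.mk K (t i)) with hI₀
  have hI₀le : I₀ ≤ maximalIdeal (U x y ⧸ K) := by
    refine sup_le ?_ ?_
    · rw [Ideal.map_le_iff_le_comap]
      intro c hc
      exact map_nonunit (algebraMap 𝒪 (U x y ⧸ K)) c hc
    · rw [Ideal.span_le]
      rintro _ ⟨i, rfl⟩
      exact (mk_mem_maximalIdeal_iff h.le _).mpr (ht i)
  have hIle : I₀ ⊔ maximalIdeal (U x y ⧸ K) ^ 2 ≤ maximalIdeal (U x y ⧸ K) :=
    sup_le hI₀le (Ideal.pow_le_self two_ne_zero)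
  have hIeq : I₀ ⊔ maximalIdeal (U x y ⧸ K) ^ 2 = maximalIdeal (U x y ⧸ K) := by
    by_contra hne
    obtain ⟨f, hf, hfI, t', ht', hft'⟩ := exists_algHom_dualNumber hT.isLocalHom
      hT.residue_surjective _ (lt_of_le_of_ne hIle hne) le_sup_right
      (le_sup_left.trans le_sup_left)
    obtain ⟨u, rfl⟩ := Ideal.Quotient.mk_surjective t'
    have hu : u ∈ mU rbar hnbar := (mk_mem_maximalIdeal_iff h.le u).mp ht'
    have hF : f.comp (Ideal.Quotient.mkₐ 𝒪 K) ∈ Phi rbar x y 𝒟 :=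
      h.isLift.map h𝒟 hT isTest_dualNumber f hf
    obtain ⟨i, hi⟩ := htan u hu
    have h1 := hi _ hF
    apply hft'
    change f (Ideal.Quotient.mk K u) = f (Ideal.Quotient.mk K (t i)) at h1
    rw [h1]
    exact hfI _ (Ideal.mem_sup_left (Ideal.mem_sup_right (Ideal.subset_span ⟨i, rfl⟩)))
  apply le_antisymm _ hI₀le
  refine Submodule.le_of_le_smul_of_le_jacobson_bot (I := maximalIdeal (U x y ⧸ K))
    (IsNoetherian.noetherian _) (IsLocalRing.maximalIdeal_le_jacobson _) ?_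
  rw [smul_eq_mul, ← pow_two]
  exact hIeq.ge

end

end Fermat.Agent.S53
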