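import Fermat.Agent.S53.Defs

/-!
# S53: translation layer between `GaloisRepAdic` and matrix representations (part A)
-/

set_option autoImplicit false
set_option linter.unusedSectionVars false
set_option linter.style.haveILetI false

namespace Fermat.Agent.S53

open IsLocalRing TensorProduct

section

variable {A B : Type} [CommRing A] [IsLocalRing A] [CommRing B] [IsLocalRing B]

lemma MatCont.map {r : Gal →* M2 A} (hr : MatCont r) (φ : A →+* B) (hφ : IsLocalHom φ) :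
    MatCont (mapRep φ r) := by
  intro n
  obtain ⟨L, hL, h⟩ := hr n
  refine ⟨L, hL, fun σ hσ i j => ?_⟩
  have hmap : (maximalIdeal A ^ n).map φ ≤ maximalIdeal B ^ n := by
    rw [Ideal.map_pow]
    exact Ideal.pow_right_mono (Ideal.map_le_iff_le_comap.mpr fun a ha =>
      Ideal.mem_comap.mpr (map_nonunit φ a ha)) n
  have h1 : (mapRep φ r σ - 1) i j = φ ((r σ - 1) i j) := by
    simp only [Matrix.sub_apply, mapRep_apply, map_sub, Matrix.one_apply]
    split_ifs <;> simp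
  rw [h1]
  exact hmap (Ideal.mem_map_of_mem φ (h σ hσ i j))

/-- T1a -/
theorem ofMat_isEquiv_of_conj {r₁ r₂ : Gal →* M2 A} (h₁ : MatCont r₁) (h₂ : MatCont r₂)
    (M : M2 A) (hM : IsUnit M) (h : ∀ σ, M * r₁ σ = r₂ σ * M) :
    (ofMat r₁ h₁).IsEquiv (ofMat r₂ h₂) := by
  obtain ⟨u, rfl⟩ := hM
  refine ⟨⟨Matrix.toLinearEquiv' (u : M2 A) ⟨(↑u⁻¹ : M2 A), by simp, by simp⟩, fun σ v => ?_⟩⟩
  change (u : M2 A).mulVec ((r₁ σ).mulVec v) = (r₂ σ).mulVec ((u : M2 A).mulVec v)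
  rw [Matrix.mulVec_mulVec, Matrix.mulVec_mulVec, h σ]

/-- T1b -/
theorem exists_conj_of_isEquiv {r₁ r₂ : Gal →* M2 A} (h₁ : MatCont r₁) (h₂ : MatCont r₂)
    (h : (ofMat r₁ h₁).IsEquiv (ofMat r₂ h₂)) :
    ∃ M : M2 A, IsUnit M ∧ ∀ σ, M * r₁ σ = r₂ σ * M := by
  obtain ⟨e⟩ := h
  let E : (Fin 2 → A) ≃ₗ[A] (Fin 2 → A) := e.toLinearEquiv
  refine ⟨LinearMap.toMatrix' (E : (Fin 2 → A) →ₗ[A] (Fin 2 → A)), ?_, fun σ => ?_⟩
  · refine ⟨⟨LinearMap.toMatrix' (E : (Fin 2 → A) →ₗ[A] (Fin 2 → A)),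
      LinearMap.toMatrix' (E.symm : (Fin 2 → A) →ₗ[A] (Fin 2 → A)), ?_, ?_⟩, rfl⟩
    · rw [← LinearMap.toMatrix'_comp]; simp
    · rw [← LinearMap.toMatrix'_comp]; simp
  · apply Matrix.toLin'.injective
    rw [Matrix.toLin'_mul, Matrix.toLin'_mul, Matrix.toLin'_toMatrix']
    refine LinearMap.ext fun v => ?_
    exact e.map_apply σ v

lemma piScalarRight_baseChange_toLin' [Algebra A B] (M : M2 A) (w : B ⊗[A] (Fin 2 → A)) :
    TensorProduct.piScalarRight A B B (Fin 2) ((Matrix.toLin' M).baseChange B w) =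
      (M.map (algebraMap A B)).mulVec (TensorProduct.piScalarRight A B B (Fin 2) w) := by
  induction w using TensorProduct.induction_on with
  | zero => simp only [map_zero, Matrix.mulVec_zero]
  | tmul b v =>
    rw [LinearMap.baseChange_tmul, TensorProduct.piScalarRight_apply,
      TensorProduct.piScalarRightHom_tmul, TensorProduct.piScalarRight_apply,
      TensorProduct.piScalarRightHom_tmul]
    funext i
    simp only [Matrix.toLin'_apply, Matrix.mulVec, dotProduct, Matrix.map_apply, Fin.sum_univ_two,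
      Algebra.smul_def, map_add, map_mul]
    ring
  | add w₁ w₂ h₁ h₂ => rw [map_add, map_add, map_add, h₁, h₂, Matrix.mulVec_add]

/-- T1c -/
theorem baseChangeAlong_ofMat {r : Gal →* M2 A} (hr : MatCont r) (φ : A →+* B)
    (hφ : IsLocalHom φ) :
    ((ofMat r hr).baseChangeAlong φ hφ).IsEquiv (ofMat (mapRep φ r) (hr.map φ hφ)) := by
  letI : Algebra A B := φ.toAlgebra
  exact ⟨⟨TensorProduct.piScalarRight A B B (Fin 2), fun σ w =>
    piScalarRight_baseChange_toLin' (r σ) w⟩⟩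

lemma repr_mem_of_mem_smul_top {V ι : Type} [AddCommGroup V] [Module A V]
    (b : Module.Basis ι A V) (I : Ideal A) {v : V} (hv : v ∈ I • (⊤ : Submodule A V)) (j : ι) :
    b.repr v j ∈ I := by
  refine Submodule.smul_induction_on hv ?_ ?_
  · intro a ha w _
    simpa using I.mul_mem_right _ ha
  · intro w z hw hz
    simpa using I.add_mem hw hz

/-- The matrix form of a `GaloisRepAdic` in a basis. -/
noncomputable def matOf (ρ : GaloisRepAdic A) (b : Module.Basis (Fin 2) A ρ.V) : Gal →* M2 A :=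
  ((LinearMap.toMatrixAlgEquiv b : Module.End A ρ.V ≃ₐ[A] M2 A) : Module.End A ρ.V →* M2 A).comp ρ.ρ

lemma matOf_apply (ρ : GaloisRepAdic A) (b : Module.Basis (Fin 2) A ρ.V) (σ : Gal) (i j : Fin 2) :
    matOf ρ b σ i j = b.repr (ρ.ρ σ (b j)) i := by
  change LinearMap.toMatrixAlgEquiv b (ρ.ρ σ) i j = _
  rw [LinearMap.toMatrixAlgEquiv_apply]

lemma matOf_cont (ρ : GaloisRepAdic A) (b : Module.Basis (Fin 2) A ρ.V) : MatCont (matOf ρ b) := by
  intro n
  obtain ⟨L, hL, h⟩ := ρ.isAdicContinuous n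
  refine ⟨L, hL, fun σ hσ i j => ?_⟩
  have h1 := repr_mem_of_mem_smul_top b _ (h σ hσ (b j)) i
  have h2 : (matOf ρ b σ - 1) i j = b.repr (ρ.ρ σ (b j) - b j) i := by
    rw [Matrix.sub_apply, matOf_apply, map_sub, Finsupp.sub_apply, b.repr_self,
      Finsupp.single_apply, Matrix.one_apply]
    simp only [eq_comm]
  rw [h2]
  exact h1

/-- Every `GaloisRepAdic` is equivalent to its matrix form. -/
theorem isEquiv_ofMat_matOf (ρ : GaloisRepAdic A) (b : Module.Basis (Fin 2) A ρ.V) :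
    ρ.IsEquiv (ofMat (matOf ρ b) (matOf_cont ρ b)) := by
  refine ⟨⟨b.equivFun, fun σ v => ?_⟩⟩
  change b.equivFun (ρ.ρ σ v) = (LinearMap.toMatrix b b (ρ.ρ σ)).mulVec (b.equivFun v)
  funext i
  rw [Module.Basis.equivFun_apply]
  exact (congrFun (LinearMap.toMatrix_mulVec_repr b b (ρ.ρ σ) v) i).symm

lemma isEquiv_symm {ρ₁ ρ₂ : GaloisRepAdic A} (h : ρ₁.IsEquiv ρ₂) : ρ₂.IsEquiv ρ₁ :=
  h.elim fun e => ⟨e.symm⟩

lemma isEquiv_trans {ρ₁ ρ₂ ρ₃ : GaloisRepAdic A} (h : ρ₁.IsEquiv ρ₂)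
    (h' : ρ₂.IsEquiv ρ₃) : ρ₁.IsEquiv ρ₃ :=
  h.elim fun e => h'.elim fun e' => ⟨e.trans e'⟩

end

end Fermat.Agent.S53
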